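import Fermat.Agent.SquareLevel.Hauptmodul.Points

/-!
# The Hauptmodul data at `(q, 4)` for odd `q` and at `(q, 9)` for `q ≠ 3`
-/

noncomputable section

open Function Polynomial ModularCurve
open Fermat.Agent.Igusa (evalAt CycInt cycZeta hSer)

namespace Fermat.Agent.SquareLevel

namespace BaseData

variable {q : ℕ} [hq : Fact q.Prime] [NeZero q] {n0 : ℕ} [NeZero n0] (D : BaseData n0) {n : ℕ}
  [hn : Fact n.Prime]

omit [NeZero q] [NeZero n0] in
theorem natCast_level_ne_zero (hn0 : n0 = n * n) (hqn : q ≠ n) : (n0 : ZMod q) ≠ 0 := by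
  rw [Ne, ZMod.natCast_eq_zero_iff, hn0]
  intro h
  rcases hq.out.dvd_mul.mp h with h | h <;>
    exact hqn ((Nat.prime_dvd_prime_iff_eq hq.out hn.out).mp h)

/-- The Hauptmodul data of a base datum at a prime off the level. -/
def hauptData (hn0 : n0 = n * n) (hqn : q ≠ n) : HauptData q n0 where
  t := D.t
  t_order := D.pole.order_eq
  t_coeff := D.pole.coeff_neg_one
  P := D.P4 ^ 3
  G := D.G
  P_monic := D.P_monic
  G_monic := D.G_monic
  G_degree := D.G_degree
  coprime := by
    rw [Polynomial.map_pow]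
    exact (D.coprime (ZMod q) (natCast_level_ne_zero hn0 hqn)).pow_left
  jrel := by
    simp only [← AlgHom.coe_toRingHom, ← AlgHom.toRingHom_eq_coe, aeval_toRingHom]
    exact D.jrel
  t_mem := D.tQ_mem
  gen := D.adjoin_tQ
  Phi := (D.exists_modEq (q := q) hn0 hqn).choose
  lead := D.G ^ (D.exists_modEq (q := q) hn0 hqn).choose_spec.choose
  lead_eq := by
    refine ⟨1, (D.exists_modEq (q := q) hn0 hqn).choose_spec.choose, fun h => ?_, by simp⟩
    have := Int.le_of_dvd one_pos h
    have := hq.out.two_le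
    omega
  Phi_degree := (D.exists_modEq (q := q) hn0 hqn).choose_spec.choose_spec.1
  Phi_lead := (D.exists_modEq (q := q) hn0 hqn).choose_spec.choose_spec.2.1
  Phi_relation := D.modEq_relation (D.exists_modEq (q := q) hn0 hqn).choose_spec.choose_spec.2.2
  Phi_relation_symm :=
    D.modEq_relation_symm (D.exists_modEq (q := q) hn0 hqn).choose_spec.choose_spec.2.2
  kronecker := D.modEq_kronecker (D.exists_modEq (q := q) hn0 hqn).choose_spec.choose_spec.2.2
  points := by
    intro W _ _ _ _ _ _ hm a hG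
    obtain ⟨H, hHm, hH⟩ := exists_deltaEq (q := q)
    exact D.ordinary_or_crossing hn0 hqn (D.exists_modEq (q := q) hn0 hqn).choose_spec.choose_spec.1
      (D.exists_modEq (q := q) hn0 hqn).choose_spec.choose_spec.2.1
      (D.exists_modEq (q := q) hn0 hqn).choose_spec.choose_spec.2.2 hHm hH hm a hG

end BaseData

/-- The data at an odd prime: level `4`. -/
def hauptDataFour (q : ℕ) [Fact q.Prime] [NeZero q] (hq2 : q ≠ 2) : HauptData q 4 :=
  haveI : Fact (Nat.Prime 2) := ⟨Nat.prime_two⟩
  baseFour.hauptData (n := 2) rfl hq2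

/-- The data at a prime other than `3`: level `9`. -/
def hauptDataNine (q : ℕ) [Fact q.Prime] [NeZero q] (hq3 : q ≠ 3) : HauptData q 9 :=
  haveI : Fact (Nat.Prime 3) := ⟨Nat.prime_three⟩
  baseNine.hauptData (n := 3) rfl hq3

end Fermat.Agent.SquareLevel
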