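import Fermat.Agent.SquareLevel.Hauptmodul.ModEq

/-!
# The equation of `q¹²Δ(qτ)/Δ` over `ℤ[j]`, and its reduction
-/

noncomputable section

open Function Polynomial ModularCurve
open Fermat.Agent.Igusa (jv sub evalAt zetaC isPrimitiveRoot_zetaC CycInt cycHom cycHom_zeta
  cycHom_injective cycZeta hSer ySer)

namespace Fermat.Agent.SquareLevel

variable {q : ℕ} [hq : Fact q.Prime]

theorem hSer_perm [NeZero q] {K : Type*} [CommRing K] {ζ : Kˣ} (hζ : ζ ^ q = 1) {k : ℕ}
    (hk : Nat.Coprime k q) : hSer q (ζ ^ k) = hSer q ζ := by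
  obtain ⟨σ, h1, h2, h3⟩ := exists_rootUnit_perm hζ hk
  rw [hSer, hSer]
  refine Eq.trans (Finset.prod_congr rfl fun x _ => ?_) (σ.prod_comp _ _ (by simp))
  simp only [Igusa.ySer, h1, h2, h3]

/-- `q¹²Δ(qτ)/Δ` satisfies a monic equation over `ℤ[j]`. -/
theorem exists_deltaEq [NeZero q] :
    ∃ H : Polynomial (Polynomial ℤ), H.Monic ∧
      H.map ((coeffMap (Int.castRingHom (CycInt q))).comp (evalAt (jv (1 : ℤˣ) q))) =
        hSer q (cycZeta q) := by
  classical
  have : Nontrivial (CycInt q) := (cycHom q (isPrimitiveRoot_zetaC q)).domain_nontrivial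
  obtain ⟨Q, hQ⟩ := Igusa.exists_hC (p := q)
  set S := hSer q (cycZeta q) with hS
  have himg : ∀ (ω : ℂˣ) (hω : IsPrimitiveRoot (ω : ℂ) q),
      S.map (coeffMap (cycHom q hω)) = hSer q ω := fun ω hω => by
    rw [hS, Igusa.map_hSer, cycHom_zeta]
  have hSm : S.Monic := monic_prod_of_monic _ _ fun x _ => monic_X_sub_C _
  set φ := (coeffMap (Int.castRingHom (CycInt q))).comp (evalAt (jv (1 : ℤˣ) q)) with hφ
  have hinj : Injective φ := by
    rw [hφ]
    exact (BaseData.cycCast_injective (q := q)).comp (Igusa.evalAt_jv_injective hq.out.ne_zero)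
  have hlift : S ∈ Polynomial.lifts φ := by
    rw [lifts_iff_coeff_lifts]
    intro i
    obtain ⟨F0, hF0⟩ := exists_int_series (S.coeff i) fun ω hω => by
      obtain ⟨k, hk, rfl⟩ := (isPrimitiveRoot_zetaC q).eq_pow_of_pow_eq_one hω.pow_eq_one
      have hk' : Nat.Coprime k q :=
        ((isPrimitiveRoot_zetaC q).pow_iff_coprime hq.out.pos k).mp hω
      have h1 := congrArg (fun P : Polynomial (LaurentSeries ℂ) => P.coeff i)
        ((himg (zetaC q ^ k) (by simpa using hω)).trans
          ((hSer_perm (Units.ext (by simpa using (isPrimitiveRoot_zetaC q).pow_eq_one)) hk').trans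
            (himg (zetaC q) (isPrimitiveRoot_zetaC q)).symm))
      simp only [Polynomial.coeff_map] at h1
      refine Eq.trans ?_ h1
      congr 2
    have h0 : evalAt (jv (1 : ℂˣ) q) (Q.coeff i) = coeffMap (Int.castRingHom ℂ) F0 := by
      rw [← Polynomial.coeff_map, hQ, ← himg (zetaC q) (isPrimitiveRoot_zetaC q),
        Polynomial.coeff_map, ← hF0, coeffMap_coeffMap,
        RingHom.ext_int ((cycHom q _).comp (Int.castRingHom _)) (Int.castRingHom ℂ)]
    obtain ⟨P, -, hP⟩ := Igusa.exists_lift_evalAt_jv Int.cast_injective hq.out.ne_zero _ F0 h0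
    exact ⟨P, by rw [hφ, RingHom.comp_apply, hP, hF0]⟩
  obtain ⟨H, hH⟩ := hlift
  rw [coe_mapRingHom] at hH
  exact ⟨H, monic_of_injective hinj (hH ▸ hSm), hH⟩

/-- Modulo `q` the equation of the Delta quotient is `Y^(q+1) + h(j) Y`, `h(j) Δ^(q-1) = -1`. -/
theorem deltaEq_red [NeZero q] {H : Polynomial (Polynomial ℤ)}
    (hH : H.map ((coeffMap (Int.castRingHom (CycInt q))).comp (evalAt (jv (1 : ℤˣ) q))) =
        hSer q (cycZeta q)) :
    ∃ h : Polynomial (ZMod q),
      H.map (mapRingHom (Int.castRingHom (ZMod q))) = X ^ (q + 1) + C h * X ∧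
      evalAt (jqModC (ZMod q)) h * Igusa.deltaSer (ZMod q) ^ (q - 1) = -1 := by
  classical
  have : CharP (LaurentSeries (ZMod q)) q :=
    charP_of_injective_ringHom (HahnSeries.C_injective (Γ := ℤ) (R := ZMod q)) q
  set Hq := H.map (mapRingHom (Int.castRingHom (ZMod q))) with hHq
  set g := Igusa.deltaSer (ZMod q) * qExpand (ZMod q) q (Igusa.deltaSerInv (ZMod q)) with hg
  have hmap : Hq.map (evalAt (jv (1 : (ZMod q)ˣ) q)) = hSer q (1 : (ZMod q)ˣ) := by
    have h := congrArg (Polynomial.map (coeffMap (BaseData.cycRed q))) hH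
    rw [Igusa.map_hSer, BaseData.cycRed_zeta, Polynomial.map_map] at h
    rw [← h, hHq, Polynomial.map_map]
    congr 1
    refine RingHom.ext fun P => ?_
    rw [RingHom.comp_apply, RingHom.comp_apply, RingHom.comp_apply, coeffMap_coeffMap,
      Igusa.coeffMap_evalAt, Igusa.coeffMap_jv _ _ hq.out.ne_zero, map_one, coe_mapRingHom,
      RingHom.ext_int ((BaseData.cycRed q).comp (Int.castRingHom _)) (Int.castRingHom (ZMod q))]
  have hinf : ySer (1 : (ZMod q)ˣ) (OnePoint.infty : OnePoint (ZMod q)) = 0 := by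
    show HahnSeries.C ((q : ZMod q) ^ 12) * _ * _ = 0
    rw [ZMod.natCast_self, zero_pow (by norm_num), map_zero, zero_mul, zero_mul]
  have hb : ∀ b : ZMod q, ySer (1 : (ZMod q)ˣ) (b : OnePoint (ZMod q)) = g := fun b => by
    show HahnSeries.C 1 * sub ((1 : (ZMod q)ˣ) ^ b.val) 1 (Igusa.deltaSer (ZMod q)) *
      sub (1 : (ZMod q)ˣ) q (Igusa.deltaSerInv (ZMod q)) = g
    rw [one_pow, Igusa.sub_one_eq, Igusa.sub_one_eq, qExpand_one_apply, map_one, one_mul]
  have hS : hSer q (1 : (ZMod q)ˣ) = X ^ (q + 1) - C (qExpand (ZMod q) q g) * X := by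
    rw [hSer]
    refine Eq.trans (Fintype.prod_option fun x : OnePoint (ZMod q) => X - C (ySer 1 x)) ?_
    show (X - C (ySer (1 : (ZMod q)ˣ) (OnePoint.infty : OnePoint (ZMod q)))) *
      ∏ b : ZMod q, (X - C (ySer (1 : (ZMod q)ˣ) (b : OnePoint (ZMod q)))) = _
    rw [hinf, Finset.prod_congr rfl fun b _ => by rw [hb b], Finset.prod_const, Finset.card_univ,
      ZMod.card, map_zero, sub_zero, sub_pow_char (p := q), ← map_pow, BaseData.pow_eq_qExpand]
    ring
  have hinj : Injective (evalAt (jv (1 : (ZMod q)ˣ) q)) :=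
    Igusa.evalAt_jv_injective hq.out.ne_zero
  refine ⟨Hq.coeff 1, Polynomial.map_injective _ hinj ?_, ?_⟩
  · rw [hmap, hS]
    have h1 := congrArg (fun P : Polynomial (LaurentSeries (ZMod q)) => P.coeff 1) (hmap.trans hS)
    simp only [Polynomial.coeff_map, coeff_sub, coeff_X_pow, coeff_C_mul,
      coeff_X_one, mul_one] at h1
    rw [if_neg (by have := hq.out.two_le; omega), zero_sub] at h1
    simp only [Polynomial.map_add, Polynomial.map_mul, Polynomial.map_pow, Polynomial.map_C,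
      Polynomial.map_X, h1, map_neg]
    ring
  · apply qExpand_injective (R := ZMod q) q
    have h1 := congrArg (fun P : Polynomial (LaurentSeries (ZMod q)) => P.coeff 1) (hmap.trans hS)
    simp only [Polynomial.coeff_map, coeff_sub, coeff_X_pow, coeff_C_mul,
      coeff_X_one, mul_one] at h1
    rw [if_neg (by have := hq.out.two_le; omega), zero_sub] at h1
    rw [map_mul, map_neg, map_one, ← Igusa.sub_one_eq q (evalAt _ _), ← RingHom.comp_apply,
      Igusa.sub_evalAt 1 hq.out.ne_zero,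
      show sub (1 : (ZMod q)ˣ) q (jqModC (ZMod q)) = jv (1 : (ZMod q)ˣ) q from rfl, h1,
      neg_mul, ← map_mul, neg_inj, ← map_one (qExpand (ZMod q) q)]
    congr 1
    rw [hg, ← BaseData.pow_eq_qExpand, mul_assoc, mul_comm (_ ^ q), ← mul_assoc, ← pow_succ',
      Nat.sub_add_cancel hq.out.pos, ← mul_pow, Igusa.deltaSer_mul_inv, one_pow]

end Fermat.Agent.SquareLevel
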