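import Fermat.Agent.MF.Descent
import Fermat.Agent.SquareLevel.Hauptmodul.DeltaEq

/-!
# Rational forms: the level `n₀` field is `ℚ(t)`, and roots of the modular equation come from
roots of the equation of `q¹²Δ(qτ)/Δ`
-/

noncomputable section

open Function Polynomial IntermediateField ModularCurve
open Fermat.Agent.Igusa (jv evalAt zetaC isPrimitiveRoot_zetaC CycInt cycHom cycHom_zeta cycZeta
  hSer ySer)

namespace Fermat.Agent.SquareLevel

variable {q : ℕ} [hq : Fact q.Prime]

omit hq in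
theorem coeffMap_deltaQuot [NeZero q] {K L : Type*} [CommRing K] [CommRing L] (φ : K →+* L) :
    coeffMap φ (deltaQuot K q) = deltaQuot L q := by
  rw [deltaQuot, deltaQuot, map_mul, map_mul, Igusa.coeffMap_C, coeffMap_qExpand,
    Igusa.coeffMap_deltaSer, Igusa.coeffMap_deltaSerInv, map_pow, map_natCast]

namespace BaseData

variable {n0 : ℕ} [NeZero n0] (D : BaseData n0) {n : ℕ} [hn : Fact n.Prime]

/-- `t` over `ℚ`. -/
def tQ : LaurentSeries ℚ := coeffMap (Int.castRingHom ℚ) D.t

omit [NeZero n0] in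
theorem coeffMap_tQ : coeffMap (algebraMap ℚ ℂ) D.tQ = D.tC := by
  rw [tQ, tC, coeffMap_coeffMap,
    RingHom.ext_int ((algebraMap ℚ ℂ).comp (Int.castRingHom ℚ)) (Int.castRingHom ℂ)]

omit [NeZero n0] in
theorem tQ_mem : D.tQ ∈ modularFunctionFieldFull n0 := by
  rw [← modularFunctionFieldFullC_rat, modularFunctionFieldFullC]
  refine MF.mem_adjoin_of_coeffMap_mem (k := ℚ) (K := ℂ) ?_
  rw [MF.coeffMap_image_divisorExpansions, D.coeffMap_tQ]
  exact D.mem

omit [NeZero n0] in
theorem adjoin_tQ : IntermediateField.adjoin ℚ {D.tQ} = modularFunctionFieldFull n0 := by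
  refine le_antisymm ((adjoin_simple_le_iff).mpr D.tQ_mem) fun x hx => ?_
  refine MF.mem_adjoin_of_coeffMap_mem (k := ℚ) (K := ℂ) ?_
  rw [Set.image_singleton, D.coeffMap_tQ]
  rw [← modularFunctionFieldFullC_rat, modularFunctionFieldFullC] at hx
  have h := MF.coeffMap_mem_adjoin (K := ℂ) hx
  rw [MF.coeffMap_image_divisorExpansions] at h
  show coeffMap _ x ∈ ℂ⟮D.tC⟯
  rw [← D.fullC_eq]
  exact h

variable [NeZero q]

theorem qExpand_tQ_mem (hn0 : n0 = n * n) (hqn : q ≠ n) :
    qExpand ℚ q D.tQ ∈ IntermediateField.adjoin ℚ {D.tQ, deltaQuot ℚ q} := by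
  refine MF.mem_adjoin_of_coeffMap_mem (k := ℚ) (K := ℂ) ?_
  rw [Set.image_pair, coeffMap_qExpand, D.coeffMap_tQ, coeffMap_deltaQuot,
    Set.insert_eq, adjoin_union, ← D.fullC_eq, (D.minpoly_eq_and_generates hn0 hqn).2.2,
    D.fullC_mul_eq]
  exact (le_sup_right : ℂ⟮qExpand ℂ q D.tC⟯ ≤ _) (mem_adjoin_simple_self ℂ _)

/-- A root of the equation of `q¹²Δ(qτ)/Δ` gives a root of the modular equation. -/
theorem exists_root_of_deltaEq (hn0 : n0 = n * n) (hqn : q ≠ n)
    {Φ : Polynomial (Polynomial ℤ)}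
    (hΦ : Φ.eval₂ (aeval D.t).toRingHom (qExpand ℤ q D.t) = 0)
    {H : Polynomial (Polynomial ℤ)} (hHm : H.Monic)
    (hH : H.map ((coeffMap (Int.castRingHom (CycInt q))).comp (evalAt (jv (1 : ℤˣ) q))) =
        hSer q (cycZeta q))
    {K : Type*} [Field K] (σ : ℤ[X] →+* K) (hσ : Injective σ) {x y : K}
    (hx : x * σ D.G = σ (D.P4 ^ 3))
    (hy : H.eval₂ (eval₂RingHom (Int.castRingHom K) x) y = 0) :
    ∃ S : K, Φ.eval₂ σ S = 0 := by
  classical
  let F := FractionRing ℤ[X]
  let am : ℤ[X] →+* F := algebraMap ℤ[X] F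
  let jF : F := am (D.P4 ^ 3) / am D.G
  let gF : ℤ[X] →+* F := eval₂RingHom (Int.castRingHom F) jF
  let tm : modularFunctionFieldFullC ℂ n0 := ⟨D.tC, D.mem⟩
  let e0 : ℤ[X] →+* modularFunctionFieldFullC ℂ n0 := eval₂RingHom (Int.castRingHom _) tm
  have he0 : (algebraMap _ (LaurentSeries ℂ)).comp e0 =
      (coeffMap (Int.castRingHom ℂ)).comp (evalAt D.t) :=
    Polynomial.ringHom_ext (fun a => by simp [e0]) (by simp [e0, tm, tC])
  have he0inj : Injective e0 := fun a b h => by
    have h1 := congrArg (algebraMap _ (LaurentSeries ℂ)) h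
    rw [← RingHom.comp_apply, ← RingHom.comp_apply, he0, RingHom.comp_apply,
      RingHom.comp_apply] at h1
    exact D.pole.evalAt_injective (EichlerShimura.coeffMap_injective Int.cast_injective h1)
  let τ0 : F →+* modularFunctionFieldFullC ℂ n0 := IsFractionRing.lift he0inj
  let τ : F →+* LaurentSeries ℂ := (algebraMap _ (LaurentSeries ℂ)).comp τ0
  have hτam : τ.comp am = (coeffMap (Int.castRingHom ℂ)).comp (evalAt D.t) := by
    rw [← he0]
    exact RingHom.ext fun P => congrArg (algebraMap _ (LaurentSeries ℂ))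
      (IsFractionRing.lift_algebraMap he0inj P)
  have hτG : τ (am D.G) ≠ 0 := by
    rw [← RingHom.comp_apply, hτam, RingHom.comp_apply]
    exact (map_ne_zero_iff _ (EichlerShimura.coeffMap_injective Int.cast_injective)).mpr
      (D.evalAt_ne_zero D.G_monic.ne_zero)
  have hτj : τ jF = jqModC ℂ := by
    rw [map_div₀, div_eq_iff hτG, ← RingHom.comp_apply, ← RingHom.comp_apply, hτam,
      RingHom.comp_apply, RingHom.comp_apply, ← D.jrel, map_mul, coeffMap_jqModC]
  set μ : F[X] := H.map gF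
  have hμm : μ.Monic := hHm.map _
  have hμser : (μ.map τ).map (qExpand ℂ q) = hSer q (zetaC q) := by
    have h := congrArg (Polynomial.map (coeffMap (cycHom q (isPrimitiveRoot_zetaC q)))) hH
    rw [Igusa.map_hSer, cycHom_zeta, Polynomial.map_map] at h
    rw [← h, Polynomial.map_map, Polynomial.map_map]
    congr 1
    refine Polynomial.ringHom_ext (fun a => ?_) ?_
    · simp [gF]
    · simp only [gF, RingHom.comp_apply, coe_eval₂RingHom, eval₂_X, Igusa.evalAt_X, hτj]
      rw [coeffMap_coeffMap, Igusa.coeffMap_jv _ _ hq.out.ne_zero, map_one,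
        Igusa.jv_one_eq_qExpand]
  obtain ⟨-, hgal, -⟩ := D.minpoly_eq_and_generates hn0 hqn
  have hmin : μ.map τ0 = minpoly (modularFunctionFieldFullC ℂ n0) (deltaQuot ℂ q) := by
    refine Polynomial.map_injective (baseSigma q n0) (RingHom.injective _) ?_
    rw [hgal, ← hμser]
    simp only [μ, Polynomial.map_map]
    rfl
  have hroot : (μ.map τ).eval (deltaQuot ℂ q) = 0 := by
    refine qExpand_injective (R := ℂ) q ?_
    rw [map_zero, ← Polynomial.eval_map_apply, hμser, qExpand_deltaQuot (zetaC q), hSer, eval_prod]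
    exact Finset.prod_eq_zero (Finset.mem_univ OnePoint.infty) (by simp)
  have hint : IsIntegral (modularFunctionFieldFullC ℂ n0) (deltaQuot ℂ q) := by
    refine ⟨μ.map τ0, hμm.map _, ?_⟩
    rw [eval₂_map, eval₂_eq_eval_map]
    exact hroot
  have : Fact (Irreducible μ) :=
    ⟨hμm.irreducible_of_irreducible_map τ0 μ (hmin ▸ minpoly.irreducible hint)⟩
  let θ : AdjoinRoot μ →+* LaurentSeries ℂ :=
    AdjoinRoot.lift τ (deltaQuot ℂ q) (by rw [eval₂_eq_eval_map]; exact hroot)
  -- `t(qτ)` is in the image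
  have hrange : ∀ z ∈ IntermediateField.adjoin ℚ {D.tQ, deltaQuot ℚ q},
      coeffMap (algebraMap ℚ ℂ) z ∈ θ.fieldRange := by
    intro z hz
    induction hz using IntermediateField.adjoin_induction with
    | mem w hw =>
      rcases hw with rfl | rfl
      · refine ⟨AdjoinRoot.of μ (am X), ?_⟩
        simp only [θ, AdjoinRoot.lift_of]
        rw [← RingHom.comp_apply, hτam, RingHom.comp_apply, Igusa.evalAt_X, D.coeffMap_tQ]
        rfl
      · exact ⟨AdjoinRoot.root μ, by simp only [θ, AdjoinRoot.lift_root, coeffMap_deltaQuot]⟩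
    | algebraMap r =>
      rw [eq_ratCast, map_ratCast]
      exact SubfieldClass.ratCast_mem _ r
    | add _ _ _ _ ha hb => rw [map_add]; exact add_mem ha hb
    | inv _ _ ha => rw [map_inv₀]; exact inv_mem ha
    | mul _ _ _ _ ha hb => rw [map_mul]; exact mul_mem ha hb
  obtain ⟨s, hs⟩ := hrange _ (D.qExpand_tQ_mem hn0 hqn)
  rw [coeffMap_qExpand, D.coeffMap_tQ] at hs
  have hsΦ : Φ.eval₂ ((AdjoinRoot.of μ).comp am) s = 0 := by
    refine θ.injective ?_
    rw [map_zero, hom_eval₂, hs, ← RingHom.comp_assoc, AdjoinRoot.lift_comp_of, hτam, tC,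
      ← coeffMap_qExpand, ← hom_eval₂, ← aeval_toRingHom, hΦ, map_zero]
  -- move to `K`
  let σF : F →+* K := IsFractionRing.lift hσ
  have hσam : σF.comp am = σ := RingHom.ext fun P => IsFractionRing.lift_algebraMap hσ P
  have hσj : σF jF = x := by
    rw [map_div₀, ← RingHom.comp_apply, ← RingHom.comp_apply, hσam,
      div_eq_iff (fun h => D.G_monic.ne_zero (hσ (h.trans (map_zero σ).symm))), hx]
  let ψ : AdjoinRoot μ →+* K := AdjoinRoot.lift σF y (by
    show eval₂ σF y (H.map gF) = 0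
    rw [eval₂_map]
    refine Eq.trans ?_ hy
    congr 1
    exact Polynomial.ringHom_ext (fun a => by simp [gF]) (by simp [gF, hσj]))
  refine ⟨ψ s, ?_⟩
  have := congrArg ψ hsΦ
  rw [map_zero, hom_eval₂, ← RingHom.comp_assoc, AdjoinRoot.lift_comp_of, hσam] at this
  exact this

end BaseData

end Fermat.Agent.SquareLevel
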