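import Fermat.Agent.Igusa.SmoothAssemble
import Fermat.Agent.SquareLevel.Hauptmodul.Rational

/-!
# The level `N` field is unramified over the `t`-line off the cusps

For `n₀ ∣ N`, `q ∤ N`, there are integral elements spanning the level `N` field over `ℚ(t)` whose
discriminant does not vanish at any point in characteristic `q` off the cusps.
-/

noncomputable section

open Polynomial ModularCurve ModularCurve.IgusaScheme

namespace Fermat.Agent.SquareLevel

/-- A prime of the base stays prime in a localisation of the polynomial ring at a monic. -/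
theorem prime_algebraMap_C {R A : Type*} [CommRing R] [IsDomain R] [CommRing A]
    [Algebra R[X] A] {h : R[X]} [IsLocalization.Away h A] (hh : h.Monic) {p : R} (hp : Prime p) :
    Prime (algebraMap R[X] A (C p)) := by
  have hP : Prime (C p) := Polynomial.prime_C_iff.mpr hp
  have hI : (Ideal.map (algebraMap R[X] A) (Ideal.span {C p})).IsPrime := by
    refine IsLocalization.isPrime_of_isPrime_disjoint (Submonoid.powers h) A _
      ((Ideal.span_singleton_prime hP.ne_zero).mpr hP) ?_
    rw [Set.disjoint_left]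
    rintro _ ⟨i, rfl⟩ hi
    obtain ⟨w, hw⟩ := hP.dvd_of_dvd_pow (Ideal.mem_span_singleton.mp hi)
    have h1 := congrArg (fun P : R[X] => P.coeff h.natDegree) hw
    simp only [coeff_C_mul] at h1
    rw [← leadingCoeff, hh.leadingCoeff] at h1
    exact hp.not_isUnit (isUnit_of_dvd_one ⟨_, h1⟩)
  rw [Ideal.map_span, Set.image_singleton] at hI
  refine (Ideal.span_singleton_prime ?_).mp hI
  rw [map_ne_zero_iff _ (IsLocalization.injective A
    (powers_le_nonZeroDivisors_of_noZeroDivisors hh.ne_zero))]
  exact hP.ne_zero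

/-- If the variable is integral over the image of `γ`, which contains the constants, so is every
polynomial. -/
theorem isIntegralElem_algebraMap {R A : Type*} [CommRing R] [CommRing A] [Algebra R[X] A]
    (γ : R[X] →+* A) (hC : ∀ c, algebraMap R[X] A (C c) = γ (C c))
    (hX : γ.IsIntegralElem (algebraMap R[X] A X)) (P : R[X]) :
    γ.IsIntegralElem (algebraMap R[X] A P) := by
  induction P using Polynomial.induction_on' with
  | add P Q hP hQ => rw [map_add]; exact hP.add γ hQ
  | monomial i c =>
    have hXi : γ.IsIntegralElem (algebraMap R[X] A X ^ i) := by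
      induction i with
      | zero => rw [pow_zero]; exact γ.isIntegralElem_one
      | succ i ih => rw [pow_succ]; exact ih.mul γ hX
    rw [← C_mul_X_pow_eq_monomial, map_mul, map_pow, hC c]
    exact (γ.isIntegralElem_map).mul γ hXi

/-- If every prime factor of `d` divides `c`, and `c` maps to `1`, then `d` does not map to `0`. -/
theorem map_ne_zero_of_prime_factors {A k : Type*} [CommRing A]
    [UniqueFactorizationMonoid A] [Field k] (ev : A →+* k) {c d : A} (hd : d ≠ 0)
    (hdiv : ∀ p, Prime p → p ∣ d → p ∣ c) (hc : ev c = 1) : ev d ≠ 0 := fun hd0 => by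
  obtain ⟨f, hf, u, hu⟩ := UniqueFactorizationMonoid.exists_prime_factors d hd
  rw [← hu, map_mul] at hd0
  have h1 := (mul_eq_zero.mp hd0).resolve_right (u.isUnit.map ev).ne_zero
  rw [map_multiset_prod, Multiset.prod_eq_zero_iff, Multiset.mem_map] at h1
  obtain ⟨p, hpf, hp0⟩ := h1
  obtain ⟨w, hw⟩ := hdiv p (hf p hpf) ((Multiset.dvd_prod hpf).trans ⟨u, hu.symm⟩)
  rw [hw, map_mul, hp0, zero_mul] at hc
  exact zero_ne_one hc

/-- A field generated by the image of `c` and an integral `θ` is finite, generated by `θ` as an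
algebra. -/
theorem finiteDimensional_of_generates {C L M : Type*} [CommRing C] [Field L] [Field M]
    [Algebra C L] [Algebra C M] [Algebra L M] [IsScalarTower C L M] {θ : M} (hθ : IsIntegral C θ)
    {c : C} {t : M} (hc : algebraMap C M c = t)
    (hgen : ∀ G : Subfield M, t ∈ G → θ ∈ G → G = ⊤) :
    FiniteDimensional L M ∧ Algebra.adjoin L {θ} = ⊤ := by
  have hθint : IsIntegral L θ := hθ.tower_top
  have htop : IntermediateField.adjoin L {θ} = ⊤ := by
    have hG := hgen (IntermediateField.adjoin L {θ}).toSubfield ?_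
      (IntermediateField.mem_adjoin_simple_self L θ)
    · exact IntermediateField.toSubfield_injective (hG.trans (by rfl))
    · show t ∈ IntermediateField.adjoin L {θ}
      rw [← hc, IsScalarTower.algebraMap_apply C L M]
      exact IntermediateField.algebraMap_mem _ _
  refine ⟨?_, by rw [← IntermediateField.adjoin_simple_toSubalgebra_of_isAlgebraic
    hθint.isAlgebraic, htop, IntermediateField.top_toSubalgebra]⟩
  have := IntermediateField.adjoin.finiteDimensional hθint
  rw [htop] at this
  exact Module.Finite.equiv (IntermediateField.topEquiv :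
    (⊤ : IntermediateField L M) ≃ₐ[L] M).toLinearEquiv

/-- The evaluations at `c` and at its image agree, the constants being rational. -/
theorem algebraMap_comp_aeval_loc {q : ℕ} {C M : Type*} [CommRing C] [Field M] [CharZero M]
    [Algebra ↥(GaloisRep.ratLocalizedAt q) C] [Algebra ↥(GaloisRep.ratLocalizedAt q) M]
    [Algebra C M] {c : C} {t : M} (hc : algebraMap C M c = t) :
    (algebraMap C M).comp (aeval (R := ↥(GaloisRep.ratLocalizedAt q)) c).toRingHom =
      (aeval (R := ↥(GaloisRep.ratLocalizedAt q)) t).toRingHom := by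
  refine Polynomial.ringHom_ext (fun a => ?_) ?_
  · exact RingHom.congr_fun (Igusa.ratLocalizedAt_ringHom_ext
      (((algebraMap C M).comp (aeval c).toRingHom).comp Polynomial.C)
      ((aeval (R := ↥(GaloisRep.ratLocalizedAt q)) t).toRingHom.comp Polynomial.C)) a
  · show algebraMap C M (aeval c X) = aeval t X
    rw [aeval_X, aeval_X, hc]

/-- An integral polynomial, seen in an algebra over `R[X]`, is its value at the image of `X`. -/
theorem algebraMap_map_intCast {R C : Type*} [CommRing R] [CommRing C] [Algebra R[X] C] (P : ℤ[X]) :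
    algebraMap R[X] C (P.map (Int.castRingHom R)) =
      P.eval₂ (Int.castRingHom C) (algebraMap R[X] C X) :=
  RingHom.congr_fun (Polynomial.ringHom_ext (f := (algebraMap R[X] C).comp (mapRingHom _))
    (g := eval₂RingHom (Int.castRingHom C) (algebraMap R[X] C X)) (fun a => by simp) (by simp)) P

namespace BaseData

variable {n0 : ℕ} [NeZero n0] (D : BaseData n0)

omit [NeZero n0] in
theorem monic_P4_cube_map {R : Type*} [CommRing R] :
    ((D.P4 ^ 3).map (Int.castRingHom R)).Monic := D.P_monic.map _

omit [NeZero n0] in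
/-- Off the cusps a root `α` of `P₄³ - c G` has multiplicity `ellIndex c`. -/
theorem exists_eq_pow_ellIndex_mul {c α : ℂ}
    (hG : (D.G.map (Int.castRingHom ℂ)).eval α ≠ 0)
    (hg0 : (D.g0.map (Int.castRingHom ℂ)).eval α ≠ 0)
    (hroot : ((D.P4 ^ 3).map (Int.castRingHom ℂ)).eval α =
      c * (D.G.map (Int.castRingHom ℂ)).eval α) :
    ∃ H : ℂ[X], H.eval α ≠ 0 ∧
      (D.P4 ^ 3).map (Int.castRingHom ℂ) - Polynomial.C c * D.G.map (Int.castRingHom ℂ) =
        (X - Polynomial.C α) ^ Igusa.ellIndex c * H := by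
  classical
  set φ := Int.castRingHom ℂ
  set P := (D.P4 ^ 3).map φ with hP
  set G := D.G.map φ
  set P4 := D.P4.map φ with hP4
  set P6 := D.P6.map φ with hP6
  set g := D.g0.map φ
  have hP43 : P = P4 ^ 3 := by rw [hP, Polynomial.map_pow]
  have hdelta : P4 ^ 3 - P6 ^ 2 = 1728 * G := by
    have := congrArg (Polynomial.map φ) D.delta_poly
    simpa using this
  have hW : derivative P * G - P * derivative G = P4 ^ 2 * P6 * g := by
    have := congrArg (Polynomial.map φ) D.wronsk
    simp only [Polynomial.map_sub, Polynomial.map_mul, Polynomial.map_pow,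
      ← derivative_map] at this
    rw [hP43]
    exact this
  have hP0 : P - Polynomial.C c * G ≠ 0 := by
    intro h0
    have h1 := congrArg natDegree (sub_eq_zero.mp h0)
    have h2 : (Polynomial.C c * G).natDegree ≤ G.natDegree := natDegree_C_mul_le _ _
    have h3 : G.natDegree < P.natDegree := by
      rw [hP, D.G_monic.natDegree_map, D.P_monic.natDegree_map]
      exact D.G_degree
    omega
  obtain ⟨H, hH, hHα⟩ := exists_eq_pow_rootMultiplicity_mul_and_not_dvd _ hP0 α
  set m := (P - Polynomial.C c * G).rootMultiplicity α with hm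
  have hHα' : H.eval α ≠ 0 := fun h => hHα (dvd_iff_isRoot.mpr h)
  refine ⟨H, hHα', ?_⟩
  have hm0 : 0 < m := (rootMultiplicity_pos hP0).mpr (by
    rw [IsRoot, eval_sub, eval_mul, eval_C, hroot, sub_self])
  obtain ⟨m', hm'⟩ : ∃ m', m = m' + 1 := ⟨m - 1, by omega⟩
  have hW' : P4 ^ 2 * P6 * g = (X - Polynomial.C α) ^ m' *
      ((m : ℂ[X]) * H * G + (X - Polynomial.C α) * (derivative H * G - H * derivative G)) := by
    rw [← hW]
    have hd := congrArg derivative hH
    rw [hm', derivative_sub, derivative_C_mul, derivative_mul, derivative_pow_succ,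
      derivative_X_sub_C, mul_one] at hd
    rw [hm'] at hH
    rw [hm']
    push_cast
    have hC : Polynomial.C ((m' : ℂ) + 1) = (m' : ℂ[X]) + 1 := by
      rw [map_add, map_natCast, map_one]
    rw [hC] at hd
    linear_combination G * hd - derivative G * hH
  have hrest : ((m : ℂ[X]) * H * G +
      (X - Polynomial.C α) * (derivative H * G - H * derivative G)).eval α ≠ 0 := by
    simp only [eval_add, eval_mul, eval_natCast, eval_sub, eval_X, eval_C, sub_self, zero_mul,
      add_zero]
    exact mul_ne_zero (mul_ne_zero (Nat.cast_ne_zero.mpr hm0.ne') hHα') hG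
  have hmult : (P4 ^ 2 * P6 * g).rootMultiplicity α = m' := by
    rw [hW', rootMultiplicity_mul (mul_ne_zero (pow_ne_zero _ (X_sub_C_ne_zero α))
      (fun h => hrest (by rw [h, eval_zero]))), rootMultiplicity_X_sub_C_pow,
      rootMultiplicity_eq_zero hrest, add_zero]
  have hne4 : P4 ≠ 0 := (D.P4_monic.map _).ne_zero
  have hneg : g ≠ 0 := (D.g0_monic.map _).ne_zero
  have hne6 : P6 ≠ 0 := Polynomial.map_ne_zero_iff Int.cast_injective |>.mpr D.P6_ne_zero
  rw [rootMultiplicity_mul (mul_ne_zero (mul_ne_zero (pow_ne_zero 2 hne4) hne6) hneg),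
    rootMultiplicity_mul (mul_ne_zero (pow_ne_zero 2 hne4) hne6),
    rootMultiplicity_eq_zero (p := g) hg0, add_zero] at hmult
  suffices m = Igusa.ellIndex c by rw [← this]; exact hH
  have hpow : ∀ (R : ℂ[X]), R ≠ 0 → ∀ k, (R ^ k).rootMultiplicity α = k * R.rootMultiplicity α := by
    intro R hR k
    induction k with
    | zero => rw [pow_zero, zero_mul]; exact rootMultiplicity_eq_zero (by simp [IsRoot])
    | succ k ih =>
      rw [pow_succ, rootMultiplicity_mul (mul_ne_zero (pow_ne_zero _ hR) hR), ih, add_one_mul]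
  rw [hpow _ hne4] at hmult
  have he4 : c = 0 → 3 * P4.rootMultiplicity α = m := fun hc => by
    rw [← hpow _ hne4, hm]
    congr 1
    rw [hc, map_zero, zero_mul, sub_zero, hP43]
  have he6 : c = 1728 → 2 * P6.rootMultiplicity α = m := fun hc => by
    rw [← hpow _ hne6, hm]
    congr 1
    rw [hc, hP43, show Polynomial.C (1728 : ℂ) = 1728 from map_ofNat Polynomial.C 1728]
    linear_combination -hdelta
  have h4 : c ≠ 0 → P4.rootMultiplicity α = 0 := fun hc => rootMultiplicity_eq_zero fun h => hc (by
    rw [hP43, eval_pow, h.eq_zero, zero_pow three_ne_zero, eq_comm, mul_eq_zero] at hroot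
    exact hroot.resolve_right hG)
  have h6 : c ≠ 1728 → P6.rootMultiplicity α = 0 := fun hc => rootMultiplicity_eq_zero fun h =>
    hc (by
      have h1 := congrArg (Polynomial.eval α) hdelta
      rw [eval_sub, eval_pow, eval_pow, h.eq_zero, eval_mul, eval_ofNat, zero_pow two_ne_zero,
        sub_zero] at h1
      rw [hP43, eval_pow, h1] at hroot
      exact (mul_right_cancel₀ hG hroot).symm)
  unfold Igusa.ellIndex
  split_ifs with hc hc'
  · have := he4 hc
    have := h6 (by rw [hc]; norm_num)
    omega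
  · have := he6 hc'
    have := h4 hc
    omega
  · have := h4 hc
    have := h6 hc'
    omega

variable {q : ℕ} [hq : Fact q.Prime] {n : ℕ} [hn : Fact n.Prime]

set_option quotPrecheck false in
local notation "ℤq" => ↥(GaloisRep.ratLocalizedAt q)

omit [NeZero n0] in
/-- `P` and `G` generate the unit ideal over `ℤ₍q₎`. -/
theorem isCoprime_loc (hn0 : (n0 : ZMod q) ≠ 0) :
    IsCoprime ((D.P4 ^ 3).map (Int.castRingHom ℤq)) (D.G.map (Int.castRingHom ℤq)) := by
  rw [← isUnit_resultant_iff_isCoprime D.monic_P4_cube_map, Igusa.isUnit_iff_redZ_ne_zero,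
    ← resultant_map_map,
    ← (D.monic_P4_cube_map (R := ℤq)).natDegree_map (Igusa.redZ q),
    ← ((D.G_monic.map (Int.castRingHom ℤq))).natDegree_map (Igusa.redZ q), Polynomial.map_map,
    Polynomial.map_map, RingHom.ext_int ((Igusa.redZ q).comp (Int.castRingHom ℤq))
      (Int.castRingHom (ZMod q))]
  refine ((isUnit_resultant_iff_isCoprime D.monic_P4_cube_map).mpr ?_).ne_zero
  rw [Polynomial.map_pow]
  exact (D.coprime (ZMod q) hn0).pow_left

omit [NeZero n0] in
theorem tQ_mem_level {N : ℕ} (hN : n0 ∣ N) : D.tQ ∈ modularFunctionFieldFull N := by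
  refine (IntermediateField.adjoin.mono ℚ _ _ ?_) D.tQ_mem
  rintro _ ⟨d, hd, hdn, rfl⟩
  exact ⟨d, hd, hdn.trans hN, rfl⟩

/-- `t` in the level `N` field. -/
def tLevel {N : ℕ} (hN : n0 ∣ N) : ↥(modularFunctionFieldFull N) := ⟨D.tQ, D.tQ_mem_level hN⟩

omit [NeZero n0] in
theorem coe_eval₂_tLevel {N : ℕ} (hN : n0 ∣ N) (P : ℤ[X]) :
    ((P.eval₂ (Int.castRingHom _) (D.tLevel hN) : ↥(modularFunctionFieldFull N)) :
        LaurentSeries ℚ) =
      coeffMap (Int.castRingHom ℚ) (Igusa.evalAt D.t P) := by
  induction P using Polynomial.induction_on' with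
  | add P Q hP hQ => rw [eval₂_add, map_add, map_add, ← hP, ← hQ]; rfl
  | monomial i c =>
    rw [eval₂_monomial, ← C_mul_X_pow_eq_monomial, map_mul, map_mul, map_pow, map_pow,
      Igusa.evalAt_C, Igusa.evalAt_X, Igusa.coeffMap_C]
    push_cast
    simp [tLevel, tQ]

omit [NeZero n0] in
/-- Off the cusps the `t`-line is integral over the `j`-line. -/
theorem isIntegral_jC (hn0 : (n0 : ZMod q) ≠ 0) (C : Type) [CommRing C] [IsDomain C]
    [Algebra ℤq[X] C] [IsLocalization.Away (D.G.map (Int.castRingHom ℤq)) C] [Algebra ℤq C]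
    [IsScalarTower ℤq ℤq[X] C] {jC : C}
    (hjrel : jC * D.G.eval₂ (Int.castRingHom C) (algebraMap ℤq[X] C X) =
      (D.P4 ^ 3).eval₂ (Int.castRingHom C) (algebraMap ℤq[X] C X)) :
    (aeval (R := ℤq) jC).toRingHom.IsIntegral := by
  have := Igusa.isPrincipalIdealRing_ratLocalizedAt q
  set h : ℤq[X] := D.G.map (Int.castRingHom ℤq) with hhdef
  set T := algebraMap ℤq[X] C X with hT
  have hev : ∀ P : ℤ[X], algebraMap ℤq[X] C (P.map (Int.castRingHom ℤq)) =
      P.eval₂ (Int.castRingHom C) T := algebraMap_map_intCast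
  have hu : algebraMap ℤq[X] C h * IsLocalization.Away.invSelf h = 1 :=
    IsLocalization.Away.mul_invSelf h
  have hGu : IsUnit (D.G.eval₂ (Int.castRingHom C) T) := by
    rw [← hev]; exact IsLocalization.Away.algebraMap_isUnit h
  set γ := (aeval (R := ℤq) jC).toRingHom with hγ
  have hlam : γ.IsIntegralElem (algebraMap ℤq[X] C X) := by
    refine ⟨((D.P4 ^ 3).map (Int.castRingHom ℤq[X])) -
      Polynomial.C X * D.G.map (Int.castRingHom ℤq[X]), ?_, ?_⟩
    · refine (D.P_monic.map _).sub_of_left (lt_of_le_of_lt (degree_mul_le _ _) ?_)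
      refine lt_of_le_of_lt (add_le_add degree_C_le degree_le_natDegree) ?_
      rw [zero_add, degree_eq_natDegree (D.P_monic.map _).ne_zero,
        (D.P_monic).natDegree_map]
      exact WithBot.coe_lt_coe.mpr (lt_of_le_of_lt natDegree_map_le D.G_degree)
    · rw [eval₂_sub, eval₂_mul, eval₂_C, eval₂_map, eval₂_map,
        RingHom.ext_int (γ.comp (Int.castRingHom _)) (Int.castRingHom C),
        show γ X = jC from aeval_X _, hjrel, sub_self]
  have hinv : γ.IsIntegralElem (IsLocalization.Away.invSelf h) := by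
    obtain ⟨a, b, hab⟩ := D.isCoprime_loc hn0
    have h1 := congrArg (algebraMap ℤq[X] C) hab
    rw [map_add, map_mul, map_mul, map_one, hev, hev] at h1
    have hval : IsLocalization.Away.invSelf h =
        algebraMap ℤq[X] C a * jC + algebraMap ℤq[X] C b := by
      refine mul_left_cancel₀ (hGu.ne_zero) ?_
      rw [show D.G.eval₂ (Int.castRingHom C) T * IsLocalization.Away.invSelf h = 1 by
        rw [← hev, ← hhdef, hu]]
      linear_combination -h1 - (algebraMap ℤq[X] C a) * hjrel
    rw [hval]
    have hpoly := isIntegralElem_algebraMap γ (fun c =>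
      (IsScalarTower.algebraMap_apply ℤq ℤq[X] C c).symm.trans (aeval_C jC c).symm) hlam
    refine ((hpoly a).mul γ ?_).add γ (hpoly b)
    rw [show jC = γ X from (aeval_X jC).symm]
    exact γ.isIntegralElem_map
  exact Igusa.isIntegral_cover q jC hlam hinv

omit [NeZero n0] in
/-- A basis of integral elements whose discriminant is a unit at every point off the cusps. -/
theorem exists_unit_discr (hn0 : (n0 : ZMod q) ≠ 0) (N : ℕ) [NeZero N] (hN : n0 ∣ N)
    (hqN : ¬ q ∣ N)
    (C : Type) [CommRing C] [IsDomain C] [Algebra ℤq[X] C]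
    [IsLocalization.Away (D.G.map (Int.castRingHom ℤq)) C]
    (L : Type) [Field L] [Algebra C L] [IsFractionRing C L]
    [Algebra C ↥(modularFunctionFieldFull N)] [Algebra L ↥(modularFunctionFieldFull N)]
    [IsScalarTower C L ↥(modularFunctionFieldFull N)]
    (hX : algebraMap C ↥(modularFunctionFieldFull N) (algebraMap ℤq[X] C X) = D.tLevel hN) :
    ∃ (_ : FiniteDimensional L ↥(modularFunctionFieldFull N))
      (r : Fin (Module.finrank L ↥(modularFunctionFieldFull N)) → ↥(modularFunctionFieldFull N))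
      (d : C), (∀ i, IsIntegral C (r i)) ∧ LinearIndependent L r ∧
        algebraMap C L d = Algebra.discr L r ∧
        ∀ {k : Type} [Field k] (ev : C →+* k), (q : k) = 0 → ev d ≠ 0 := by
  classical
  set M := ↥(modularFunctionFieldFull N)
  set h : ℤq[X] := D.G.map (Int.castRingHom ℤq) with hhdef
  have hh0 : h ≠ 0 := (D.G_monic.map _).ne_zero
  have hhmon : h.Monic := D.G_monic.map _
  have := Igusa.isPrincipalIdealRing_ratLocalizedAt q
  have : UniqueFactorizationMonoid C :=
    UniqueFactorizationMonoid.of_isLocalization (Submonoid.powers h) C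
  have : IsNoetherianRing C := IsLocalization.isNoetherianRing (Submonoid.powers h) C inferInstance
  let algOC : Algebra ℤq C := ((algebraMap ℤq[X] C).comp Polynomial.C).toAlgebra
  have : IsScalarTower ℤq ℤq[X] C := IsScalarTower.of_algebraMap_eq fun _ => rfl
  set T := algebraMap ℤq[X] C X with hT
  have hev : ∀ P : ℤ[X], algebraMap ℤq[X] C (P.map (Int.castRingHom ℤq)) =
      P.eval₂ (Int.castRingHom C) T := algebraMap_map_intCast
  have hσev : ∀ P : ℤ[X], algebraMap C M (P.eval₂ (Int.castRingHom C) T) =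
      P.eval₂ (Int.castRingHom M) (D.tLevel hN) := fun P => by
    rw [hom_eval₂, hX]
    congr 1
    exact RingHom.ext_int _ _
  have hu : algebraMap ℤq[X] C h * IsLocalization.Away.invSelf h = 1 :=
    IsLocalization.Away.mul_invSelf h
  have hGu : IsUnit (D.G.eval₂ (Int.castRingHom C) T) := by
    rw [← hev]; exact IsLocalization.Away.algebraMap_isUnit h
  -- `j` in `C`
  set jC : C := (D.P4 ^ 3).eval₂ (Int.castRingHom C) T * IsLocalization.Away.invSelf h with hjC
  have hjrel : jC * D.G.eval₂ (Int.castRingHom C) T = (D.P4 ^ 3).eval₂ (Int.castRingHom C) T := by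
    rw [← hev D.G, ← hhdef, hjC, mul_assoc, mul_comm (IsLocalization.Away.invSelf h), hu, mul_one]
  have hσj : algebraMap C M jC = jFull N := by
    refine mul_right_cancel₀ (hGu.map (algebraMap C M)).ne_zero ?_
    rw [← map_mul, hjrel, hσev, hσev]
    refine Subtype.ext ?_
    show _ = (jFull N : LaurentSeries ℚ) * (_ : M).1
    rw [D.coe_eval₂_tLevel, D.coe_eval₂_tLevel, ← D.jrel, map_mul, coe_jFull,
      ← jqModC_rat, coeffMap_jqModC]
  -- `C` is integral over `ℤ₍q₎[j]`
  have ht : Igusa.IsChartGen N (jFull N) := Or.inl rfl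
  set γ := (aeval (R := ℤq) jC).toRingHom with hγ
  have hintC : γ.IsIntegral := D.isIntegral_jC hn0 C hjrel
  have hσγ : (algebraMap C M).comp γ = (aeval (R := ℤq) (jFull N)).toRingHom :=
    algebraMap_comp_aeval_loc hσj
  have hγinj : Function.Injective γ := by
    refine Function.Injective.of_comp (f := algebraMap C M) ?_
    rw [← RingHom.coe_comp, hσγ]
    exact ht.aeval_injective N q
  -- the special prime
  set π := algebraMap ℤq C (q : ℤq) with hπdef
  have hprime : Prime (q : ℤq) := Igusa.prime_natCast_self q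
  have hπC : π = algebraMap ℤq[X] C (Polynomial.C (q : ℤq)) := rfl
  have hπprime : Prime π := hπC ▸ prime_algebraMap_C hhmon hprime
  have hpid : IsPrincipalIdealRing (C ⧸ Ideal.span {π}) := by
    have := Igusa.isPrincipalIdealRing_quotient_prime hprime
    rw [hπC]
    exact Igusa.isPrincipalIdealRing_quotient_localization (Submonoid.powers h)
      (Polynomial.C (q : ℤq))
  -- the generator
  obtain ⟨W⟩ := (Igusa.nonempty_chartWitness N q hqN ht).1
  have hQθ : aeval W.θ (W.Q.map γ) = 0 := by
    rw [aeval_def, eval₂_map, hσγ]; exact W.eval_eq_zero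
  have hθC : IsIntegral C W.θ := ⟨_, W.monic.map γ, hQθ⟩
  obtain ⟨hfin, hadj⟩ := finiteDimensional_of_generates (L := L) hθC hσj W.generates
  have := hfin
  have : CharZero L := (algebraMap L M).charZero
  set R := integralClosure C M
  obtain ⟨c, r, hc, hli, hspan⟩ := Igusa.exists_basis_near_fibre C L M R π hπprime hpid
  have hliM : LinearIndependent L fun i => algebraMap R M (r i) := by
    rw [← LinearIndependent.iff_fractionRing C L]
    exact hli.map' ((IsScalarTower.toAlgHom C R M).toLinearMap)
      (LinearMap.ker_eq_bot.mpr (IsIntegralClosure.algebraMap_injective R C M))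
  choose G hG using fun i j => Igusa.exists_trace_eq (C := C) (L := L) (M := M) (r i * r j)
  have hd : algebraMap C L (Matrix.of G).det = Algebra.discr L fun i => algebraMap R M (r i) := by
    rw [RingHom.map_det, Algebra.discr_def]
    congr 1
    ext i j
    simp [hG, Algebra.traceMatrix_apply, Algebra.traceForm_apply]
  refine ⟨inferInstance, fun i => algebraMap R M (r i), (Matrix.of G).det, fun i => (r i).2, hliM,
    hd, ?_⟩
  -- primes of the discriminant
  set d := (Matrix.of G).det
  let θR : R := ⟨W.θ, hθC⟩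
  have hπd : ¬ π ∣ d := by
    refine Igusa.not_dvd_discr_of_separable hπprime hc hspan hd θR hadj (W.Q.map γ) (W.U.map γ)
      (W.V.map γ) (γ W.a) (W.monic.map _) (Subtype.ext ?_) ?_ fun i => ?_
    · have h1 := aeval_algHom_apply (IsScalarTower.toAlgHom C R M) θR (W.Q.map γ)
      exact h1.symm.trans hQθ
    · have hπγ : π = γ (Polynomial.C (q : ℤq)) := by
        rw [hγ]; exact (aeval_C jC _).symm
      rw [hπγ]
      exact Igusa.not_dvd_image_of_isIntegral γ hγinj hintC (Igusa.prime_C_natCast q) W.not_dvd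
    · have hπγ : π = γ (Polynomial.C (q : ℤq)) := by
        rw [hγ]; exact (aeval_C jC _).symm
      rw [hπγ, derivative_map, ← Polynomial.map_mul, ← Polynomial.map_mul, ← Polynomial.map_add,
        ← Polynomial.map_C, ← Polynomial.map_sub, coeff_map]
      exact map_dvd _ (W.dvd_coeff i)
  have hdiv : ∀ p : C, Prime p → p ∣ d → p ∣ c := by
    intro p hp hpd
    by_contra hpc
    have hπp : ¬ π ∣ p := fun h => hπd (h.trans hpd)
    obtain ⟨χ, hχ, G₀, hG₀, hG₀'⟩ := Igusa.exists_point q (h := h) hp hπprime hπp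
    have hχev : ∀ P : ℤ[X], χ (P.eval₂ (Int.castRingHom C) T) =
        (P.map (Int.castRingHom ℂ)).eval (χ T) := fun P => by
      rw [hom_eval₂, eval_map, RingHom.ext_int (χ.comp (Int.castRingHom C)) (Int.castRingHom ℂ)]
    have hGχ : (D.G.map (Int.castRingHom ℂ)).eval (χ T) ≠ 0 := by
      rw [← hχev]; exact (hGu.map χ).ne_zero
    have hg0χ : (D.g0.map (Int.castRingHom ℂ)).eval (χ T) ≠ 0 := fun h0 => hGχ (by
      obtain ⟨u, hu⟩ := D.g0_dvd
      rw [hu, Polynomial.map_mul, eval_mul, h0, zero_mul])
    obtain ⟨ψ, g, hh, hψ, hgh, hh0'⟩ := Igusa.exists_expansion_at N (χ jC)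
    obtain ⟨H, hHα, hfac⟩ := D.exists_eq_pow_ellIndex_mul (c := χ jC) hGχ hg0χ (by
      rw [← hχev, ← hχev, ← map_mul, hjrel])
    have he : Igusa.ellIndex (χ jC) ≠ 0 := by unfold Igusa.ellIndex; split_ifs <;> norm_num
    obtain ⟨ε, hker, hone, hεj⟩ := Igusa.exists_series_point (h := h) χ hχ G₀ hG₀ hG₀'
      (D.P4 ^ 3) D.G jC hjrel hGu he g hh hgh hh0' ⟨H, hHα, hfac⟩
    obtain ⟨x, hx, hroot⟩ := W.exists_roots N q ψ
      (τJ := HahnSeries.ofPowerSeries ℤ ℂ g) (fun φ hφ => by rw [hφ, hψ])
      (e := ((HahnSeries.ofPowerSeries ℤ ℂ).comp ε).comp γ) (by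
        show HahnSeries.ofPowerSeries ℤ ℂ (ε (aeval jC X)) = _
        rw [aeval_X, hεj])
    obtain ⟨S⟩ := Igusa.nonempty_splitsAtPrime (L := L) hp ε hker hone hadj (W.monic.map γ) hQθ
      (fun i => x (Fin.cast (W.monic.natDegree_map γ) i)) (hx.comp (Fin.cast_injective _))
      (fun i => by rw [eval₂_map]; exact hroot _)
    exact Igusa.not_dvd_discr_of_splitsAtPrime hli hspan hd hp hpc S hpd
  intro k _ ev hk
  obtain ⟨w', hw'⟩ := hc
  have hc1 := congrArg ev hw'
  rw [map_sub, map_one, map_mul, hπdef, map_natCast (algebraMap ℤq C), map_natCast, hk, zero_mul,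
    sub_eq_zero] at hc1
  exact map_ne_zero_of_prime_factors ev (fun h0 => hπd (h0 ▸ dvd_zero _)) hdiv hc1

end BaseData

end Fermat.Agent.SquareLevel
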