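import Mathlib

/-!
# Conjugate vectors with unit discriminant over a Henselian ring with closed residue field

If the conjugates `v k` of `n` integral elements have a determinant whose square is residually
nonzero, they all lie in the base ring.
-/

noncomputable section

open Polynomial Function

namespace Fermat.Agent.SquareLevel

variable {A k K Ω : Type*} [CommRing A] [IsDomain A] [IsIntegrallyClosed A] [Field k]
  [IsAlgClosed k] [Field K] [CharZero K] [Algebra A K] [IsFractionRing A K] [Field Ω]
  [Algebra K Ω] [IsAlgClosure K Ω] [Algebra A Ω] [IsScalarTower A K Ω]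

include K in
omit [IsDomain A] [IsIntegrallyClosed A] [CharZero K] [IsAlgClosure K Ω] in
/-- A residue map extends to the integral closure. -/
theorem exists_residue_integralClosure (res : A →+* k) (hres : Surjective res) :
    ∃ ρ : integralClosure A Ω →+* k, ∀ a : A, ρ (algebraMap A _ a) = res a := by
  have hinjB : Injective (algebraMap A (integralClosure A Ω)) := fun a b h =>
    IsFractionRing.injective A K ((algebraMap K Ω).injective (by
      rw [← IsScalarTower.algebraMap_apply, ← IsScalarTower.algebraMap_apply]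
      exact congrArg Subtype.val h))
  have : (RingHom.ker res).IsMaximal := RingHom.ker_isMaximal_of_surjective res hres
  obtain ⟨P, hP, hPc⟩ := Ideal.exists_ideal_over_maximal_of_isIntegral
    (S := integralClosure A Ω) (RingHom.ker res)
    (by rw [(RingHom.injective_iff_ker_eq_bot _).mp hinjB]; exact bot_le)
  have := hP
  let Q := integralClosure A Ω ⧸ P
  let : Field Q := Ideal.Quotient.field P
  let g : A →+* Q := (Ideal.Quotient.mk P).comp (algebraMap A _)
  have hker : RingHom.ker res ≤ RingHom.ker g := fun a ha => by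
    rw [← hPc, Ideal.mem_comap] at ha
    exact Ideal.Quotient.eq_zero_iff_mem.mpr ha
  let ξ : k →+* Q := res.liftOfSurjective hres ⟨g, hker⟩
  have hξ : ∀ a, ξ (res a) = g a := fun a =>
    RingHom.liftOfRightInverse_comp_apply _ _ _ ⟨g, hker⟩ a
  let : Algebra k Q := ξ.toAlgebra
  have : Algebra.IsIntegral k Q := by
    refine ⟨fun x => ?_⟩
    obtain ⟨b, rfl⟩ := Ideal.Quotient.mk_surjective x
    obtain ⟨p, hp, hpb⟩ := Algebra.IsIntegral.isIntegral (R := A) b
    refine ⟨p.map res, hp.map _, ?_⟩
    rw [RingHom.algebraMap_toAlgebra, eval₂_map, show ξ.comp res = g from RingHom.ext hξ,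
      ← hom_eval₂, hpb, map_zero]
  let e : k ≃+* Q := RingEquiv.ofBijective ξ (IsAlgClosed.algebraMap_bijective_of_isIntegral)
  refine ⟨e.symm.toRingHom.comp (Ideal.Quotient.mk P), fun a => ?_⟩
  show e.symm (g a) = res a
  rw [RingEquiv.symm_apply_eq]
  exact (hξ a).symm

/-- Finitely many nonzero polynomials over an infinite field have a common non-root. -/
theorem exists_nonroot {R : Type*} [Field R] [Infinite R] {ι : Type*} [Fintype ι] (p : ι → R[X])
    (hp : ∀ i, p i ≠ 0) : ∃ x : R, ∀ i, (p i).eval x ≠ 0 := by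
  classical
  have h : (∏ i, p i) ≠ 0 := Finset.prod_ne_zero_iff.mpr fun i _ => hp i
  by_contra hc
  push Not at hc
  refine h (eq_zero_of_infinite_isRoot _ (Set.infinite_univ.mono fun x _ => ?_))
  obtain ⟨i, hi⟩ := hc x
  show (∏ i, p i).eval x = 0
  rw [eval_prod]
  exact Finset.prod_eq_zero (Finset.mem_univ i) hi

omit [IsDomain A] in
/-- Conjugate integral vectors with residually nonzero squared determinant are in the base. -/
theorem mem_range_of_conjugates (res : A →+* k) (hres : Surjective res)
    (hens : ∀ P : A[X], P.Monic → ∀ z₀ : A, res (P.eval z₀) = 0 →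
      res (P.derivative.eval z₀) ≠ 0 → ∃ z, P.eval z = 0 ∧ res z = res z₀)
    {n : ℕ} (v : Fin n → Fin n → Ω) (hint : ∀ a i, IsIntegral A (v a i))
    (hdet : ∃ d : A, res d ≠ 0 ∧ (Matrix.of v).det ^ 2 = algebraMap A Ω d)
    (hperm : ∀ σ : Ω ≃ₐ[K] Ω, ∀ a, ∃ b, ∀ i, σ (v a i) = v b i) :
    ∀ a i, ∃ x : A, algebraMap A Ω x = v a i := by
  classical
  have : CharZero Ω := charZero_of_injective_ringHom (algebraMap K Ω).injective
  have : Algebra.IsAlgebraic K Ω := IsAlgClosure.isAlgebraic
  have : Normal K Ω := IsAlgClosure.normal K Ω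
  have : IsGalois K Ω := ⟨⟩
  obtain ⟨ρ, hρ⟩ := exists_residue_integralClosure (K := K) (Ω := Ω) res hres
  set V : Matrix (Fin n) (Fin n) (integralClosure A Ω) := Matrix.of fun a i => ⟨v a i, hint a i⟩
  obtain ⟨d, hd, hdet⟩ := hdet
  have hdetρ : (ρ.mapMatrix V).det ≠ 0 := by
    have h1 : V.det ^ 2 = algebraMap A _ d := by
      refine Subtype.ext ?_
      rw [show ((algebraMap A (integralClosure A Ω) d : integralClosure A Ω) : Ω) = algebraMap A Ω d
        from rfl, ← hdet, SubmonoidClass.coe_pow]
      congr 1
      exact RingHom.map_det (integralClosure A Ω).val.toRingHom V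
    intro h0
    refine hd ?_
    rw [← hρ, ← h1, map_pow, RingHom.map_det, h0, zero_pow two_ne_zero]
  set M : Fin n → Fin n → k := fun a i => ρ (V a i)
  have hrow : ∀ a b, M a = M b → a = b := fun a b h => by
    by_contra hne
    exact hdetρ (Matrix.det_zero_of_row_eq hne h)
  have hvinj : Injective v := fun a b h => hrow a b (funext fun i => by
    show ρ ⟨v a i, hint a i⟩ = ρ ⟨v b i, hint b i⟩
    congr 2
    rw [h])
  -- a combination with distinct residual conjugates has conjugates in `A`
  have key : ∀ γ : Fin n → A, (Injective fun a => ∑ i, res (γ i) * M a i) →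
      ∀ a, ∃ x : A, algebraMap A Ω x = ∑ i, algebraMap A Ω (γ i) * v a i := by
    intro γ hγ a
    set z : Fin n → integralClosure A Ω := fun b => ∑ i, algebraMap A _ (γ i) * V b i
    have hzΩ : ∀ b, ((z b : integralClosure A Ω) : Ω) = ∑ i, algebraMap A Ω (γ i) * v b i :=
      fun b => by
        rw [show ((z b : integralClosure A Ω) : Ω) = (integralClosure A Ω).val (z b) from rfl,
          map_sum]
        exact Finset.sum_congr rfl fun i _ => by rw [map_mul]; rfl
    have hzρ : ∀ b, ρ (z b) = ∑ i, res (γ i) * M b i := fun b => by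
      rw [map_sum]
      exact Finset.sum_congr rfl fun i _ => by rw [map_mul, hρ]
    set PB : (integralClosure A Ω)[X] := ∏ b, (X - C (z b)) with hPB
    have hfix : ∀ (m : ℕ) (σ : Ω ≃ₐ[K] Ω),
        σ ((PB.coeff m : integralClosure A Ω) : Ω) = (PB.coeff m : integralClosure A Ω) := by
      intro m σ
      choose π hπ using hperm σ
      have hπinj : Injective π := fun a b h => hvinj (funext fun i => σ.injective (by
        rw [hπ, hπ, h]))
      let f : integralClosure A Ω →+* Ω := (integralClosure A Ω).val.toRingHom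
      have hmap : (PB.map f).map σ.toAlgHom.toRingHom = PB.map f := by
        rw [hPB, Polynomial.map_prod, Polynomial.map_prod]
        refine Eq.trans (Finset.prod_congr rfl fun b _ => ?_)
          ((Fintype.prod_bijective π (Finite.injective_iff_bijective.mp hπinj) _ _ fun _ => rfl))
        simp only [Polynomial.map_sub, Polynomial.map_X, Polynomial.map_C]
        congr 2
        show σ ((z b : integralClosure A Ω) : Ω) = ((z (π b) : integralClosure A Ω) : Ω)
        rw [hzΩ, hzΩ, map_sum]
        refine Finset.sum_congr rfl fun i _ => ?_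
        rw [map_mul, hπ, IsScalarTower.algebraMap_apply A K Ω, σ.commutes]
      have h1 := congrArg (fun P : Polynomial Ω => P.coeff m) hmap
      simpa [Polynomial.coeff_map, f] using h1
    have hlift : PB ∈ lifts (algebraMap A (integralClosure A Ω)) := by
      rw [lifts_iff_coeff_lifts]
      intro m
      obtain ⟨y, hy⟩ := IntermediateField.mem_bot.mp
        ((InfiniteGalois.mem_bot_iff_fixed (k := K) _).mpr (hfix m))
      have hyint : IsIntegral A y := by
        rw [← isIntegral_algebraMap_iff (B := Ω) (algebraMap K Ω).injective, hy]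
        exact (PB.coeff m).2
      obtain ⟨x, hx⟩ := IsIntegrallyClosed.isIntegral_iff.mp hyint
      refine ⟨x, Subtype.ext ?_⟩
      show algebraMap A Ω x = _
      rw [IsScalarTower.algebraMap_apply A K Ω, hx, hy]
    obtain ⟨P, hP, -, hPm⟩ := lifts_and_natDegree_eq_and_monic hlift
      (monic_prod_of_monic _ _ fun b _ => monic_X_sub_C _)
    have hPres : P.map res = ∏ b, (X - C (∑ i, res (γ i) * M b i)) := by
      rw [show res = ρ.comp (algebraMap A _) from RingHom.ext fun x => (hρ x).symm,
        ← Polynomial.map_map, hP, hPB, Polynomial.map_prod]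
      exact Finset.prod_congr rfl fun b _ => by
        rw [Polynomial.map_sub, Polynomial.map_X, Polynomial.map_C, hzρ]
        simp [hρ]
    obtain ⟨z₀, hz₀⟩ := hres (∑ i, res (γ i) * M a i)
    have hsep : (P.map res).Separable := by
      rw [hPres, separable_prod_X_sub_C_iff]; exact hγ
    have hroot : (P.map res).eval (res z₀) = 0 := by
      rw [hPres, eval_prod]
      exact Finset.prod_eq_zero (Finset.mem_univ a)
          (by rw [eval_sub, eval_X, eval_C, hz₀, sub_self])
    obtain ⟨w, hw, hwres⟩ := hens P hPm z₀ (by rw [← Polynomial.eval_map_apply, hroot]) (by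
      rw [← Polynomial.eval_map_apply, ← derivative_map]
      exact hsep.eval₂_derivative_ne_zero (RingHom.id k) (by rw [eval₂_id, hroot]))
    have hwB : PB.eval (algebraMap A _ w) = 0 := by
      rw [← hP, Polynomial.eval_map_apply, hw, map_zero]
    rw [hPB, eval_prod, Finset.prod_eq_zero_iff] at hwB
    obtain ⟨b, -, hb⟩ := hwB
    rw [eval_sub, eval_X, eval_C, sub_eq_zero] at hb
    obtain rfl : b = a := hγ (by
      show (∑ i, res (γ i) * M b i) = ∑ i, res (γ i) * M a i
      rw [← hzρ, ← hb, hρ, hwres, hz₀])
    exact ⟨w, by rw [← hzΩ, ← hb]; rfl⟩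
  -- two combinations recover each coordinate
  intro a i
  have : Infinite k := IsAlgClosed.instInfinite
  let ι := {p : Fin n × Fin n // p.1 ≠ p.2} × Option (Fin n)
  let poly : ι → k[X] := fun x =>
    (∑ j, C (M x.1.1.1 j - M x.1.1.2 j) * X ^ ((j : ℕ) + 1)) +
      C (x.2.elim 0 fun j => M x.1.1.1 j - M x.1.1.2 j)
  obtain ⟨t, ht⟩ := exists_nonroot poly fun x h0 => x.1.2 (hrow _ _ (funext fun j => by
    have := congrArg (fun P : k[X] => P.coeff ((j : ℕ) + 1)) h0
    simp only [poly, coeff_add, finsetSum_coeff, coeff_C_mul_X_pow, coeff_C_succ, add_zero,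
      coeff_zero] at this
    rw [Finset.sum_eq_single j (fun b _ hb => if_neg (fun he => hb (Fin.ext (by omega))))
      (by simp), if_pos rfl, sub_eq_zero] at this
    exact this))
  obtain ⟨t', rfl⟩ := hres t
  have hsum : ∀ b c : Fin n, (∑ j : Fin n, res (t' ^ ((j : ℕ) + 1)) * M b j) -
      (∑ j : Fin n, res (t' ^ ((j : ℕ) + 1)) * M c j) =
      ∑ j : Fin n, (M b j - M c j) * res t' ^ ((j : ℕ) + 1) := fun b c => by
    rw [← Finset.sum_sub_distrib]
    exact Finset.sum_congr rfl fun j _ => by rw [map_pow]; ring
  obtain ⟨x₀, hx₀⟩ := key (fun j => t' ^ ((j : ℕ) + 1)) (fun b c h => by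
    by_contra hne
    refine ht (⟨(b, c), hne⟩, none) ?_
    simp only [poly, eval_add, eval_finsetSum, eval_mul, eval_C, eval_pow, eval_X, Option.elim,
      add_zero]
    rw [← hsum, sub_eq_zero]
    exact h) a
  obtain ⟨x₁, hx₁⟩ := key (fun j => t' ^ ((j : ℕ) + 1) + if j = i then 1 else 0) (fun b c h => by
    by_contra hne
    refine ht (⟨(b, c), hne⟩, some i) ?_
    simp only [poly, eval_add, eval_finsetSum, eval_mul, eval_C, eval_pow, eval_X, Option.elim]
    rw [← hsum]
    simp only [map_add, apply_ite res, map_one, map_zero, add_mul, Finset.sum_add_distrib, ite_mul,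
      one_mul, zero_mul, Finset.sum_ite_eq', Finset.mem_univ, if_true] at h
    linear_combination h) a
  refine ⟨x₁ - x₀, ?_⟩
  rw [map_sub, hx₀, hx₁]
  simp [add_mul, Finset.sum_add_distrib, apply_ite (algebraMap A Ω), ite_mul]

end Fermat.Agent.SquareLevel
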