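import Fermat.Agent.MF.Degree
import Fermat.Agent.MF.Descent
import Fermat.Agent.SquareLevel.Hauptmodul.Data
import Fermat.Agent.SquareLevel.Hauptmodul.Etale
import Fermat.Agent.SquareLevel.Hauptmodul.SplitLocal

/-!
# Splitting of the level `N` field over the points of the `t`-line off the cusps
-/

noncomputable section

open Polynomial ModularCurve Function IntermediateField

namespace Fermat.Agent.SquareLevel

open Fermat.Agent.Igusa (evalAt)

variable {q : ℕ} [hq : Fact q.Prime]

set_option quotPrecheck false in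
local notation "ℤq" => ↥(GaloisRep.ratLocalizedAt q)

/-- `ℤ₍q₎` maps into a local domain with residue characteristic `q`. -/
theorem exists_ratLocalizedAt_hom (W : Type) [CommRing W] [IsDomain W] [IsLocalRing W] [CharZero W]
    (hqW : IsLocalRing.residue W (q : W) = 0) : ∃ ι : ℤq →+* W, Injective ι := by
  let F := FractionRing W
  have : CharZero F := charZero_of_injective_ringHom (IsFractionRing.injective W F)
  have : CharP (IsLocalRing.ResidueField W) q := by
    rw [map_natCast] at hqW
    exact (CharP.charP_iff_prime_eq_zero hq.out).mpr hqW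
  have hmem : ∀ x : ℤq, ∃ w : W, algebraMap W F w = ((x : ℚ) : F) := fun x => by
    have hd : IsUnit (((x : ℚ).den : ℕ) : W) := by
      refine IsLocalRing.notMem_maximalIdeal.mp fun h => ?_
      rw [← IsLocalRing.residue_eq_zero_iff, map_natCast, CharP.cast_eq_zero_iff _ q] at h
      exact hq.out.ne_one (Nat.eq_one_of_dvd_one (x.2.gcd_eq_one ▸ Nat.dvd_gcd h dvd_rfl))
    obtain ⟨u, hu⟩ := hd.exists_right_inv
    refine ⟨((x : ℚ).num : W) * u, ?_⟩
    have hu' := congrArg (algebraMap W F) hu
    rw [map_mul, map_natCast, map_one] at hu'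
    rw [map_mul, map_intCast, Rat.cast_def, eq_div_iff (Nat.cast_ne_zero.mpr (x : ℚ).den_nz)]
    linear_combination ((x : ℚ).num : F) * hu'
  choose w hw using hmem
  let ι : ℤq →+* W :=
    { toFun := w
      map_one' := IsFractionRing.injective W F (by rw [hw, map_one]; simp)
      map_mul' := fun x y => IsFractionRing.injective W F (by rw [map_mul, hw, hw, hw]; simp)
      map_zero' := IsFractionRing.injective W F (by rw [hw, map_zero]; simp)
      map_add' := fun x y => IsFractionRing.injective W F (by rw [map_add, hw, hw, hw]; simp) }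
  refine ⟨ι, fun x y h => Subtype.ext (Rat.cast_injective (α := F) ?_)⟩
  rw [← hw, ← hw]
  exact congrArg (algebraMap W F) h

/-- A map out of a localisation is injective if it is so on the ring. -/
theorem away_lift_injective' {P C M : Type*} [CommRing P] [CommRing C] [CommRing M] [Algebra P C]
    (h : P) [IsLocalization.Away h C] {g : P →+* M} (hu : IsUnit (g h)) (hg : Injective g) :
    Injective (IsLocalization.Away.lift h hu : C →+* M) := by
  rw [injective_iff_map_eq_zero]
  intro c hc
  obtain ⟨m, a, hma⟩ := IsLocalization.Away.surj h c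
  have ha : a = 0 := hg (by
    rw [map_zero, ← IsLocalization.Away.lift_eq (S := C) h hu a, ← hma, map_mul, hc, zero_mul])
  rw [ha, map_zero] at hma
  exact ((IsLocalization.Away.algebraMap_isUnit (S := C) h).pow m).mul_left_eq_zero.mp hma

/-- Evaluation at `a + s` is injective on polynomials over a fraction field of `W`. -/
theorem eval₂_shift_injective {W E : Type} [CommRing W] [IsDomain W] [CommRing E] [IsDomain E]
    [Algebra W E] [IsLocalization (nonZeroDivisors W) E] (a : W)
    {ιE : E →+* FractionRing (PowerSeries W)}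
    (hιE : ∀ w : W, ιE (algebraMap W E w) = algebraMap (PowerSeries W) _ (PowerSeries.C w)) :
    Injective (eval₂RingHom ιE
      (algebraMap (PowerSeries W) (FractionRing (PowerSeries W))
        (PowerSeries.C a + PowerSeries.X))) := by
  let A := PowerSeries W
  let K := FractionRing A
  let φE := eval₂RingHom ιE (algebraMap A K (PowerSeries.C a + PowerSeries.X))
  show Injective φE
  rw [injective_iff_map_eq_zero]
  intro P hP
  obtain ⟨b, hbmem, hb⟩ := IsLocalization.integerNormalization_spec (nonZeroDivisors W) P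
  have hφW : φE.comp (mapRingHom (algebraMap W E)) =
      (algebraMap A K).comp (shiftSeries a) :=
    Polynomial.ringHom_ext (fun w => by simp [φE, K, A, hιE, shiftSeries])
      (by simp [φE, K, A, shiftSeries])
  set Q := IsLocalization.integerNormalization (nonZeroDivisors W) P
  have hb' : Q.map (algebraMap W E) = Polynomial.C (algebraMap W E b) * P := by
    rw [hb, Algebra.smul_def]; rfl
  have h1 := RingHom.congr_fun hφW Q
  rw [RingHom.comp_apply, coe_mapRingHom, hb', map_mul, hP, mul_zero, RingHom.comp_apply,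
    eq_comm, map_eq_zero_iff _ (IsFractionRing.injective A K),
    map_eq_zero_iff _ (shiftSeries_injective a)] at h1
  rw [h1, Polynomial.map_zero, eq_comm, mul_eq_zero] at hb'
  refine hb'.resolve_left ?_
  rw [Polynomial.C_eq_zero]
  exact IsFractionRing.to_map_ne_zero_of_mem_nonZeroDivisors hbmem

/-- A series with a unit pole is transcendental over the constants. -/
theorem transcendental_of_unitPole {E : Type} [Field E] {f : LaurentSeries E}
    (hf : UnitPole f) : Transcendental E f := by
  rw [transcendental_iff_injective]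
  have h : (aeval f : E[X] →ₐ[E] LaurentSeries E).toRingHom = evalAt f :=
    Polynomial.ringHom_ext (fun c => by
      simp [evalAt, algebraMap_laurentSeries_eq_single]) (by simp [evalAt])
  intro x y hxy
  refine hf.evalAt_injective ?_
  rw [← h]
  exact hxy

namespace BaseData

variable {n0 : ℕ} [NeZero n0] (D : BaseData n0)

omit [NeZero n0] in
/-- Every point of the level `N` field over `t = a + s` is rational. -/
theorem mem_range_of_tLevel (hn0 : (n0 : ZMod q) ≠ 0) {N : ℕ} [NeZero N] (hN : n0 ∣ N)
    (hqN : ¬ q ∣ N) {W : Type} [CommRing W] [IsDomain W] [IsDiscreteValuationRing W]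
    [IsAdicComplete (IsLocalRing.maximalIdeal W) W] [CharZero W]
    [IsAlgClosed (IsLocalRing.ResidueField W)] (hqW : IsLocalRing.residue W (q : W) = 0) (a : W)
    (hG : IsLocalRing.residue W ((D.G.map (Int.castRingHom W)).eval a) ≠ 0)
    (f : ↥(modularFunctionFieldFull N) →+* AlgebraicClosure (FractionRing (PowerSeries W)))
    (hf : f (D.tLevel hN) = algebraMap (PowerSeries W) _ (PowerSeries.C a + PowerSeries.X))
    (x : ↥(modularFunctionFieldFull N)) :
    f x ∈ (algebraMap (FractionRing (PowerSeries W))
      (AlgebraicClosure (FractionRing (PowerSeries W)))).range := by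
  classical
  revert x
  set A := PowerSeries W
  set K := FractionRing A
  set Ω := AlgebraicClosure K
  set M := ↥(modularFunctionFieldFull N)
  obtain ⟨ι0, hι0⟩ := exists_ratLocalizedAt_hom (q := q) W hqW
  set h : ℤq[X] := D.G.map (Int.castRingHom ℤq) with hhdef
  have hh0 : h ≠ 0 := (D.G_monic.map _).ne_zero
  -- `ℤ₍q₎[t] → W[[s]]`
  set φ₀ : ℤq[X] →+* A := (shiftSeries a).comp (mapRingHom ι0) with hφ₀
  have hφ₀inj : Injective φ₀ :=
    (shiftSeries_injective a).comp (Polynomial.map_injective _ hι0)
  have hφ₀h : PowerSeries.constantCoeff (φ₀ h) = (D.G.map (Int.castRingHom W)).eval a := by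
    rw [hφ₀, RingHom.comp_apply, constantCoeff_shiftSeries, coe_mapRingHom, hhdef,
      Polynomial.map_map, RingHom.ext_int (ι0.comp (Int.castRingHom _)) (Int.castRingHom W)]
  have hφ₀u : IsUnit (φ₀ h) := by
    rw [PowerSeries.isUnit_iff_constantCoeff, hφ₀h]
    exact IsLocalRing.notMem_maximalIdeal.mp fun hm =>
      hG ((IsLocalRing.residue_eq_zero_iff _).mpr hm)
  -- `ℤ₍q₎[t] → M`
  have : CharZero M := charZero_of_injective_ringHom
    (f := algebraMap ℚ M) (algebraMap ℚ M).injective
  set σ₀ : ℤq[X] →+* M := eval₂RingHom ((algebraMap ℚ M).comp (GaloisRep.ratLocalizedAt q).subtype)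
    (D.tLevel hN) with hσ₀
  have hfσ : f.comp σ₀ = (algebraMap A Ω).comp φ₀ := by
    have : CharZero Ω := charZero_of_injective_ringHom (f := f) f.injective
    refine Polynomial.ringHom_ext (fun c => ?_) ?_
    · exact RingHom.congr_fun (Igusa.ratLocalizedAt_ringHom_ext
        ((f.comp σ₀).comp Polynomial.C) (((algebraMap A Ω).comp φ₀).comp Polynomial.C)) c
    · rw [RingHom.comp_apply, RingHom.comp_apply, hσ₀, coe_eval₂RingHom, eval₂_X, hf, hφ₀,
        RingHom.comp_apply, coe_mapRingHom, Polynomial.map_X, shiftSeries_X]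
  have hAΩ : Injective (algebraMap A Ω) := by
    rw [IsScalarTower.algebraMap_eq A K Ω, RingHom.coe_comp]
    exact (algebraMap K Ω).injective.comp (IsFractionRing.injective A K)
  have hσ₀inj : Injective σ₀ := by
    refine Injective.of_comp (f := f) ?_
    rw [← RingHom.coe_comp, hfσ, RingHom.coe_comp]
    exact hAΩ.comp hφ₀inj
  have hσ₀h : IsUnit (σ₀ h) := (isUnit_iff_ne_zero).mpr ((map_ne_zero_iff _ hσ₀inj).mpr hh0)
  -- the localisation and its fraction field
  set C := Localization.Away h
  have : IsDomain C := IsLocalization.isDomain_localization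
    (powers_le_nonZeroDivisors_of_noZeroDivisors hh0)
  set L := FractionRing C
  set φC : C →+* A := IsLocalization.Away.lift h hφ₀u with hφC
  have hφCcomp : φC.comp (algebraMap ℤq[X] C) = φ₀ := IsLocalization.Away.lift_comp h hφ₀u
  let algCM : Algebra C M := (IsLocalization.Away.lift h hσ₀h).toAlgebra
  have hCM : (algebraMap C M).comp (algebraMap ℤq[X] C) = σ₀ :=
    IsLocalization.Away.lift_comp h hσ₀h
  have hφCinj : Injective φC :=
    away_lift_injective' h hφ₀u hφ₀inj
  have hCMinj : Injective (algebraMap C M) :=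
    away_lift_injective' h hσ₀h hσ₀inj
  let algLM : Algebra L M := (IsFractionRing.lift hCMinj).toAlgebra
  have : IsScalarTower C L M := IsScalarTower.of_algebraMap_eq fun c =>
    (IsFractionRing.lift_algebraMap hCMinj c).symm
  have hX : algebraMap C M (algebraMap ℤq[X] C X) = D.tLevel hN := by
    rw [← RingHom.comp_apply (algebraMap C M), hCM, hσ₀, coe_eval₂RingHom, eval₂_X]
  obtain ⟨hfin, r, d, hr, hli, hd, hev⟩ := D.exists_unit_discr hn0 N hN hqN C L hX
  -- `L → K → Ω`
  have hAKinj : Injective ((algebraMap A K).comp φC) :=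
    (IsFractionRing.injective A K).comp hφCinj
  set φL : L →+* K := IsFractionRing.lift hAKinj with hφL
  let algLΩ : Algebra L Ω := ((algebraMap K Ω).comp φL).toAlgebra
  have hCΩ : ∀ c : C, algebraMap L Ω (algebraMap C L c) = algebraMap A Ω (φC c) := fun c => by
    show algebraMap K Ω (φL (algebraMap C L c)) = _
    rw [hφL, IsFractionRing.lift_algebraMap, RingHom.comp_apply, ← IsScalarTower.algebraMap_apply]
  have hfC : f.comp (algebraMap C M) = (algebraMap A Ω).comp φC := by
    refine IsLocalization.ringHom_ext (Submonoid.powers h) ?_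
    rw [RingHom.comp_assoc, hCM, RingHom.comp_assoc, hφCcomp, hfσ]
  let fL : M →ₐ[L] Ω :=
    { f with
      commutes' := fun l => by
        have h1 : f.comp (algebraMap L M) = algebraMap L Ω := by
          refine IsLocalization.ringHom_ext (nonZeroDivisors C) (RingHom.ext fun c => ?_)
          rw [RingHom.comp_apply, RingHom.comp_apply, RingHom.comp_apply,
            ← IsScalarTower.algebraMap_apply, hCΩ]
          exact RingHom.congr_fun hfC c
        exact RingHom.congr_fun h1 l }
  -- the conjugates
  have : CharZero L := (algebraMap L M).charZero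
  have : IsAlgClosed Ω := inferInstance
  have : Algebra.IsSeparable L M := Algebra.IsAlgebraic.isSeparable_of_perfectField
  have hcard : Fintype.card (M →ₐ[L] Ω) = Module.finrank L M := AlgHom.card L M Ω
  let e : Fin (Module.finrank L M) ≃ (M →ₐ[L] Ω) := (Fintype.equivFinOfCardEq hcard).symm
  have hn : 0 < Module.finrank L M := Module.finrank_pos
  have : Nonempty (Fin (Module.finrank L M)) := ⟨⟨0, hn⟩⟩
  have hspan : ⊤ ≤ Submodule.span L (Set.range r) :=
    (hli.span_eq_top_of_card_eq_finrank (by rw [Fintype.card_fin])).ge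
  set b : Module.Basis (Fin (Module.finrank L M)) L M := Module.Basis.mk hli hspan with hbdef
  have hb : ⇑b = r := by rw [hbdef]; exact Module.Basis.coe_mk hli hspan
  have hdisc := Algebra.discr_eq_det_embeddingsMatrixReindex_pow_two L Ω b e
  let res : A →+* IsLocalRing.ResidueField W :=
    (IsLocalRing.residue W).comp PowerSeries.constantCoeff
  have hres : Surjective res := fun y => by
    obtain ⟨w, rfl⟩ := IsLocalRing.residue_surjective y
    exact ⟨PowerSeries.C w, by
      show IsLocalRing.residue W (PowerSeries.constantCoeff (PowerSeries.C w)) = _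
      rw [PowerSeries.constantCoeff_C]⟩
  have : UniqueFactorizationMonoid A := inferInstance
  have : CharZero K := charZero_of_injective_ringHom
    (f := (algebraMap A K).comp PowerSeries.C)
    ((IsFractionRing.injective A K).comp PowerSeries.C_injective)
  have hkey := mem_range_of_conjugates (K := K) (Ω := Ω) res hres (fun P hP z₀ h0 h1 => by
      obtain ⟨z, hz, hzres⟩ := exists_root_series P hP (PowerSeries.constantCoeff z₀)
        (by rw [Polynomial.eval_map_apply]; exact h0)
        (by rw [derivative_map, Polynomial.eval_map_apply]; exact h1)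
      exact ⟨z, hz, hzres⟩)
    (fun k i => e k (r i))
    (fun k i => by
      obtain ⟨P, hP, hPr⟩ := hr i
      refine ⟨P.map φC, hP.map _, ?_⟩
      rw [eval₂_map, show (algebraMap A Ω).comp φC =
        (e k : M →+* Ω).comp (algebraMap C M) from RingHom.ext fun c => by
          rw [RingHom.comp_apply, RingHom.comp_apply, ← hCΩ, IsScalarTower.algebraMap_apply C L M]
          exact ((e k).commutes _).symm]
      show eval₂ _ ((e k : M →+* Ω) (r i)) P = 0
      rw [← hom_eval₂, hPr, map_zero])
    ⟨φC d, hev (res.comp φC) (by simpa [res] using hqW), by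
      rw [← hCΩ, hd, ← hb, hdisc, ← Matrix.det_transpose]
      rfl⟩
    (fun τ k => by
      let g : M →ₐ[L] Ω :=
        { (τ.toAlgHom.toRingHom.comp (e k).toRingHom) with
          commutes' := fun l => by
            show τ (e k (algebraMap L M l)) = algebraMap L Ω l
            rw [(e k).commutes]
            exact τ.commutes (φL l) }
      exact ⟨e.symm g, fun i => by rw [Equiv.apply_symm_apply]; rfl⟩)
  intro x
  show fL x ∈ _
  rw [← b.sum_repr (x : M), map_sum]
  refine Subring.sum_mem _ fun i _ => ?_
  rw [Algebra.smul_def, map_mul, AlgHom.commutes, hb]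
  refine Subring.mul_mem _ ⟨φL _, rfl⟩ ?_
  obtain ⟨y, hy⟩ := hkey (e.symm fL) i
  rw [Equiv.apply_symm_apply] at hy
  exact ⟨algebraMap A K y, by rw [← IsScalarTower.algebraMap_apply, hy]⟩

end BaseData

theorem exists_lift_of_range {R S T : Type*} [CommRing R] [Field S] [CommRing T] [Nontrivial T]
    (i : S →+* T) (g : R →+* T) (h : ∀ x, g x ∈ i.range) : ∃ g' : R →+* S, i.comp g' = g := by
  choose w hw using h
  exact ⟨
    { toFun := w
      map_one' := i.injective (by rw [hw, map_one, map_one])
      map_mul' := fun x y => i.injective (by rw [map_mul, hw, hw, hw, map_mul])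
      map_zero' := i.injective (by rw [hw, map_zero, map_zero])
      map_add' := fun x y => i.injective (by rw [map_add, hw, hw, hw, map_add]) },
    RingHom.ext hw⟩

/-- `[E(X₀(M)) : E(j)] = ψ(M)` in characteristic zero. -/
theorem relfinrank_adjoin_jq (E : Type) [Field E] [CharZero E] [Algebra ℚ E] (M : ℕ) [NeZero M] :
    relfinrank E⟮jqModC E⟯ (laurentBaseChange E (modularFunctionFieldFull M)) = Igusa.psi M := by
  set B := laurentBaseChange E (modularFunctionFieldFull M)
  have hj : jqModC E ∈ B := by
    rw [show B = _ from MF.laurentBaseChange_full_eq E M]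
    exact jqModC_mem_full E M
  let x : B := ⟨jqModC E, hj⟩
  have h := (MF.finrank_adjoin_eq M B (MF.laurentBaseChange_full_eq_pair E M) x rfl).2
  have h' : E⟮x⟯ = E⟮jqModC E⟯.comap B.val := by
    refine SetLike.ext fun y => ?_
    rw [← IntermediateField.mem_lift, IntermediateField.lift_adjoin_simple]
    rfl
  rw [h', IntermediateField.finrank_comap, IntermediateField.fieldRange_val] at h
  rw [h, ← Igusa.natCard_coset_eq_psi]

namespace BaseData

variable [NeZero q] {n0 : ℕ} [NeZero n0] (D : BaseData n0) {n : ℕ} [hn : Fact n.Prime]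

/-- The level `N` field splits completely over the points of the `t`-line off the cusps. -/
theorem levelSplit (hn0 : n0 = n * n) (hqn : q ≠ n)
    (hdeg : (D.P4 ^ 3).natDegree = Igusa.psi n0) (N : ℕ) [NeZero N] (hN : n0 ∣ N)
    (hqN : ¬ q ∣ N) : LevelSplit (D.hauptData (q := q) hn0 hqn) N := by
  intro W _ _ _ _ _ _ E _ _ _ _ hmax a hG
  change IsLocalRing.residue W ((D.G.map (Int.castRingHom W)).eval a) ≠ 0 at hG
  show ∃ (m : ℕ) (ψ : Fin m → (↥(laurentBaseChange E (modularFunctionFieldFull N)) →+*
          FractionRing (PowerSeries W))),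
        m * (D.P4 ^ 3).natDegree = (CongruenceSubgroup.Gamma0 N).index ∧ Injective ψ ∧
        (∀ i (w : W), ψ i (algebraMap E _ (algebraMap W E w)) =
          algebraMap (PowerSeries W) _ (PowerSeries.C w)) ∧
        (∀ i (x : ↥(laurentBaseChange E (modularFunctionFieldFull N))),
          (x : LaurentSeries E) = coeffMap (Int.castRingHom E) D.t →
            ψ i x = algebraMap (PowerSeries W) _ (PowerSeries.C a + PowerSeries.X))
  classical
  have : CharZero E := charZero_of_injective_ringHom (algebraMap ℚ E).injective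
  have hqW : IsLocalRing.residue W (q : W) = 0 := by
    rw [IsLocalRing.residue_eq_zero_iff, hmax]
    exact Ideal.mem_span_singleton_self _
  have hn0q := natCast_level_ne_zero (q := q) hn0 hqn
  set tE : LaurentSeries E := coeffMap (Int.castRingHom E) D.t with htE
  have htQE : coeffEmb E D.tQ = tE := by
    rw [coeffEmb, tQ, coeffMap_coeffMap,
      RingHom.ext_int ((algebraMap ℚ E).comp (Int.castRingHom ℚ)) (Int.castRingHom E)]
  have hF0 : E⟮tE⟯ = modularFunctionFieldFullC E n0 := by
    rw [← MF.laurentBaseChange_full_eq, ← D.adjoin_tQ]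
    refine le_antisymm ?_ ?_
    · rw [adjoin_simple_le_iff, ← htQE]
      exact coeffEmb_mem_laurentBaseChange E (mem_adjoin_simple_self ℚ _)
    · rw [laurentBaseChange, adjoin_le_iff]
      rintro _ ⟨y, hy, rfl⟩
      have h := MF.coeffMap_mem_adjoin (K := E) hy
      rw [Set.image_singleton] at h
      rw [← htQE]
      exact h
  have htX : tE ∈ laurentBaseChange E (modularFunctionFieldFull N) := by
    rw [← htQE]; exact coeffEmb_mem_laurentBaseChange E (D.tQ_mem_level hN)
  have hle : E⟮tE⟯ ≤ laurentBaseChange E (modularFunctionFieldFull N) :=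
      adjoin_simple_le_iff.mpr htX
  -- degrees
  have hpsi : Igusa.psi n0 *
      relfinrank E⟮tE⟯ (laurentBaseChange E (modularFunctionFieldFull N)) = Igusa.psi N := by
    have hF : E⟮tE⟯ = laurentBaseChange E (modularFunctionFieldFull n0) := by
      rw [hF0, MF.laurentBaseChange_full_eq]
    have hj : E⟮jqModC E⟯ ≤ laurentBaseChange E (modularFunctionFieldFull n0) := by
      rw [adjoin_simple_le_iff, MF.laurentBaseChange_full_eq]
      exact jqModC_mem_full E n0
    rw [← relfinrank_adjoin_jq E n0, ← relfinrank_adjoin_jq E N, hF,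
      relfinrank_mul_relfinrank hj (hF ▸ hle)]
  set Xs : IntermediateField E⟮tE⟯ (LaurentSeries E) := extendScalars hle
  have hrank : relfinrank E⟮tE⟯ (laurentBaseChange E (modularFunctionFieldFull N)) =
      Module.finrank E⟮tE⟯ Xs := relfinrank_eq_finrank_of_le hle
  have : FiniteDimensional E⟮tE⟯ Xs := FiniteDimensional.of_finrank_pos (by
    rw [← hrank]
    exact Nat.pos_of_ne_zero fun h0 => (Igusa.psi_pos N).ne' (by rw [← hpsi, h0, mul_zero]))
  -- `E(t) → K`
  let A := PowerSeries W
  let K := FractionRing A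
  let Ω := AlgebraicClosure K
  let ιE : E →+* K := IsFractionRing.lift (A := W) (g := (algebraMap A K).comp PowerSeries.C)
    ((IsFractionRing.injective A K).comp PowerSeries.C_injective)
  have hιE : ∀ w : W, ιE (algebraMap W E w) = algebraMap A K (PowerSeries.C w) := fun w =>
    IsFractionRing.lift_algebraMap _ w
  let φE : E[X] →+* K := eval₂RingHom ιE (algebraMap A K (PowerSeries.C a + PowerSeries.X))
  have hφEinj : Injective φE := eval₂_shift_injective a hιE
  have htr : Transcendental E tE :=
    transcendental_of_unitPole (D.pole.map (Int.castRingHom E))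
  let e := RatFunc.algEquivOfTranscendental tE htr
  let ρ : E⟮tE⟯ →+* K :=
    (IsFractionRing.lift (K := RatFunc E) hφEinj).comp (e.symm : E⟮tE⟯ →+* RatFunc E)
  have hρgen : ρ (AdjoinSimple.gen E tE) = algebraMap A K (PowerSeries.C a + PowerSeries.X) := by
    have h := RatFunc.algEquivOfTranscendental_symm_aeval tE htr Polynomial.X
    rw [aeval_X] at h
    show IsFractionRing.lift hφEinj (e.symm (AdjoinSimple.gen E tE)) = _
    rw [h, IsFractionRing.lift_algebraMap]
    simp [φE]
  have hρC : ∀ c : E, ρ (algebraMap E _ c) = ιE c := fun c => by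
    show IsFractionRing.lift hφEinj (e.symm (algebraMap E _ c)) = _
    rw [AlgEquiv.commutes, IsScalarTower.algebraMap_apply E E[X] (RatFunc E),
      IsFractionRing.lift_algebraMap]
    simp [φE]
  let : Algebra E⟮tE⟯ Ω := ((algebraMap K Ω).comp ρ).toAlgebra
  have : CharZero E⟮tE⟯ := charZero_of_injective_ringHom (algebraMap E E⟮tE⟯).injective
  -- every point is rational
  let emb : ↥(modularFunctionFieldFull N) →+* Xs :=
    ((coeffEmb E).comp (modularFunctionFieldFull N).toSubfield.subtype).codRestrict
      Xs.toSubfield fun x => coeffEmb_mem_laurentBaseChange E x.2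
  have hrange : ∀ (σ : Xs →ₐ[E⟮tE⟯] Ω) (x : Xs), σ x ∈ (algebraMap K Ω).range := by
    intro σ
    have hσC : ∀ (c : E) (h : algebraMap E (LaurentSeries E) c ∈ Xs),
        σ ⟨_, h⟩ = algebraMap K Ω (ιE c) := fun c h => by
      rw [← hρC]
      exact σ.commutes (algebraMap E E⟮tE⟯ c)
    have hσM : ∀ y, σ (emb y) ∈ (algebraMap K Ω).range := fun y => by
      refine D.mem_range_of_tLevel hn0q hN hqN hqW a hG (σ.toRingHom.comp emb) ?_ y
      show σ (emb (D.tLevel hN)) = _
      rw [show emb (D.tLevel hN) = algebraMap E⟮tE⟯ Xs (AdjoinSimple.gen E tE) from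
        Subtype.ext htQE, σ.commutes]
      show algebraMap K Ω (ρ (AdjoinSimple.gen E tE)) = _
      rw [hρgen, ← IsScalarTower.algebraMap_apply]
    rintro ⟨x, hx⟩
    have hx' : x ∈ adjoin E
        (⇑(coeffEmb E) '' (modularFunctionFieldFull N : Set (LaurentSeries ℚ))) :=
      hx
    induction hx' using adjoin_induction E with
    | mem z hz =>
      obtain ⟨y, hy, rfl⟩ := hz
      exact hσM ⟨y, hy⟩
    | algebraMap c => exact ⟨ιE c, (hσC c _).symm⟩
    | add y z hy hz ihy ihz =>
      have h : (⟨y + z, hx⟩ : Xs) = ⟨y, hy⟩ + ⟨z, hz⟩ := rfl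
      rw [h, map_add]
      exact Subring.add_mem _ (ihy hy) (ihz hz)
    | inv y hy ihy =>
      have h : (⟨y⁻¹, hx⟩ : Xs) = (⟨y, hy⟩ : Xs)⁻¹ := rfl
      rw [h, map_inv₀]
      obtain ⟨u, hu⟩ := ihy hy
      exact ⟨u⁻¹, by rw [map_inv₀, hu]⟩
    | mul y z hy hz ihy ihz =>
      have h : (⟨y * z, hx⟩ : Xs) = ⟨y, hy⟩ * ⟨z, hz⟩ := rfl
      rw [h, map_mul]
      exact Subring.mul_mem _ (ihy hy) (ihz hz)
  choose g hg using fun σ : Xs →ₐ[E⟮tE⟯] Ω =>
    exists_lift_of_range (algebraMap K Ω) σ.toRingHom (hrange σ)
  have hg' : ∀ σ (x : Xs), algebraMap K Ω (g σ x) = σ x := fun σ x => RingHom.congr_fun (hg σ) x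
  have : Algebra.IsSeparable E⟮tE⟯ Xs := Algebra.IsAlgebraic.isSeparable_of_perfectField
  let u := (Fintype.equivFinOfCardEq (AlgHom.card E⟮tE⟯ Xs Ω)).symm
  let j : ↥(laurentBaseChange E (modularFunctionFieldFull N)) →+* Xs := RingHom.id _
  refine ⟨Module.finrank E⟮tE⟯ Xs, fun i => (g (u i)).comp j, ?_, ?_, ?_, ?_⟩
  · rw [← hrank, hdeg, mul_comm, hpsi, ← Igusa.natCard_coset_eq_psi]
    rfl
  · intro i₁ i₂ h
    refine u.injective (AlgHom.ext fun x => ?_)
    rw [← hg', ← hg']
    exact congrArg (algebraMap K Ω) (RingHom.congr_fun h x)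
  · intro i w
    refine (algebraMap K Ω).injective ?_
    rw [RingHom.comp_apply, hg', ← hιE, ← hρC]
    exact (u i).commutes (algebraMap E E⟮tE⟯ (algebraMap W E w))
  · intro i x hx
    refine (algebraMap K Ω).injective ?_
    rw [RingHom.comp_apply, hg', ← hρgen]
    rw [show j x = algebraMap E⟮tE⟯ Xs (AdjoinSimple.gen E tE) from Subtype.ext hx]
    exact (u i).commutes _

end BaseData

/-- Level splitting of the data at an odd prime. -/
theorem levelSplit_hauptDataFour (q : ℕ) [Fact q.Prime] [NeZero q] (hq2 : q ≠ 2) (N : ℕ) [NeZero N]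
    (hN : 4 ∣ N) (hqN : ¬ q ∣ N) : LevelSplit (hauptDataFour q hq2) N := by
  have : Fact (Nat.Prime 2) := ⟨Nat.prime_two⟩
  refine baseFour.levelSplit (n := 2) rfl hq2 ?_ N hN hqN
  show ((X ^ 2 + 240 * X + 2112) ^ 3 : ℤ[X]).natDegree = Igusa.psi (1 * 2 * 2)
  rw [Igusa.psi_mul_prime (by norm_num) Nat.prime_two,
    Igusa.psi_mul_prime (by norm_num) Nat.prime_two, Igusa.psi_one]
  rw [show ((X ^ 2 + 240 * X + 2112) ^ 3 : ℤ[X]).natDegree = 6 by compute_degree!]
  norm_num

/-- Level splitting of the data at a prime other than `3`. -/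
theorem levelSplit_hauptDataNine (q : ℕ) [Fact q.Prime] [NeZero q] (hq3 : q ≠ 3) (N : ℕ) [NeZero N]
    (hN : 9 ∣ N) (hqN : ¬ q ∣ N) : LevelSplit (hauptDataNine q hq3) N := by
  have : Fact (Nat.Prime 3) := ⟨Nat.prime_three⟩
  refine baseNine.levelSplit (n := 3) rfl hq3 ?_ N hN hqN
  show (baseNine.P4 ^ 3).natDegree = Igusa.psi (1 * 3 * 3)
  rw [Igusa.psi_mul_prime (by norm_num) Nat.prime_three,
    Igusa.psi_mul_prime (by norm_num) Nat.prime_three, Igusa.psi_one]
  rw [show (baseNine.P4 ^ 3).natDegree = 12 by simp only [baseNine]; compute_degree!]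
  norm_num

end Fermat.Agent.SquareLevel
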