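import Fermat.Agent.EichlerShimura.Series
import Fermat.Agent.Igusa.Series
import Fermat.Agent.SquareLevel.Shortcuts

/-!
# Series `q⁻¹ + …`, descent of polynomials in them, and the derivation `θ = q d/dq`
-/

noncomputable section

open ModularCurve Function
open Fermat.Agent.Igusa (evalAt)

namespace Fermat.Agent.SquareLevel

section UnitPole

variable {K L : Type*} [CommRing K] [CommRing L]

/-- `t = q⁻¹ + …`. -/
def UnitPole (t : LaurentSeries K) : Prop :=
  ∃ U : PowerSeries K, PowerSeries.constantCoeff U = 1 ∧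
    t = HahnSeries.single (-1) 1 * HahnSeries.ofPowerSeries ℤ K U

theorem UnitPole.map {t : LaurentSeries K} (ht : UnitPole t) (φ : K →+* L) :
    UnitPole (coeffMap φ t) := by
  obtain ⟨U, hU, rfl⟩ := ht
  refine ⟨U.map φ, ?_, ?_⟩
  · rw [← PowerSeries.coeff_zero_eq_constantCoeff, PowerSeries.coeff_map,
      PowerSeries.coeff_zero_eq_constantCoeff, hU, map_one]
  · rw [map_mul, coeffMap_single, map_one, coeffMap_ofPowerSeries]

theorem UnitPole.pow_eq {t : LaurentSeries K} (ht : UnitPole t) (i : ℕ) :
    ∃ U : PowerSeries K, PowerSeries.constantCoeff U = 1 ∧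
      t ^ i = HahnSeries.single (-(i : ℤ)) 1 * HahnSeries.ofPowerSeries ℤ K U := by
  obtain ⟨U, hU, rfl⟩ := ht
  refine ⟨U ^ i, by rw [map_pow, hU, one_pow], ?_⟩
  rw [mul_pow, HahnSeries.single_pow, one_pow, map_pow, nsmul_eq_mul, mul_neg, mul_one]

theorem UnitPole.pow_coeff_self {t : LaurentSeries K} (ht : UnitPole t) (i : ℕ) :
    (t ^ i).coeff (-(i : ℤ)) = 1 := by
  obtain ⟨U, hU, h⟩ := ht.pow_eq i
  rw [h, HahnSeries.coeff_single_mul, one_mul, sub_self, show (0 : ℤ) = ((0 : ℕ) : ℤ) from rfl,
    HahnSeries.ofPowerSeries_apply_coeff, PowerSeries.coeff_zero_eq_constantCoeff, hU]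

theorem UnitPole.pow_coeff_of_lt {t : LaurentSeries K} (ht : UnitPole t) {i : ℕ} {n : ℤ}
    (hn : n < -(i : ℤ)) : (t ^ i).coeff n = 0 := by
  obtain ⟨U, -, h⟩ := ht.pow_eq i
  rw [h, HahnSeries.coeff_single_mul, one_mul]
  exact ofPowerSeries_coeff_of_neg _ (by omega)

theorem UnitPole.coeff_evalAt {t : LaurentSeries K} (ht : UnitPole t) (P : Polynomial K) :
    (evalAt t P).coeff (-(P.natDegree : ℤ)) = P.leadingCoeff := by
  rw [evalAt, Polynomial.coe_eval₂RingHom, Polynomial.eval₂_eq_sum_range, Finset.sum_range_succ,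
    HahnSeries.coeff_add, HahnSeries.coeff_sum, Finset.sum_eq_zero]
  · rw [zero_add, HahnSeries.C_mul_eq_smul, HahnSeries.coeff_smul, ht.pow_coeff_self,
      smul_eq_mul, mul_one, Polynomial.coeff_natDegree]
  · intro i hi
    rw [Finset.mem_range] at hi
    rw [HahnSeries.C_mul_eq_smul, HahnSeries.coeff_smul, ht.pow_coeff_of_lt (by omega), smul_zero]

theorem UnitPole.evalAt_injective {t : LaurentSeries K} (ht : UnitPole t) :
    Injective (evalAt t) := by
  rw [injective_iff_map_eq_zero]
  intro P hP
  rw [← Polynomial.leadingCoeff_eq_zero, ← ht.coeff_evalAt P, hP, HahnSeries.coeff_zero]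

/-- A series with coefficients in a subring which is a polynomial in `t` is one with coefficients
in the subring. -/
theorem UnitPole.exists_lift {t : LaurentSeries K} (ht : UnitPole t) {φ : K →+* L}
    (hφ : Injective φ) :
    ∀ (P : Polynomial L) (F : LaurentSeries K), evalAt (coeffMap φ t) P = coeffMap φ F →
      ∃ Q : Polynomial K, Q.map φ = P ∧ evalAt t Q = F := by
  intro P
  induction hn : P.natDegree using Nat.strong_induction_on generalizing P with
  | _ n ih =>
    intro F hF
    have hcm := EichlerShimura.coeffMap_injective hφ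
    set c := F.coeff (-(n : ℤ)) with hc
    have hlc : φ c = P.leadingCoeff := by
      rw [← (ht.map φ).coeff_evalAt P, hF, hn, coeffMap_coeff]
    set P' := P.eraseLead with hP'
    set F' := F - HahnSeries.C c * t ^ n with hF'
    have hev : evalAt (coeffMap φ t) P' = coeffMap φ F' := by
      rw [hP', ← Polynomial.self_sub_C_mul_X_pow, map_sub, map_mul, map_pow,
        Igusa.evalAt_C, Igusa.evalAt_X, hF, hF', map_sub, map_mul, map_pow, Igusa.coeffMap_C,
        hlc, hn]
    rcases Nat.eq_zero_or_pos n with hn0 | hn0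
    · refine ⟨Polynomial.C c, ?_, ?_⟩
      · rw [Polynomial.map_C, hlc]
        rw [Polynomial.leadingCoeff, hn, hn0]
        exact (Polynomial.eq_C_of_natDegree_le_zero (p := P) (by omega)).symm
      · have hP0 : P' = 0 := by
          rw [hP', Polynomial.eq_C_of_natDegree_le_zero (p := P) (by omega),
            Polynomial.eraseLead_C]
        rw [hP0, map_zero] at hev
        have : F' = 0 := hcm (by rw [← hev, map_zero])
        rw [hF', sub_eq_zero, hn0, pow_zero, mul_one] at this
        rw [Igusa.evalAt_C, ← this]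
    · have hlt : P'.natDegree < n := by
        have := Polynomial.eraseLead_natDegree_le P
        rw [hP']; omega
      obtain ⟨Q, hQ, hQev⟩ := ih _ hlt P' rfl F' hev
      refine ⟨Q + Polynomial.C c * Polynomial.X ^ n, ?_, ?_⟩
      · rw [Polynomial.map_add, hQ, Polynomial.map_mul, Polynomial.map_C, Polynomial.map_pow,
          Polynomial.map_X, hlc, hP', ← hn, Polynomial.eraseLead_add_C_mul_X_pow]
      · rw [map_add, hQev, map_mul, map_pow, Igusa.evalAt_C, Igusa.evalAt_X, hF',
          sub_add_cancel]

theorem UnitPole.coeff_neg_one {t : LaurentSeries K} (ht : UnitPole t) : t.coeff (-1) = 1 := by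
  simpa using ht.pow_coeff_self 1

theorem UnitPole.order_eq [Nontrivial K] {t : LaurentSeries K} (ht : UnitPole t) :
    t.order = -1 := by
  have h1 : t.coeff (-1) ≠ 0 := by rw [ht.coeff_neg_one]; exact one_ne_zero
  refine le_antisymm (HahnSeries.order_le_of_coeff_ne_zero h1) ?_
  by_contra h
  push Not at h
  have h0 : t ≠ 0 := fun h0 => h1 (by rw [h0, HahnSeries.coeff_zero])
  refine HahnSeries.coeff_order_eq_zero.not.mpr h0 ?_
  simpa using ht.pow_coeff_of_lt (i := 1) (n := t.order) (by simpa using h)

end UnitPole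

section Theta

variable {R S : Type*} [CommRing R] [CommRing S]

/-- `θ = q d/dq`. -/
def qTheta : LaurentSeries R →+ LaurentSeries R where
  toFun f :=
    { coeff := fun n => (n : R) * f.coeff n
      isPWO_support' := f.isPWO_support.mono fun n hn h => hn (by simp [h]) }
  map_zero' := by ext n; simp
  map_add' f g := by ext n; simp [mul_add]

@[simp]
theorem qTheta_coeff (f : LaurentSeries R) (n : ℤ) : (qTheta f).coeff n = (n : R) * f.coeff n :=
  rfl

theorem qTheta_mul (f g : LaurentSeries R) :
    qTheta (f * g) = qTheta f * g + f * qTheta g := by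
  ext n
  have hf : (qTheta f).support ⊆ f.support := fun k hk h => hk (by simp [h])
  have hg : (qTheta g).support ⊆ g.support := fun k hk h => hk (by simp [h])
  rw [qTheta_coeff, HahnSeries.coeff_add, HahnSeries.coeff_mul,
    HahnSeries.coeff_mul_left' (s := f.support) f.isPWO_support hf,
    HahnSeries.coeff_mul_right' (s := g.support) g.isPWO_support hg,
    Finset.mul_sum, ← Finset.sum_add_distrib]
  refine Finset.sum_congr rfl fun ij hij => ?_
  rw [Finset.mem_antidiagonal] at hij
  rw [qTheta_coeff, qTheta_coeff, ← hij.2.2]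
  push_cast
  ring

theorem qTheta_C (c : R) : qTheta (HahnSeries.C c : LaurentSeries R) = 0 := by
  ext n
  rw [qTheta_coeff, HahnSeries.C_apply]
  rcases eq_or_ne n 0 with rfl | hn
  · simp
  · simp [HahnSeries.coeff_single_of_ne hn]

theorem qTheta_one : qTheta (1 : LaurentSeries R) = 0 := by
  simpa using qTheta_C (1 : R)

theorem qTheta_pow (f : LaurentSeries R) (n : ℕ) :
    qTheta (f ^ n) = n * f ^ (n - 1) * qTheta f := by
  induction n with
  | zero => simp [qTheta_one]
  | succ n ih =>
    rw [pow_succ, qTheta_mul, ih]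
    rcases Nat.eq_zero_or_pos n with rfl | hn
    · simp
    · rw [show n + 1 - 1 = (n - 1) + 1 by omega, pow_succ]
      conv_lhs => rw [show n = (n - 1) + 1 by omega, pow_succ]
      rw [show n - 1 + 1 = n by omega]
      push_cast
      ring

/-- The chain rule for `qTheta` and evaluation of polynomials. -/
theorem qTheta_evalAt (x : LaurentSeries R) (P : Polynomial R) :
    qTheta (evalAt x P) = evalAt x P.derivative * qTheta x := by
  induction P using Polynomial.induction_on' with
  | add P Q hP hQ => rw [map_add, map_add, hP, hQ, Polynomial.derivative_add, map_add, add_mul]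
  | monomial n a =>
    rw [← Polynomial.C_mul_X_pow_eq_monomial, map_mul, map_pow, Igusa.evalAt_C, Igusa.evalAt_X,
      qTheta_mul, qTheta_C, zero_mul, zero_add, qTheta_pow, Polynomial.derivative_C_mul_X_pow,
      map_mul, map_pow, Igusa.evalAt_C, Igusa.evalAt_X, map_mul, map_natCast]
    ring

theorem qTheta_qExpand (m : ℕ) [NeZero m] (f : LaurentSeries R) :
    qTheta (qExpand R m f) = (m : LaurentSeries R) * qExpand R m (qTheta f) := by
  ext n
  rw [qTheta_coeff, ← nsmul_eq_mul, HahnSeries.coeff_nsmul, Pi.smul_apply, nsmul_eq_mul]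
  by_cases hn : (m : ℤ) ∣ n
  · obtain ⟨k, rfl⟩ := hn
    rw [qExpand_coeff_mul, qExpand_coeff_mul, qTheta_coeff]
    push_cast
    ring
  · rw [qExpand_coeff_of_not_dvd m _ hn, qExpand_coeff_of_not_dvd m _ hn, mul_zero, mul_zero]

theorem coeffMap_qTheta (φ : R →+* S) (f : LaurentSeries R) :
    coeffMap φ (qTheta f) = qTheta (coeffMap φ f) := by
  ext n
  rw [coeffMap_coeff, qTheta_coeff, qTheta_coeff, coeffMap_coeff, map_mul, map_intCast]

end Theta

end Fermat.Agent.SquareLevel
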