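import Fermat.Agent.MF.Scale

/-!
# Quasi-modular functions `τ ↦ E₂((aτ+b)/d)` and modular combinations of them

`QuasiFn N e f`: `f` transforms under `Γ₀(N)` like a weight two form up to the defect
`e · γ₁₀/(γ₁₀ τ + γ₁₁)`, and is bounded at all cusps up to this defect. For `e = 0` this is a
modular form of weight two.
-/

noncomputable section

open UpperHalfPlane CongruenceSubgroup Filter Function
open scoped MatrixGroups ModularForm Manifold Topology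

namespace Fermat.Agent.SquareLevel

open Fermat.Agent.MF

/-- The constant in the transformation law of `E₂`. -/
def e2C : ℂ := 1 / (2 * riemannZeta 2) * (2 * Real.pi * Complex.I)

/-- The defect `γ₁₀/(γ₁₀ τ + γ₁₁)`. -/
def e2Defect (γ : SL(2, ℤ)) (τ : ℍ) : ℂ := (γ 1 0 : ℂ) / denom (γ : GL (Fin 2) ℝ) τ

theorem e2_slash_apply (γ : SL(2, ℤ)) (τ : ℍ) :
    (EisensteinSeries.E2 ∣[(2 : ℤ)] γ) τ = EisensteinSeries.E2 τ - e2C * e2Defect γ τ := by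
  rw [EisensteinSeries.E2_slash_action]
  simp only [Pi.sub_apply, Pi.smul_apply, smul_eq_mul, EisensteinSeries.D2, e2C, e2Defect]
  ring

/-- `f` is quasi-modular of weight two on `Γ₀(N)` with defect `e`. -/
structure QuasiFn (N : ℕ) (e : ℂ) (f : ℍ → ℂ) : Prop where
  mdiff : MDiff f
  inv : ∀ γ ∈ Gamma0 N, f ∣[(2 : ℤ)] γ = f - e • e2Defect γ
  bdd : ∀ γ : SL(2, ℤ), IsBoundedAtImInfty (f ∣[(2 : ℤ)] γ + e • e2Defect γ)

namespace QuasiFn

variable {N : ℕ} {e e' : ℂ} {f g : ℍ → ℂ}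

theorem add (hf : QuasiFn N e f) (hg : QuasiFn N e' g) : QuasiFn N (e + e') (f + g) where
  mdiff := hf.mdiff.add hg.mdiff
  inv γ hγ := by
    rw [SlashAction.add_slash, hf.inv γ hγ, hg.inv γ hγ, add_smul]
    abel
  bdd γ := by
    rw [SlashAction.add_slash, add_smul, add_add_add_comm]
    exact (hf.bdd γ).add (hg.bdd γ)

theorem smul (hf : QuasiFn N e f) (c : ℂ) : QuasiFn N (c * e) (c • f) where
  mdiff := hf.mdiff.const_smul c
  inv γ hγ := by rw [ModularForm.SL_smul_slash, hf.inv γ hγ, smul_sub, mul_smul]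
  bdd γ := by
    rw [ModularForm.SL_smul_slash, mul_smul, ← smul_add]
    exact (hf.bdd γ).smul c

theorem isFormFn (hf : QuasiFn N e f) (he : e = 0) : IsFormFn (Gamma0 N) 2 f where
  slash_eq γ hγ := by rw [hf.inv γ hγ, he, zero_smul, sub_zero]
  mdiff := hf.mdiff
  bdd γ := by
    have h := hf.bdd γ
    rwa [he, zero_smul, add_zero] at h

theorem mono (hf : QuasiFn N e f) {M : ℕ} (h : N ∣ M) : QuasiFn M e f :=
  ⟨hf.mdiff, fun γ hγ => hf.inv γ (by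
    rw [Gamma0_mem, ZMod.intCast_zmod_eq_zero_iff_dvd] at hγ ⊢
    exact (Int.natCast_dvd_natCast.mpr h).trans hγ), hf.bdd⟩

end QuasiFn

/-- `(a b; 0 d) γ = σ (a' b'; 0 d')`. -/
structure IsTri (a d : ℕ) (b : ℤ) (γ σ : SL(2, ℤ)) (a' d' : ℕ) (b' : ℤ) : Prop where
  e00 : (a : ℤ) * γ 0 0 + b * γ 1 0 = σ 0 0 * a'
  e10 : (d : ℤ) * γ 1 0 = σ 1 0 * a'
  e01 : (a : ℤ) * γ 0 1 + b * γ 1 1 = σ 0 0 * b' + σ 0 1 * d'
  e11 : (d : ℤ) * γ 1 1 = σ 1 0 * b' + σ 1 1 * d'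

variable {a d a' d' : ℕ} {b b' : ℤ} {γ σ : SL(2, ℤ)}

theorem IsTri.det (h : IsTri a d b γ σ a' d' b') : a' * d' = a * d := by
  have hσ : σ 0 0 * σ 1 1 - σ 0 1 * σ 1 0 = 1 := by rw [← Matrix.det_fin_two]; exact σ.2
  have hγ : γ 0 0 * γ 1 1 - γ 0 1 * γ 1 0 = 1 := by rw [← Matrix.det_fin_two]; exact γ.2
  have : (a' : ℤ) * d' = a * d := by
    linear_combination (-((a' : ℤ) * d')) * hσ + ((a : ℤ) * d) * hγ
      + (-(σ 1 0 * b' + σ 1 1 * d')) * h.e00 + (σ 0 0 * b' + σ 0 1 * d') * h.e10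
      + ((d : ℤ) * γ 1 0) * h.e01 - ((a : ℤ) * γ 0 0 + b * γ 1 0) * h.e11
  exact_mod_cast this

/-- Every `!![a, b; 0, d] γ` can be written as `σ !![a', b'; 0, d']`. -/
theorem exists_tri (a d : ℕ) [NeZero a] [NeZero d] (b : ℤ) (γ : SL(2, ℤ)) :
    ∃ (σ : SL(2, ℤ)) (a' d' : ℕ) (b' : ℤ), NeZero a' ∧ NeZero d' ∧ IsTri a d b γ σ a' d' b' := by
  have hγ : γ 0 0 * γ 1 1 - γ 0 1 * γ 1 0 = 1 := by rw [← Matrix.det_fin_two]; exact γ.2
  have had : (0 : ℤ) < (a : ℤ) * d := by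
    exact_mod_cast Nat.mul_pos (NeZero.pos a) (NeZero.pos d)
  set p := (a : ℤ) * γ 0 0 + b * γ 1 0 with hp
  set r := (a : ℤ) * γ 0 1 + b * γ 1 1 with hr
  set s := (d : ℤ) * γ 1 0 with hs
  set u := (d : ℤ) * γ 1 1 with hu
  have hdet : p * u - r * s = (a : ℤ) * d := by
    rw [hp, hu, hr, hs]; linear_combination ((a : ℤ) * d) * hγ
  have hg : 0 < Int.gcd p s := by
    rw [Int.gcd_pos_iff]
    by_contra h
    push Not at h
    rw [h.1, h.2] at hdet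
    omega
  obtain ⟨x, y, hco, hx, hy⟩ := Int.exists_gcd_one hg
  obtain ⟨σ, hσ0, hσ1⟩ := (Int.isCoprime_iff_gcd_eq_one.mpr hco).exists_SL2_col (0 : Fin 2)
  have hσ : σ 0 0 * σ 1 1 - σ 0 1 * σ 1 0 = 1 := by rw [← Matrix.det_fin_two]; exact σ.2
  rw [← hσ0] at hx
  rw [← hσ1] at hy
  set g := Int.gcd p s
  set e : ℤ := -σ 1 0 * r + σ 0 0 * u with he
  have hge : (g : ℤ) * e = a * d := by
    rw [he]; linear_combination (-u) * hx + r * hy + hdet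
  have hepos : 0 < e := pos_of_mul_pos_right (hge ▸ had) (Int.natCast_nonneg g)
  refine ⟨σ, g, e.toNat, σ 1 1 * r - σ 0 1 * u, ⟨hg.ne'⟩, ⟨by omega⟩, hx, hy, ?_, ?_⟩
  · rw [Int.toNat_of_nonneg hepos.le, ← hr, he]; linear_combination (-r) * hσ
  · rw [Int.toNat_of_nonneg hepos.le, ← hu, he]; linear_combination (-u) * hσ

/-- `τ ↦ E₂((aτ+b)/d)`. -/
def e2Aff (a d : ℕ) [NeZero a] [NeZero d] (b : ℤ) : ℍ → ℂ := EisensteinSeries.E2 ∘ affH a d b

/-- The transformation of `E₂((aτ + b)/d)` under `SL(2, ℤ)`. -/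
theorem IsTri.slash_e2Aff [NeZero a] [NeZero d] [NeZero a'] [NeZero d']
    (h : IsTri a d b γ σ a' d' b') (τ : ℍ) :
    (e2Aff a d b ∣[(2 : ℤ)] γ) τ =
      ((d : ℂ) / d') ^ 2 * EisensteinSeries.E2 (affH a' d' b' τ)
        - (e2C * d / a) * e2Defect γ τ := by
  have hd : (d : ℂ) ≠ 0 := by exact_mod_cast NeZero.ne d
  have hd' : (d' : ℂ) ≠ 0 := by exact_mod_cast NeZero.ne d'
  have ha : (a : ℂ) ≠ 0 := by exact_mod_cast NeZero.ne a
  have ha' : (a' : ℂ) ≠ 0 := by exact_mod_cast NeZero.ne a'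
  have hdetC : (a' : ℂ) * d' = a * d := by exact_mod_cast h.det
  have e00 : (a : ℂ) * (γ 0 0 : ℤ) + b * (γ 1 0 : ℤ) = σ 0 0 * a' := by exact_mod_cast h.e00
  have e10 : (d : ℂ) * (γ 1 0 : ℤ) = σ 1 0 * a' := by exact_mod_cast h.e10
  have e01 : (a : ℂ) * (γ 0 1 : ℤ) + b * (γ 1 1 : ℤ) = σ 0 0 * b' + σ 0 1 * d' := by
    exact_mod_cast h.e01
  have e11 : (d : ℂ) * (γ 1 1 : ℤ) = σ 1 0 * b' + σ 1 1 * d' := by exact_mod_cast h.e11
  set τ' := affH a' d' b' τ with hτ'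
  have hjσ : denom (σ : GL (Fin 2) ℝ) τ' = (d : ℂ) / d' * denom (γ : GL (Fin 2) ℝ) τ := by
    rw [ModularGroup.denom_apply, ModularGroup.denom_apply, hτ', coe_affH]
    field_simp
    linear_combination -(τ : ℂ) * e10 - e11
  have hjγ : denom (γ : GL (Fin 2) ℝ) τ ≠ 0 := denom_ne_zero _ _
  have hsmul : affH a d b (γ • τ) = σ • τ' := by
    refine UpperHalfPlane.ext ?_
    rw [coe_affH, coe_specialLinearGroup_apply, coe_specialLinearGroup_apply]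
    simp only [algebraMap_int_eq, eq_intCast, Complex.ofReal_intCast]
    rw [ModularGroup.denom_apply, ModularGroup.denom_apply, hτ', coe_affH] at hjσ
    rw [ModularGroup.denom_apply] at hjγ
    rw [hτ', coe_affH, hjσ]
    have key : (a : ℂ) * ((γ 0 0 : ℤ) * (τ : ℂ) + (γ 0 1 : ℤ))
        + b * ((γ 1 0 : ℤ) * (τ : ℂ) + (γ 1 1 : ℤ))
        = σ 0 0 * (a' * (τ : ℂ) + b') + σ 0 1 * d' := by
      linear_combination (τ : ℂ) * e00 + e01
    rw [show (a : ℂ) * (((γ 0 0 : ℤ) * (τ : ℂ) + (γ 0 1 : ℤ)) /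
        ((γ 1 0 : ℤ) * (τ : ℂ) + (γ 1 1 : ℤ))) + b
        = (σ 0 0 * (a' * (τ : ℂ) + b') + σ 0 1 * d') / ((γ 1 0 : ℤ) * (τ : ℂ) + (γ 1 1 : ℤ)) from by
      rw [eq_div_iff hjγ, add_mul, mul_assoc, div_mul_cancel₀ _ hjγ]
      exact key]
    field_simp
  have hσE := e2_slash_apply σ τ'
  rw [ModularForm.SL_slash_apply, zpow_neg, zpow_two, hjσ] at hσE
  rw [ModularForm.SL_slash_apply, zpow_neg, zpow_two, e2Aff, comp_apply, hsmul]
  simp only [e2Defect, hjσ] at hσE ⊢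
  have hcorr : ((d : ℂ) / d') ^ 2 * ((σ 1 0 : ℤ) / ((d : ℂ) / d' * denom (γ : GL (Fin 2) ℝ) τ))
      = d / a * ((γ 1 0 : ℤ) / denom (γ : GL (Fin 2) ℝ) τ) := by
    field_simp
    refine mul_left_cancel₀ hd ?_
    linear_combination -((σ 1 0 : ℤ) : ℂ) * hdetC - (d' : ℂ) * e10
  calc EisensteinSeries.E2 (σ • τ') * (denom (γ : GL (Fin 2) ℝ) τ * denom (γ : GL (Fin 2) ℝ) τ)⁻¹
      = ((d : ℂ) / d') ^ 2 * (EisensteinSeries.E2 (σ • τ') *
          ((d : ℂ) / d' * denom (γ : GL (Fin 2) ℝ) τ *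
            ((d : ℂ) / d' * denom (γ : GL (Fin 2) ℝ) τ))⁻¹) := by field_simp
    _ = _ := by rw [hσE, mul_sub, mul_left_comm, hcorr]; ring

/-- `E₂((aτ+b)/d)` is quasi-modular for `Γ₀(N)` when `(a b; 0 d)` conjugates `Γ₀(N)` into
`SL(2, ℤ)`. -/
theorem quasiFn_e2Aff (N a d : ℕ) [NeZero a] [NeZero d] (b : ℤ)
    (hN : ∀ γ ∈ Gamma0 N, ∃ σ, IsTri a d b γ σ a d b) :
    QuasiFn N (e2C * d / a) (e2Aff a d b) where
  mdiff := mdiff_affH a d b E2_mdifferentiable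
  inv γ hγ := by
    obtain ⟨σ, h⟩ := hN γ hγ
    funext τ
    rw [h.slash_e2Aff τ, div_self (by exact_mod_cast NeZero.ne d), one_pow, one_mul]
    rfl
  bdd γ := by
    obtain ⟨σ, a', d', b', ha', hd', h⟩ := exists_tri a d b γ
    have : e2Aff a d b ∣[(2 : ℤ)] γ + (e2C * d / a) • e2Defect γ =
        (((d : ℂ) / d') ^ 2) • (EisensteinSeries.E2 ∘ affH a' d' b') := by
      funext τ
      simp only [Pi.add_apply, Pi.smul_apply, smul_eq_mul, h.slash_e2Aff τ, comp_apply]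
      ring
    rw [this]
    exact (EisensteinSeries.isBoundedAtImInfty_E2.comp_tendsto
      (tendsto_affH a' d' b')).const_smul_left _

/-- `E₂(mτ)` on `Γ₀(m)`. -/
theorem quasiFn_e2_scale (m : ℕ) [NeZero m] :
    QuasiFn m (e2C * 1 / m) (e2Aff m 1 0) := by
  have key := quasiFn_e2Aff m m 1 0 ?_
  · simpa using key
  intro γ hγ
  rw [Gamma0_mem, ZMod.intCast_zmod_eq_zero_iff_dvd] at hγ
  obtain ⟨c, hc⟩ := hγ
  have hdet : γ 0 0 * γ 1 1 - γ 0 1 * γ 1 0 = 1 := by rw [← Matrix.det_fin_two]; exact γ.2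
  refine ⟨⟨!![γ 0 0, m * γ 0 1; c, γ 1 1], by
    rw [Matrix.det_fin_two_of]; rw [hc] at hdet; linear_combination hdet⟩, ?_, ?_, ?_, ?_⟩
  · simp [mul_comm]
  · simp [hc, mul_comm]
  · simp
  · simp

/-- `E₂(τ + k/m)` on `Γ₀(m²)` when units mod `m` are their own inverses. -/
theorem quasiFn_e2_twist (m : ℕ) [NeZero m] (k : ℤ)
    (hm : ∀ x y : ZMod m, x * y = 1 → x = y) :
    QuasiFn (m * m) e2C (e2Aff m m k) := by
  have hmC : (m : ℂ) ≠ 0 := by exact_mod_cast NeZero.ne m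
  have key := quasiFn_e2Aff (m * m) m m k ?_
  · rwa [mul_div_assoc, div_self hmC, mul_one] at key
  intro γ hγ
  rw [Gamma0_mem, ZMod.intCast_zmod_eq_zero_iff_dvd] at hγ
  obtain ⟨c, hc⟩ := hγ
  push_cast at hc
  have hdet : γ 0 0 * γ 1 1 - γ 0 1 * γ 1 0 = 1 := by rw [← Matrix.det_fin_two]; exact γ.2
  obtain ⟨e, he⟩ : (m : ℤ) ∣ γ 1 1 - γ 0 0 := by
    rw [← ZMod.intCast_zmod_eq_zero_iff_dvd, Int.cast_sub, sub_eq_zero]
    refine (hm _ _ ?_).symm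
    have h := congrArg (Int.cast : ℤ → ZMod m) hdet
    rw [hc] at h
    simpa using h
  rw [hc] at hdet
  refine ⟨⟨!![γ 0 0 + k * m * c, γ 0 1 + k * e - k * k * c; m * m * c, γ 1 1 - k * m * c], by
    rw [Matrix.det_fin_two_of]; linear_combination hdet + (k * m * c) * he⟩, ?_, ?_, ?_, ?_⟩
  · simp [hc]; ring
  · simp [hc]; ring
  · simp; linear_combination k * he
  · simp; ring

end Fermat.Agent.SquareLevel
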