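import Mathlib.RingTheory.RootsOfUnity.Complex
import Fermat.Prelude.Thm_ModularForm_sturm_bound_Gamma0
import Fermat.Agent.SquareLevel.Hauptmodul.E2

/-!
# Integral q-expansions of the `E₂` combinations, and finite coefficient checks
-/

noncomputable section

open UpperHalfPlane CongruenceSubgroup Filter Function
open scoped MatrixGroups ModularForm Manifold Topology ArithmeticFunction.sigma

namespace Fermat.Agent.SquareLevel

open Fermat.Agent.MF

/-! ### `IsQFn` and coefficients from sums -/

/-- A quasimodular function has a `q`-expansion. -/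
theorem QuasiFn.isQFn {N : ℕ} {e : ℂ} {f : ℍ → ℂ} (hf : QuasiFn N e f) : IsQFn f where
  periodic := by
    intro w
    by_cases hw : 0 < w.im
    · have hw' : 0 < (w + ((1 : ℝ) : ℂ)).im := by simpa using hw
      have h := congrFun (hf.inv _ (T_mem_Gamma0 N)) ⟨w, hw⟩
      rw [ModularForm.SL_slash_apply, modular_T_smul] at h
      have hd : denom (ModularGroup.T : GL (Fin 2) ℝ) (w : ℂ) = 1 := by
        simp [denom, ModularGroup.coe_T]
      rw [hd, one_zpow, mul_one] at h
      simp only [Pi.sub_apply, Pi.smul_apply, e2Defect, ModularGroup.coe_T] at h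
      simp only [comp_apply, ofComplex_apply_of_im_pos hw, ofComplex_apply_of_im_pos hw']
      have he : ((1 : ℝ) +ᵥ (⟨w, hw⟩ : ℍ)) = ⟨w + ((1 : ℝ) : ℂ), hw'⟩ :=
        UpperHalfPlane.ext (by simp [add_comm])
      rw [he] at h
      simpa using h
    · have hw' : (w + ((1 : ℝ) : ℂ)).im ≤ 0 := by simpa using hw
      simp only [comp_apply]
      rw [ofComplex_apply_of_im_nonpos hw', ofComplex_apply_of_im_nonpos (not_lt.mp hw)]
  mdiff := hf.mdiff
  bdd := by
    have h := hf.bdd 1
    rw [SlashAction.slash_one] at h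
    have h1 : e • e2Defect 1 = (0 : ℍ → ℂ) := by funext τ; simp [e2Defect]
    rwa [h1, add_zero] at h

theorem qExpansion_eq_mk {f : ℍ → ℂ} (hf : IsQFn f) {c : ℕ → ℂ}
    (h : ∀ τ : ℍ, HasSum (fun n => c n • Periodic.qParam 1 (τ : ℂ) ^ n) (f τ)) :
    qExpansion 1 f = PowerSeries.mk c := by
  have h1 := (hasFPowerSeriesOnBall_cuspFunction one_pos hf.analyticAt h).hasFPowerSeriesAt
  have h2 := (hasFPowerSeriesOnBall_cuspFunction one_pos hf.analyticAt
    (hasSum_qExpansion one_pos hf.periodic hf.mdiff hf.bdd)).hasFPowerSeriesAt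
  ext n
  rw [PowerSeries.coeff_mk]
  simpa using (congr_arg (FormalMultilinearSeries.coeff · n)
    (h1.eq_formalMultilinearSeries h2)).symm

/-- The coefficients of `E₂`. -/
def e2Coeff (n : ℕ) : ℤ := if n = 0 then 1 else -24 * (ArithmeticFunction.sigma 1 n : ℤ)

theorem e2Aff_one : e2Aff 1 1 0 = EisensteinSeries.E2 := by
  funext τ
  have h : affH 1 1 0 τ = τ := UpperHalfPlane.ext (by simp)
  rw [e2Aff, comp_apply, h]

theorem isQFn_e2 : IsQFn EisensteinSeries.E2 := by
  have h := (quasiFn_e2_scale 1).isQFn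
  rwa [e2Aff_one] at h

theorem qExpansion_e2 :
    qExpansion 1 EisensteinSeries.E2 = PowerSeries.mk fun n => (e2Coeff n : ℂ) :=
  qExpansion_eq_mk isQFn_e2 fun τ => by
    refine (EisensteinSeries.hasSum_qExpansion_E2 (z := τ)).congr_fun fun n => ?_
    rcases eq_or_ne n 0 with rfl | hn <;> simp [e2Coeff, Periodic.qParam, *]

/-- The primitive `m`-th root of unity used for twisting. -/
def omegaC (m : ℕ) : ℂ := Complex.exp (2 * Real.pi * Complex.I / m)

theorem qExpansion_e2_twist (m : ℕ) [NeZero m] (k : ℕ)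
    (hm : ∀ x y : ZMod m, x * y = 1 → x = y) :
    qExpansion 1 (e2Aff m m k) =
      PowerSeries.mk fun n => omegaC m ^ (k * n) * (e2Coeff n : ℂ) := by
  refine qExpansion_eq_mk (quasiFn_e2_twist m k hm).isQFn fun τ => ?_
  have h := EisensteinSeries.hasSum_qExpansion_E2 (z := affH m m k τ)
  refine h.congr_fun fun n => ?_
  have hq : Periodic.qParam 1 (affH m m k τ : ℂ) = omegaC m ^ k * Periodic.qParam 1 (τ : ℂ) := by
    rw [omegaC, ← Complex.exp_nat_mul, Periodic.qParam, Periodic.qParam, ← Complex.exp_add,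
      coe_affH]
    congr 1
    have : (m : ℂ) ≠ 0 := by exact_mod_cast NeZero.ne m
    push_cast
    field_simp
    ring
  rw [show Complex.exp (2 * Real.pi * Complex.I * (affH m m k τ : ℂ))
    = omegaC m ^ k * Periodic.qParam 1 (τ : ℂ) by rw [← hq]; simp [Periodic.qParam],
    mul_pow, ← pow_mul, smul_eq_mul, smul_eq_mul]
  rcases eq_or_ne n 0 with rfl | hn
  · simp [e2Coeff]
  · simp [e2Coeff, *]
    ring

theorem qExpansion_comp_scale_coeff {f : ℍ → ℂ} (hf : IsQFn f) (m : ℕ) [NeZero m] (n : ℕ) :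
    (qExpansion 1 (f ∘ scale m)).coeff n =
      if m ∣ n then (qExpansion 1 f).coeff (n / m) else 0 := by
  rw [← lq_coeff_nat, lq_comp_scale hf]
  split_ifs with h
  · obtain ⟨r, rfl⟩ := h
    rw [Nat.cast_mul, ModularCurve.qExpand_coeff_mul, lq_coeff_nat,
      Nat.mul_div_cancel_left _ (NeZero.pos m)]
  · exact ModularCurve.qExpand_coeff_of_not_dvd m _ (by exact_mod_cast h)

/-! ### Integral expansions -/

/-- `f` has `q`-expansion `s`, with integral coefficients. -/
structure HasQExp (f : ℍ → ℂ) (s : PowerSeries ℤ) : Prop where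
  isQFn : IsQFn f
  eq : qExpansion 1 f = s.map (Int.castRingHom ℂ)

namespace HasQExp

variable {f g : ℍ → ℂ} {s u : PowerSeries ℤ}

theorem mul (hf : HasQExp f s) (hg : HasQExp g u) : HasQExp (f * g) (s * u) :=
  ⟨hf.isQFn.mul hg.isQFn,
    by rw [qExpansion_mul hf.isQFn.analyticAt hg.isQFn.analyticAt, hf.eq, hg.eq, map_mul]⟩

theorem add (hf : HasQExp f s) (hg : HasQExp g u) : HasQExp (f + g) (s + u) :=
  ⟨hf.isQFn.add hg.isQFn,
    by rw [qExpansion_add hf.isQFn.analyticAt hg.isQFn.analyticAt, hf.eq, hg.eq, map_add]⟩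

theorem smul (hf : HasQExp f s) (c : ℤ) : HasQExp ((c : ℂ) • f) (c • s) :=
  ⟨hf.isQFn.smul c, by
    rw [qExpansion_smul hf.isQFn.analyticAt, hf.eq, map_zsmul, Int.cast_smul_eq_zsmul]⟩

theorem pow (hf : HasQExp f s) (n : ℕ) : HasQExp (f ^ n) (s ^ n) := by
  induction n with
  | zero => exact ⟨IsQFn.const 1, by simp [qExpansion_one]⟩
  | succ n ih => rw [pow_succ, pow_succ]; exact ih.mul hf

theorem lq_eq (hf : HasQExp f s) :
    lq f = HahnSeries.ofPowerSeries ℤ ℂ (s.map (Int.castRingHom ℂ)) := by rw [lq, hf.eq]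

end HasQExp

/-- A form with integral expansion vanishes when its first coefficients do. -/
theorem eq_zero_of_hasQExp {N : ℕ} [NeZero N] {k : ℕ} {f : ℍ → ℂ} {s : PowerSeries ℤ}
    (hf : IsFormFn (Gamma0 N) k f) (hs : HasQExp f s) (K : ℕ)
    (hK : k * (Gamma0 N).index / 12 < K) (h : ∀ n < K, s.coeff n = 0) : f = 0 := by
  have h0 := ModularForm.sturm_bound_Gamma0 N hf.toModularForm fun n hn => by
    rw [show ((k : ℤ) * ((Gamma0 N).index : ℤ)).toNat = k * (Gamma0 N).index by
      rw [← Nat.cast_mul, Int.toNat_natCast]] at hn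
    simp [IsFormFn.coe_toModularForm, hs.eq, PowerSeries.coeff_map, h n (lt_of_le_of_lt hn hK)]
  exact congrArg DFunLike.coe h0

/-! ### Truncated series for coefficient checks -/

/-- `L` lists the first `K` coefficients of `s`. -/
def Agree (K : ℕ) (s : PowerSeries ℤ) (L : List ℤ) : Prop := ∀ n < K, s.coeff n = L.getD n 0

/-- Truncated Cauchy product. -/
def conv (K : ℕ) (L M : List ℤ) : List ℤ :=
  (List.range K).map fun n =>
    ((List.range (n + 1)).map fun i => L.getD i 0 * M.getD (n - i) 0).sum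

/-- Truncated power. -/
def convPow (K : ℕ) (L : List ℤ) : ℕ → List ℤ
  | 0 => [1]
  | n + 1 => conv K (convPow K L n) L

/-- Truncated linear combination. -/
def convLin (K : ℕ) (a : ℤ) (L : List ℤ) (b : ℤ) (M : List ℤ) : List ℤ :=
  (List.range K).map fun n => a * L.getD n 0 + b * M.getD n 0

namespace Agree

variable {K : ℕ} {s u : PowerSeries ℤ} {L M : List ℤ}

theorem of_fun (c : ℕ → ℤ) : Agree K (PowerSeries.mk c) ((List.range K).map c) := fun n hn => by
  simp [List.getD_eq_getElem?_getD, hn]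

theorem mul (hs : Agree K s L) (hu : Agree K u M) : Agree K (s * u) (conv K L M) := fun n hn => by
  rw [conv, List.getD_eq_getElem?_getD, List.getElem?_map, List.getElem?_range hn,
    Option.map_some, Option.getD_some, PowerSeries.coeff_mul,
    Finset.Nat.sum_antidiagonal_eq_sum_range_succ_mk, ← List.sum_toFinset _ List.nodup_range,
    List.toFinset_range]
  refine Finset.sum_congr rfl fun i hi => ?_
  rw [Finset.mem_range] at hi
  rw [hs i (by omega), hu (n - i) (by omega)]

theorem pow (hs : Agree K s L) (e : ℕ) : Agree K (s ^ e) (convPow K L e) := by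
  induction e with
  | zero =>
    intro n hn
    rcases eq_or_ne n 0 with rfl | h0
    · simp [convPow]
    · simp [convPow, PowerSeries.coeff_one, h0]
  | succ e ih => rw [pow_succ]; exact ih.mul hs

theorem lin (hs : Agree K s L) (hu : Agree K u M) (a b : ℤ) :
    Agree K (a • s + b • u) (convLin K a L b M) := fun n hn => by
  rw [convLin, List.getD_eq_getElem?_getD, List.getElem?_map, List.getElem?_range hn]
  rw [map_add, map_zsmul, map_zsmul, hs n hn, hu n hn]
  simp

end Agree

end Fermat.Agent.SquareLevel
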