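import Fermat.Agent.Grp.Interface
import Fermat.Agent.SquareLevel.Hauptmodul.QExp

/-!
# The weight two forms `A`, `B` of level `Γ₀(4)` and `Γ₀(9)` and their q-expansions

`A/B = q⁻¹ + …` is a Hauptmodul; the expressions of `E₄(dτ)`, `E₆(dτ)` (`d ∣ n²`) through `A`, `B`
are proved in `Hauptmodul/QForm`.
-/

noncomputable section

open UpperHalfPlane CongruenceSubgroup Filter Function
open scoped MatrixGroups ModularForm Manifold Topology

namespace Fermat.Agent.SquareLevel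

open Fermat.Agent.MF

/-- `σ₁`, computably. -/
def sigOne (n : ℕ) : ℕ := ∑ d ∈ n.divisors, d

theorem sigma_one_eq_sigOne (n : ℕ) : (ArithmeticFunction.sigma 1 n : ℕ) = sigOne n := by
  simp [ArithmeticFunction.sigma_one_apply, sigOne]

theorem three_dvd_sigOne {n : ℕ} (hn : n % 3 = 2) : 3 ∣ sigOne n := by
  have h : ∑ d ∈ n.divisors, ((d : ZMod 3) + ((n / d : ℕ) : ZMod 3)) = 0 := by
    refine Finset.sum_eq_zero fun d hd => ?_
    have hdn : ((d : ZMod 3) * ((n / d : ℕ) : ZMod 3)) = 2 := by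
      rw [← Nat.cast_mul, Nat.mul_div_cancel' (Nat.dvd_of_mem_divisors hd), ← ZMod.natCast_mod n 3,
        hn]
      rfl
    exact (by decide : ∀ x y : ZMod 3, x * y = 2 → x + y = 0) _ _ hdn
  rw [Finset.sum_add_distrib, Nat.sum_div_divisors n (fun d => (d : ZMod 3))] at h
  rw [← CharP.cast_eq_zero_iff (ZMod 3) 3, sigOne, Nat.cast_sum]
  exact (by decide : ∀ x : ZMod 3, x + x = 0 → x = 0) _ h

/-- Coefficients of `E₄`. -/
def e4Coeff (n : ℕ) : ℤ := if n = 0 then 1 else 240 * ∑ d ∈ n.divisors, (d : ℤ) ^ 3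

/-- Coefficients of `E₆`. -/
def e6Coeff (n : ℕ) : ℤ := if n = 0 then 1 else -504 * ∑ d ∈ n.divisors, (d : ℤ) ^ 5

/-- Coefficients of `f(mτ)`. -/
def scaleCoeff (m : ℕ) (c : ℕ → ℤ) (n : ℕ) : ℤ := if m ∣ n then c (n / m) else 0

theorem hasQExp_E4 : HasQExp E4fn (PowerSeries.mk e4Coeff) :=
  ⟨isFormFn_E4.isQFnTop, qExpansion_E4⟩

theorem hasQExp_E6 : HasQExp E6fn (PowerSeries.mk e6Coeff) := by
  refine ⟨isFormFn_E6.isQFnTop, ?_⟩
  ext n
  rw [E6fn, EisensteinSeries.E_qExpansion_coeff _ ⟨3, rfl⟩, PowerSeries.coeff_map,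
    PowerSeries.coeff_mk, show bernoulli 6 = 1 / 42 by decide +kernel]
  rcases eq_or_ne n 0 with rfl | hn
  · simp [e6Coeff]
  · simp [e6Coeff, hn, ArithmeticFunction.sigma_apply]
    norm_num

theorem HasQExp.comp_scale {f : ℍ → ℂ} {c : ℕ → ℤ} (hf : HasQExp f (PowerSeries.mk c)) (m : ℕ)
    [NeZero m] : HasQExp (f ∘ scale m) (PowerSeries.mk (scaleCoeff m c)) := by
  refine ⟨hf.isQFn.comp_scale m, ?_⟩
  ext n
  rw [qExpansion_comp_scale_coeff hf.isQFn, hf.eq]
  simp only [PowerSeries.coeff_map, PowerSeries.coeff_mk, scaleCoeff]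
  split_ifs <;> simp

theorem hasQExp_e2 : HasQExp EisensteinSeries.E2 (PowerSeries.mk e2Coeff) :=
  ⟨isQFn_e2, by rw [qExpansion_e2]; ext n; simp⟩

/-! ### `n = 2` -/

/-- `A` at level `4`: `2E₂(4τ) − E₂(2τ)`. -/
def formA2 : ℍ → ℂ :=
  ((2 : ℤ) : ℂ) • (EisensteinSeries.E2 ∘ scale 4)
    + ((-1 : ℤ) : ℂ) • (EisensteinSeries.E2 ∘ scale 2)

/-- Coefficients of `A` at level `4`. -/
def coeffA2 (n : ℕ) : ℤ := 2 * scaleCoeff 4 e2Coeff n + (-1) * scaleCoeff 2 e2Coeff n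

theorem hasQExp_A2 : HasQExp formA2 (PowerSeries.mk coeffA2) := by
  have h := ((hasQExp_e2.comp_scale 4).smul 2).add ((hasQExp_e2.comp_scale 2).smul (-1))
  have e : PowerSeries.mk coeffA2 = (2 : ℤ) • PowerSeries.mk (scaleCoeff 4 e2Coeff) +
      (-1 : ℤ) • PowerSeries.mk (scaleCoeff 2 e2Coeff) := by
    ext n
    rw [map_add, map_zsmul, map_zsmul]
    simp [coeffA2]
  rw [e]
  exact h

theorem isFormFn_A2 : IsFormFn (Gamma0 4) 2 formA2 :=
  (((quasiFn_e2_scale 4).smul ((2 : ℤ) : ℂ)).add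
    (((quasiFn_e2_scale 2).mono (by norm_num)).smul ((-1 : ℤ) : ℂ))).isFormFn (by norm_num; ring)

/-- `B` at level `4`: `∑_{n odd} σ(n) qⁿ`. -/
def formB2 : ℍ → ℂ := (-(1 / 48) : ℂ) • (e2Aff 2 2 0 + (-1 : ℂ) • e2Aff 2 2 1)

/-- Coefficients of `B` at level `4`. -/
def coeffB2 (n : ℕ) : ℤ := if n % 2 = 1 then sigOne n else 0

theorem zmod_two_units : ∀ x y : ZMod 2, x * y = 1 → x = y := by decide

theorem zmod_three_units : ∀ x y : ZMod 3, x * y = 1 → x = y := by decide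

theorem isFormFn_B2 : IsFormFn (Gamma0 4) 2 formB2 :=
  ((((quasiFn_e2_twist 2 0 zmod_two_units)).add
    ((quasiFn_e2_twist 2 1 zmod_two_units).smul (-1))).smul _).isFormFn (by ring)

theorem omegaC_two : omegaC 2 = -1 := by
  rw [omegaC, show 2 * (Real.pi : ℂ) * Complex.I / (2 : ℕ) = Real.pi * Complex.I by
    push_cast; ring, Complex.exp_pi_mul_I]

theorem hasQExp_B2 : HasQExp formB2 (PowerSeries.mk coeffB2) := by
  refine ⟨isFormFn_B2.isQFn0, ?_⟩
  have h0 := qExpansion_e2_twist 2 0 zmod_two_units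
  have h1 := qExpansion_e2_twist 2 1 zmod_two_units
  simp only [Nat.cast_zero, Nat.cast_one, one_mul] at h0 h1
  have q0 := (quasiFn_e2_twist 2 0 zmod_two_units).isQFn
  have q1 := (quasiFn_e2_twist 2 1 zmod_two_units).isQFn
  rw [formB2, qExpansion_smul (q0.add (q1.smul _)).analyticAt,
    qExpansion_add q0.analyticAt (q1.smul _).analyticAt, qExpansion_smul q1.analyticAt, h0, h1]
  ext n
  simp only [map_smul, map_add, PowerSeries.coeff_mk, PowerSeries.coeff_map, smul_eq_mul,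
    omegaC_two, zero_mul, pow_zero, one_mul]
  rcases eq_or_ne n 0 with rfl | hn
  · simp [coeffB2]
  rcases Nat.even_or_odd n with h | h
  · simp [coeffB2, h.neg_one_pow, Nat.even_iff.mp h]
  · simp [coeffB2, h.neg_one_pow, Nat.odd_iff.mp h, e2Coeff, hn, sigma_one_eq_sigOne]
    ring

/-! ### `n = 3` -/

theorem omegaC_three_cube : omegaC 3 ^ 3 = 1 := by
  have := Complex.isPrimitiveRoot_exp 3 (by norm_num)
  exact this.pow_eq_one

theorem omegaC_three_sum : 1 + omegaC 3 + omegaC 3 ^ 2 = 0 := by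
  have := (Complex.isPrimitiveRoot_exp 3 (by norm_num)).geom_sum_eq_zero (by norm_num)
  simpa [Finset.sum_range_succ, omegaC] using this

/-- `A` at level `9`: `∑_{n ≡ 1 (3)} σ(n) qⁿ`. -/
def formA3 : ℍ → ℂ := (-(1 / 72) : ℂ) •
  (e2Aff 3 3 0 + omegaC 3 ^ 2 • e2Aff 3 3 1 + omegaC 3 • e2Aff 3 3 2)

/-- `B` at level `9`: `⅓ ∑_{n ≡ 2 (3)} σ(n) qⁿ`. -/
def formB3 : ℍ → ℂ := (-(1 / 216) : ℂ) •
  (e2Aff 3 3 0 + omegaC 3 • e2Aff 3 3 1 + omegaC 3 ^ 2 • e2Aff 3 3 2)

/-- Coefficients of `A` at level `9`. -/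
def coeffA3 (n : ℕ) : ℤ := if n % 3 = 1 then sigOne n else 0

/-- Coefficients of `B` at level `9`. -/
def coeffB3 (n : ℕ) : ℤ := if n % 3 = 2 then ((sigOne n / 3 : ℕ) : ℤ) else 0

theorem isFormFn_A3 : IsFormFn (Gamma0 9) 2 formA3 :=
  (((((quasiFn_e2_twist 3 0 zmod_three_units)).add
    ((quasiFn_e2_twist 3 1 zmod_three_units).smul _)).add
    ((quasiFn_e2_twist 3 2 zmod_three_units).smul _)).smul _).isFormFn (by
      linear_combination (-(1 / 72) * e2C) * omegaC_three_sum)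

theorem isFormFn_B3 : IsFormFn (Gamma0 9) 2 formB3 :=
  (((((quasiFn_e2_twist 3 0 zmod_three_units)).add
    ((quasiFn_e2_twist 3 1 zmod_three_units).smul _)).add
    ((quasiFn_e2_twist 3 2 zmod_three_units).smul _)).smul _).isFormFn (by
      linear_combination (-(1 / 216) * e2C) * omegaC_three_sum)

theorem omegaC_three_pow_mod (n : ℕ) : omegaC 3 ^ n = omegaC 3 ^ (n % 3) := by
  conv_lhs => rw [← Nat.div_add_mod n 3, pow_add, pow_mul, omegaC_three_cube, one_pow, one_mul]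

theorem qExpansion_combo_three (c u v : ℂ) (n : ℕ) :
    (qExpansion 1 (c • (e2Aff 3 3 0 + u • e2Aff 3 3 1 + v • e2Aff 3 3 2))).coeff n =
      c * (1 + u * omegaC 3 ^ (n % 3) + v * omegaC 3 ^ ((2 * n) % 3)) * (e2Coeff n : ℂ) := by
  have h0 := qExpansion_e2_twist 3 0 zmod_three_units
  have h1 := qExpansion_e2_twist 3 1 zmod_three_units
  have h2 := qExpansion_e2_twist 3 2 zmod_three_units
  simp only [Nat.cast_zero, Nat.cast_one, Nat.cast_ofNat, one_mul, zero_mul, pow_zero] at h0 h1 h2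
  have q0 := (quasiFn_e2_twist 3 0 zmod_three_units).isQFn
  have q1 := (quasiFn_e2_twist 3 1 zmod_three_units).isQFn
  have q2 := (quasiFn_e2_twist 3 2 zmod_three_units).isQFn
  rw [qExpansion_smul ((q0.add (q1.smul u)).add (q2.smul v)).analyticAt,
    qExpansion_add (q0.add (q1.smul u)).analyticAt (q2.smul v).analyticAt,
    qExpansion_add q0.analyticAt (q1.smul u).analyticAt, qExpansion_smul q1.analyticAt,
    qExpansion_smul q2.analyticAt, h0, h1, h2]
  simp only [map_smul, map_add, PowerSeries.coeff_mk, smul_eq_mul, ← omegaC_three_pow_mod]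
  ring

theorem hasQExp_A3 : HasQExp formA3 (PowerSeries.mk coeffA3) := by
  refine ⟨isFormFn_A3.isQFn0, ?_⟩
  ext n
  rw [formA3, qExpansion_combo_three, PowerSeries.coeff_map, PowerSeries.coeff_mk, eq_intCast]
  have hc := omegaC_three_cube
  have hs := omegaC_three_sum
  have h2 : (2 * n) % 3 = (2 * (n % 3)) % 3 := by omega
  rcases eq_or_ne n 0 with rfl | hn
  · norm_num only [coeffA3, Nat.zero_mod, Nat.mul_zero, if_false, pow_zero, Int.cast_zero]
    linear_combination (-(e2Coeff 0 : ℂ) / 72) * hs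
  have he : (e2Coeff n : ℂ) = -24 * (sigOne n : ℂ) := by simp [e2Coeff, hn, sigma_one_eq_sigOne]
  rw [he]
  rcases (by omega : n % 3 = 0 ∨ n % 3 = 1 ∨ n % 3 = 2) with h | h | h <;>
    norm_num only [h2, h, coeffA3, if_false, if_true, pow_zero, pow_one, Int.cast_zero,
      Int.cast_natCast]
  · linear_combination (sigOne n : ℂ) / 3 * hs
  · linear_combination 2 * (sigOne n : ℂ) / 3 * hc
  · linear_combination (sigOne n : ℂ) / 3 * (omegaC 3 * hc + hs)

theorem hasQExp_B3 : HasQExp formB3 (PowerSeries.mk coeffB3) := by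
  refine ⟨isFormFn_B3.isQFn0, ?_⟩
  ext n
  rw [formB3, qExpansion_combo_three, PowerSeries.coeff_map, PowerSeries.coeff_mk, eq_intCast]
  have hc := omegaC_three_cube
  have hs := omegaC_three_sum
  have h2 : (2 * n) % 3 = (2 * (n % 3)) % 3 := by omega
  rcases eq_or_ne n 0 with rfl | hn
  · norm_num only [coeffB3, Nat.zero_mod, Nat.mul_zero, if_false, pow_zero, Int.cast_zero]
    linear_combination (-(e2Coeff 0 : ℂ) / 216) * hs
  have he : (e2Coeff n : ℂ) = -24 * (sigOne n : ℂ) := by simp [e2Coeff, hn, sigma_one_eq_sigOne]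
  rw [he]
  rcases (by omega : n % 3 = 0 ∨ n % 3 = 1 ∨ n % 3 = 2) with h | h | h <;>
    norm_num only [h2, h, coeffB3, if_false, if_true, pow_zero, pow_one, Int.cast_zero,
      Int.cast_natCast]
  · linear_combination (sigOne n : ℂ) / 9 * hs
  · linear_combination (sigOne n : ℂ) / 9 * (hs + omegaC 3 * hc)
  · obtain ⟨m, hm⟩ := three_dvd_sigOne h
    rw [hm, Nat.mul_div_cancel_left _ (by norm_num : 0 < 3)]
    push_cast
    linear_combination 2 * (m : ℂ) / 3 * hc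

end Fermat.Agent.SquareLevel
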