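import Fermat.Agent.Igusa.LevelOne
import Fermat.Agent.SquareLevel.Hauptmodul.Forms
import Fermat.Agent.SquareLevel.Hauptmodul.Series
import Fermat.Agent.X0.LevelOne

/-!
# `θ j · Δ = −E₄² E₆` as series over any commutative ring
-/

noncomputable section

open UpperHalfPlane Filter Function Derivative ModularCurve
open scoped MatrixGroups ModularForm Manifold Topology

namespace Fermat.Agent.SquareLevel

open Fermat.Agent.MF

/-- The normalised derivative is `q dF/dq` for the cusp function `F`. -/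
theorem D_eq_cusp {f : ℍ → ℂ} (hf : IsQFn f) (τ : ℍ) :
    normalizedDerivOfComplex f τ = Periodic.qParam 1 (τ : ℂ) *
      deriv (cuspFunction 1 f) (Periodic.qParam 1 (τ : ℂ)) := by
  set g := cuspFunction 1 f
  have hev : (f ∘ ofComplex) =ᶠ[𝓝 (τ : ℂ)] fun z => g (Periodic.qParam 1 z) := by
    filter_upwards [isOpen_upperHalfPlaneSet.mem_nhds τ.im_pos] with z hz
    have h := eq_cuspFunction ⟨z, hz⟩ one_ne_zero hf.periodic
    simp only [comp_apply, ofComplex_apply_of_im_pos hz]
    exact h.symm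
  have hq : HasDerivAt (fun z : ℂ => Periodic.qParam 1 z)
      (Periodic.qParam 1 (τ : ℂ) * (2 * Real.pi * Complex.I)) (τ : ℂ) := by
    simp only [Periodic.qParam, Complex.ofReal_one, div_one]
    simpa using (((hasDerivAt_id (τ : ℂ)).const_mul (2 * Real.pi * Complex.I)).cexp)
  have hg : DifferentiableAt ℂ g (Periodic.qParam 1 (τ : ℂ)) :=
    (differentiableOn_cuspFunction_ball one_pos hf.periodic hf.mdiff hf.bdd).differentiableAt
      (Metric.isOpen_ball.mem_nhds (by
        simpa using Periodic.norm_qParam_lt_one one_pos τ.im_pos))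
  rw [normalizedDerivOfComplex, hev.deriv_eq]
  erw [(hg.hasDerivAt.comp (τ : ℂ) hq).deriv]
  field_simp [Complex.two_pi_I_ne_zero]

theorem isQFn_D {f : ℍ → ℂ} (hf : IsQFn f) : IsQFn (normalizedDerivOfComplex f) where
  periodic := by
    intro w
    by_cases hw : 0 < w.im
    · have hw' : 0 < (w + ((1 : ℝ) : ℂ)).im := by simpa using hw
      simp only [comp_apply, ofComplex_apply_of_im_pos hw, ofComplex_apply_of_im_pos hw',
        D_eq_cusp hf]
      have : Periodic.qParam 1 (w + ((1 : ℝ) : ℂ)) = Periodic.qParam 1 w := by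
        simp [Periodic.qParam, mul_add, Complex.exp_add]
      rw [this]
    · have hw' : (w + ((1 : ℝ) : ℂ)).im ≤ 0 := by simpa using hw
      simp only [comp_apply]
      rw [ofComplex_apply_of_im_nonpos hw', ofComplex_apply_of_im_nonpos (not_lt.mp hw)]
  mdiff := normalizedDerivOfComplex_mdifferentiable hf.mdiff
  bdd := X0.isBoundedAtImInfty_D hf.mdiff hf.bdd

/-- The normalised derivative multiplies the `n`-th coefficient by `n`. -/
theorem HasQExp.D {f : ℍ → ℂ} {s : PowerSeries ℤ} (hf : HasQExp f s) :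
    HasQExp (normalizedDerivOfComplex f) (PowerSeries.mk fun n => (n : ℤ) * s.coeff n) := by
  refine ⟨isQFn_D hf.isQFn, ?_⟩
  set g := cuspFunction 1 f with hg
  have hd : DifferentiableOn ℂ g (Metric.ball 0 1) :=
    differentiableOn_cuspFunction_ball one_pos hf.isQFn.periodic hf.isQFn.mdiff hf.isQFn.bdd
  rw [qExpansion_eq_mk (isQFn_D hf.isQFn) (c := fun n => ((n : ℤ) * s.coeff n : ℤ)) fun τ => ?_]
  · ext n; simp
  rw [D_eq_cusp hf.isQFn, ← hg]
  set q := Periodic.qParam 1 (τ : ℂ) with hqdef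
  have h1 := Complex.hasSum_taylorSeries_on_ball (hd.deriv Metric.isOpen_ball)
    (z := q) (by simpa using Periodic.norm_qParam_lt_one one_pos τ.im_pos)
  rw [← hasSum_nat_add_iff' 1]
  simp only [Finset.sum_range_one, Nat.cast_zero, zero_mul, Int.cast_zero, zero_smul, sub_zero]
  refine ((h1.mul_left q).congr_fun fun n => ?_)
  have hc : (qExpansion 1 f).coeff (n + 1) = (((n + 1).factorial : ℕ) : ℂ)⁻¹ *
      iteratedDeriv (n + 1) g 0 := qExpansion_coeff f (n + 1)
  rw [hf.eq, PowerSeries.coeff_map, iteratedDeriv_succ'] at hc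
  simp only [eq_intCast] at hc
  rw [Int.cast_mul, hc, smul_eq_mul, smul_eq_mul, sub_zero, Int.cast_natCast, Nat.factorial_succ]
  have h2 : ((n.factorial : ℕ) : ℂ) ≠ 0 := by exact_mod_cast n.factorial_ne_zero
  have h3 : ((n : ℂ) + 1) ≠ 0 := by exact_mod_cast Nat.succ_ne_zero n
  push_cast
  field_simp
  ring

theorem qTheta_lq {f : ℍ → ℂ} {s : PowerSeries ℤ} (hf : HasQExp f s) :
    qTheta (lq f) = lq (normalizedDerivOfComplex f) := by
  ext n
  rw [qTheta_coeff]
  rcases lt_or_ge n 0 with hn | hn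
  · rw [lq, lq, ofPowerSeries_coeff_of_neg _ hn, ofPowerSeries_coeff_of_neg _ hn, mul_zero]
  · lift n to ℕ using hn
    rw [lq_coeff_nat, lq_coeff_nat, hf.eq, hf.D.eq]
    simp

/-- The series of `E₄`. -/
def e4Ser (R : Type*) [CommRing R] : LaurentSeries R :=
  HahnSeries.ofPowerSeries ℤ R ((PowerSeries.mk e4Coeff).map (Int.castRingHom R))

/-- The series of `E₆`. -/
def e6Ser (R : Type*) [CommRing R] : LaurentSeries R :=
  HahnSeries.ofPowerSeries ℤ R ((PowerSeries.mk e6Coeff).map (Int.castRingHom R))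

theorem coeffMap_e4Ser {R S : Type*} [CommRing R] [CommRing S] (φ : R →+* S) :
    coeffMap φ (e4Ser R) = e4Ser S := by
  rw [e4Ser, e4Ser, coeffMap_ofPowerSeries, ← RingHom.comp_apply (PowerSeries.map φ),
    ← PowerSeries.map_comp, RingHom.ext_int (φ.comp (Int.castRingHom R)) (Int.castRingHom S)]

theorem coeffMap_e6Ser {R S : Type*} [CommRing R] [CommRing S] (φ : R →+* S) :
    coeffMap φ (e6Ser R) = e6Ser S := by
  rw [e6Ser, e6Ser, coeffMap_ofPowerSeries, ← RingHom.comp_apply (PowerSeries.map φ),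
    ← PowerSeries.map_comp, RingHom.ext_int (φ.comp (Int.castRingHom R)) (Int.castRingHom S)]

theorem lq_E4 : lq E4fn = e4Ser ℂ := hasQExp_E4.lq_eq

theorem lq_E6 : lq E6fn = e6Ser ℂ := hasQExp_E6.lq_eq

theorem jqModC_mul_deltaSer_complex :
    jqModC ℂ * Igusa.deltaSer ℂ = e4Ser ℂ ^ 3 := by
  rw [← Igusa.lq_deltaFn, jqModC_mul_lq_delta, lq_E4]

theorem hasQExp_delta : HasQExp deltaFn (PowerSeries.X * dedekindEtaUnit) :=
  ⟨isFormFn_delta.isQFnTop, by rw [qExpansion_delta, map_mul, PowerSeries.map_X]⟩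

/-- `θj · Δ = -E₄² E₆`. -/
theorem qTheta_jq_complex :
    qTheta (jqModC ℂ) * Igusa.deltaSer ℂ = -(e4Ser ℂ ^ 2 * e6Ser ℂ) := by
  obtain ⟨c, -, hc⟩ := X0.exists_D_jFun
  set c' : ℂ := (2 * Real.pi * Complex.I)⁻¹ * c with hc'
  have h43 : HasQExp (E4fn ^ 3) (PowerSeries.mk e4Coeff ^ 3) := hasQExp_E4.pow 3
  have hfun : normalizedDerivOfComplex (E4fn ^ 3) * deltaFn
      - E4fn ^ 3 * normalizedDerivOfComplex deltaFn = c' • (E4fn ^ 2 * E6fn * deltaFn) := by
    funext τ
    have hne := deltaFn_ne_zero τ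
    have d4 := UpperHalfPlane.mdifferentiableAt_iff.mp (h43.isQFn.mdiff τ)
    have dΔ := UpperHalfPlane.mdifferentiableAt_iff.mp (isFormFn_delta.mdiff τ)
    have hj : X0.jFun ∘ ofComplex
        = fun z => ((E4fn ^ 3) ∘ ofComplex) z / (deltaFn ∘ ofComplex) z := rfl
    have h := hc τ
    rw [hj, deriv_fun_div d4 dΔ (by simpa using hne)] at h
    simp only [comp_apply, ofComplex_apply] at h
    simp only [Pi.sub_apply, Pi.mul_apply, Pi.smul_apply, Pi.pow_apply, smul_eq_mul,
      normalizedDerivOfComplex, hc'] at h ⊢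
    change _ = c * (E4fn τ ^ 2 * E6fn τ / deltaFn τ) at h
    rw [div_eq_iff (pow_ne_zero 2 hne)] at h
    field_simp at h ⊢
    linear_combination h
  have hE4 := isFormFn_E4.isQFnTop
  have hE6 := isFormFn_E6.isQFnTop
  have hΔ := isFormFn_delta.isQFnTop
  have hD4 := isQFn_D h43.isQFn
  have hDΔ := isQFn_D hΔ
  have hlq := congrArg lq hfun
  rw [lq_sub (hD4.mul hΔ) (h43.isQFn.mul hDΔ), lq_mul hD4 hΔ, lq_mul h43.isQFn hDΔ,
    lq_smul (((hE4.pow 2).mul hE6).mul hΔ), lq_mul ((hE4.pow 2).mul hE6) hΔ,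
    lq_mul (hE4.pow 2) hE6, lq_pow hE4, lq_pow hE4, ← qTheta_lq h43, ← qTheta_lq hasQExp_delta,
    lq_pow hE4, lq_E4, lq_E6, Igusa.lq_deltaFn, ← jqModC_mul_deltaSer_complex, qTheta_mul] at hlq
  have hne : Igusa.deltaSer ℂ ≠ 0 := by rw [← Igusa.lq_deltaFn]; exact lq_delta_ne_zero
  have key : qTheta (jqModC ℂ) * Igusa.deltaSer ℂ
      = HahnSeries.C c' * (e4Ser ℂ ^ 2 * e6Ser ℂ) := by
    refine mul_right_cancel₀ hne ?_
    linear_combination hlq
  have hval : c' = -1 := by
    have h0 := congrArg (fun f : LaurentSeries ℂ => f.coeff 0) key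
    have hA : ∀ (u : PowerSeries ℂ),
        (HahnSeries.ofPowerSeries ℤ ℂ u).coeff 0 = PowerSeries.constantCoeff u := fun u => by
      rw [show (0 : ℤ) = ((0 : ℕ) : ℤ) from rfl, HahnSeries.ofPowerSeries_apply_coeff,
        PowerSeries.coeff_zero_eq_constantCoeff]
    have hθ : qTheta (jqModC ℂ) = HahnSeries.single (-1) 1 * HahnSeries.ofPowerSeries ℤ ℂ
        (PowerSeries.mk fun n => ((n : ℂ) - 1) *
          ((jNum.map (Int.castRingHom ℂ)).coeff n)) := by
      ext n
      rw [qTheta_coeff, jqModC, HahnSeries.coeff_single_mul, HahnSeries.coeff_single_mul, one_mul,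
        one_mul]
      rcases lt_or_ge (n - -1) 0 with hn | hn
      · rw [ofPowerSeries_coeff_of_neg _ hn, ofPowerSeries_coeff_of_neg _ hn, mul_zero]
      · obtain ⟨m, hm⟩ := Int.eq_ofNat_of_zero_le hn
        rw [hm, HahnSeries.ofPowerSeries_apply_coeff, HahnSeries.ofPowerSeries_apply_coeff,
          PowerSeries.coeff_mk, show n = (m : ℤ) - 1 by omega]
        push_cast
        rfl
    simp only [hθ, Igusa.deltaSer, mul_mul_mul_comm, HahnSeries.single_mul_single,
      neg_add_cancel, mul_one, ← HahnSeries.C_apply, map_one, one_mul, ← map_mul, e4Ser, e6Ser,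
      ← map_pow, HahnSeries.C_mul_eq_smul, HahnSeries.coeff_smul, hA, smul_eq_mul] at h0
    have he : PowerSeries.constantCoeff ((PowerSeries.mk e4Coeff).map (Int.castRingHom ℂ)) = 1 := by
      rw [← PowerSeries.coeff_zero_eq_constantCoeff, PowerSeries.coeff_map, PowerSeries.coeff_mk]
      simp [e4Coeff]
    have he' :
      PowerSeries.constantCoeff ((PowerSeries.mk e6Coeff).map (Int.castRingHom ℂ)) = 1 := by
      rw [← PowerSeries.coeff_zero_eq_constantCoeff, PowerSeries.coeff_map, PowerSeries.coeff_mk]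
      simp [e6Coeff]
    have hj : ∀ (u : PowerSeries ℤ), PowerSeries.constantCoeff u = 1 →
        PowerSeries.constantCoeff (u.map (Int.castRingHom ℂ)) = 1 := fun u hu => by
      rw [← PowerSeries.coeff_zero_eq_constantCoeff, PowerSeries.coeff_map,
        PowerSeries.coeff_zero_eq_constantCoeff, hu, map_one]
    simp only [map_mul, map_pow, he, he', one_pow, mul_one,
      hj _ constantCoeff_dedekindEtaUnit] at h0
    rw [← PowerSeries.coeff_zero_eq_constantCoeff, PowerSeries.coeff_mk,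
      PowerSeries.coeff_zero_eq_constantCoeff, hj _ constantCoeff_jNum] at h0
    simpa using h0.symm
  rw [key, hval, map_neg, map_one, neg_one_mul]

theorem qTheta_jq (R : Type*) [CommRing R] :
    qTheta (jqModC R) * Igusa.deltaSer R = -(e4Ser R ^ 2 * e6Ser R) := by
  have h : qTheta (jqModC ℤ) * Igusa.deltaSer ℤ = -(e4Ser ℤ ^ 2 * e6Ser ℤ) := by
    apply EichlerShimura.coeffMap_injective (f := Int.castRingHom ℂ) Int.cast_injective
    rw [map_mul, coeffMap_qTheta, coeffMap_jqModC, Igusa.coeffMap_deltaSer, map_neg, map_mul,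
      map_pow, coeffMap_e4Ser, coeffMap_e6Ser, qTheta_jq_complex]
  have h' := congrArg (coeffMap (Int.castRingHom R)) h
  rwa [map_mul, coeffMap_qTheta, coeffMap_jqModC, Igusa.coeffMap_deltaSer, map_neg, map_mul,
    map_pow, coeffMap_e4Ser, coeffMap_e6Ser] at h'

theorem jq_mul_deltaSer (R : Type*) [CommRing R] :
    jqModC R * Igusa.deltaSer R = e4Ser R ^ 3 := by
  have h : jqModC ℤ * Igusa.deltaSer ℤ = e4Ser ℤ ^ 3 := by
    apply EichlerShimura.coeffMap_injective (f := Int.castRingHom ℂ) Int.cast_injective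
    rw [map_mul, coeffMap_jqModC, Igusa.coeffMap_deltaSer, map_pow, coeffMap_e4Ser,
      jqModC_mul_deltaSer_complex]
  have h' := congrArg (coeffMap (Int.castRingHom R)) h
  rwa [map_mul, coeffMap_jqModC, Igusa.coeffMap_deltaSer, map_pow, coeffMap_e4Ser] at h'

end Fermat.Agent.SquareLevel
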