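import Fermat.Agent.SquareLevel.Hauptmodul.QForm
import Fermat.Agent.SquareLevel.Hauptmodul.ThetaJ

/-!
# The Hauptmoduln of levels `4` and `9` with their algebraic relations to `j`
-/

noncomputable section

open Polynomial ModularCurve Function
open scoped MatrixGroups
open Fermat.Agent.Igusa (evalAt)

namespace Fermat.Agent.SquareLevel

open Fermat.Agent.MF

local notation "LS" => HahnSeries.ofPowerSeries ℤ ℤ

theorem e4Ser_int : e4Ser ℤ = LS (PowerSeries.mk e4Coeff) := by
  rw [e4Ser, RingHom.ext_int (Int.castRingHom ℤ) (RingHom.id ℤ), PowerSeries.map_id]; rfl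

theorem e6Ser_int : e6Ser ℤ = LS (PowerSeries.mk e6Coeff) := by
  rw [e6Ser, RingHom.ext_int (Int.castRingHom ℤ) (RingHom.id ℤ), PowerSeries.map_id]; rfl

theorem ofPowerSeries_scaleCoeff (d : ℕ) [NeZero d] (c : ℕ → ℤ) :
    LS (PowerSeries.mk (scaleCoeff d c)) = qExpand ℤ d (LS (PowerSeries.mk c)) := by
  ext n
  by_cases hn : (d : ℤ) ∣ n
  · obtain ⟨k, rfl⟩ := hn
    rw [qExpand_coeff_mul]
    rcases lt_or_ge k 0 with hk | hk
    · rw [ofPowerSeries_coeff_of_neg _ hk, ofPowerSeries_coeff_of_neg _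
        (mul_neg_of_pos_of_neg (by exact_mod_cast NeZero.pos d) hk)]
    · lift k to ℕ using hk
      rw [← Nat.cast_mul, HahnSeries.ofPowerSeries_apply_coeff,
        HahnSeries.ofPowerSeries_apply_coeff, PowerSeries.coeff_mk, PowerSeries.coeff_mk]
      simp [scaleCoeff, Nat.mul_div_cancel_left _ (NeZero.pos d)]
  · rw [qExpand_coeff_of_not_dvd d _ hn]
    rcases lt_or_ge n 0 with hk | hk
    · exact ofPowerSeries_coeff_of_neg _ hk
    · lift n to ℕ using hk
      rw [HahnSeries.ofPowerSeries_apply_coeff, PowerSeries.coeff_mk]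
      simp [scaleCoeff, show ¬ d ∣ n from fun h => hn (by exact_mod_cast h)]

theorem serE4_eq (d : ℕ) [NeZero d] : LS (serE4 d) = qExpand ℤ d (e4Ser ℤ) := by
  rw [serE4, ofPowerSeries_scaleCoeff, e4Ser_int]

theorem serE6_eq (d : ℕ) [NeZero d] : LS (serE6 d) = qExpand ℤ d (e6Ser ℤ) := by
  rw [serE6, ofPowerSeries_scaleCoeff, e6Ser_int]

/-- `E₄³ − E₆² = 1728 Δ` over `ℤ`. -/
theorem e4_cube_sub_e6_sq :
    e4Ser ℤ ^ 3 - e6Ser ℤ ^ 2 = 1728 * Igusa.deltaSer ℤ := by
  apply EichlerShimura.coeffMap_injective (f := Int.castRingHom ℂ) Int.cast_injective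
  rw [map_sub, map_pow, map_pow, coeffMap_e4Ser, coeffMap_e6Ser, map_mul, map_ofNat,
    Igusa.coeffMap_deltaSer, ← lq_E4, ← lq_E6, ← Igusa.lq_deltaFn]
  have h : E4fn ^ 3 - E6fn ^ 2 = (1728 : ℂ) • deltaFn := by
    funext τ
    have := ModularForm.discriminant_eq_E₄_cube_sub_E₆_sq τ
    simp only [E4fn, E6fn, deltaFn, Pi.sub_apply, Pi.pow_apply, Pi.smul_apply, smul_eq_mul]
    rw [this]
    ring
  have h4 := isFormFn_E4.isQFnTop
  have h6 := isFormFn_E6.isQFnTop
  rw [← lq_pow h4, ← lq_pow h6, ← lq_sub (h4.pow 3) (h6.pow 2), h,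
    lq_smul isFormFn_delta.isQFnTop, map_ofNat]

theorem e6Ser_ne_zero : e6Ser ℤ ≠ 0 := fun h => by
  have := congrArg (fun f : LaurentSeries ℤ => f.coeff ((0 : ℕ) : ℤ)) h
  simp only [e6Ser_int, HahnSeries.ofPowerSeries_apply_coeff, PowerSeries.coeff_mk,
    HahnSeries.coeff_zero] at this
  simp [e6Coeff] at this

/-- A Hauptmodul `t` of level `Γ₀(n₀)` with `E₄ = b² P₄(t)`, `E₆ = b³ P₆(t)`. -/
structure BaseData (n0 : ℕ) where
  /-- the Hauptmodul -/
  t : LaurentSeries ℤ
  /-- the weight two form -/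
  b : LaurentSeries ℤ
  pole : UnitPole t
  b_ne : b ≠ 0
  /-- `E₄ / b²` -/
  P4 : ℤ[X]
  /-- `E₆ / b³` -/
  P6 : ℤ[X]
  /-- `Δ / b⁶` -/
  G : ℤ[X]
  /-- `−b G / θt` -/
  g0 : ℤ[X]
  P4_monic : P4.Monic
  G_monic : G.Monic
  g0_monic : g0.Monic
  G_degree : G.natDegree < (P4 ^ 3).natDegree
  delta_poly : P4 ^ 3 - P6 ^ 2 = 1728 * G
  e4 : e4Ser ℤ = b ^ 2 * evalAt t P4
  e6 : e6Ser ℤ = b ^ 3 * evalAt t P6
  wronsk : derivative (P4 ^ 3) * G - P4 ^ 3 * derivative G = P4 ^ 2 * P6 * g0
  g0_dvd : g0 ∣ G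
  /-- the numerator and denominator of `j` are coprime away from the level -/
  coprime : ∀ (K : Type) [Field K], (n0 : K) ≠ 0 →
    IsCoprime (P4.map (Int.castRingHom K)) (G.map (Int.castRingHom K))
  /-- `E₄(dτ) / b²` and `E₆(dτ) / b³` are polynomials in `t` -/
  levels : ∀ (d : ℕ) [NeZero d], d ∣ n0 → ∃ p r : ℤ[X],
    qExpand ℤ d (e4Ser ℤ) = b ^ 2 * evalAt t p ∧
    qExpand ℤ d (e6Ser ℤ) = b ^ 3 * evalAt t r
  mem : coeffMap (Int.castRingHom ℂ) t ∈ modularFunctionFieldFullC ℂ n0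

namespace BaseData

variable {n0 : ℕ} (D : BaseData n0)

theorem delta_eq : Igusa.deltaSer ℤ = D.b ^ 6 * evalAt D.t D.G := by
  have h := e4_cube_sub_e6_sq
  have h2 := congrArg (evalAt D.t) D.delta_poly
  rw [map_sub, map_pow, map_pow, map_mul, map_ofNat] at h2
  rw [D.e4, D.e6] at h
  refine mul_left_cancel₀ (show (1728 : LaurentSeries ℤ) ≠ 0 from ?_) ?_
  · intro h0
    have := congrArg (fun f : LaurentSeries ℤ => f.coeff 0) h0
    rw [show (1728 : LaurentSeries ℤ) = HahnSeries.C (1728 : ℤ) by rw [map_ofNat],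
      HahnSeries.C_apply] at this
    simp at this
  · linear_combination -h + D.b ^ 6 * h2

theorem evalAt_ne_zero {p : ℤ[X]} (hp : p ≠ 0) : evalAt D.t p ≠ 0 := fun h =>
  hp (D.pole.evalAt_injective (h.trans (map_zero _).symm))

theorem jrel : jqModC ℤ * evalAt D.t D.G = evalAt D.t (D.P4 ^ 3) := by
  have h := jq_mul_deltaSer ℤ
  rw [D.delta_eq, D.e4] at h
  refine mul_left_cancel₀ (pow_ne_zero 6 D.b_ne) ?_
  rw [map_pow]
  linear_combination h

theorem P6_ne_zero : D.P6 ≠ 0 := fun h => e6Ser_ne_zero (by rw [D.e6, h, map_zero, mul_zero])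

theorem P4_ne_zero : D.P4 ≠ 0 := D.P4_monic.ne_zero

/-- `θt · g₀(t) = −b G(t)`. -/
theorem theta : qTheta D.t * evalAt D.t D.g0 = -(D.b * evalAt D.t D.G) := by
  have h1 := congrArg qTheta D.jrel
  rw [qTheta_mul, qTheta_evalAt, qTheta_evalAt] at h1
  have h2 : evalAt D.t (derivative (D.P4 ^ 3)) * evalAt D.t D.G
      - evalAt D.t (D.P4 ^ 3) * evalAt D.t (derivative D.G)
      = evalAt D.t D.P4 ^ 2 * evalAt D.t D.P6 * evalAt D.t D.g0 := by
    rw [← map_mul, ← map_mul, ← map_sub, D.wronsk, map_mul, map_mul, map_pow]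
  have h3 := qTheta_jq ℤ
  rw [D.delta_eq, D.e4, D.e6] at h3
  have h4 : qTheta (jqModC ℤ) * evalAt D.t D.G
      = -(D.b * evalAt D.t D.P4 ^ 2 * evalAt D.t D.P6) := by
    refine mul_left_cancel₀ (pow_ne_zero 6 D.b_ne) ?_
    linear_combination h3
  have hne : evalAt D.t D.P4 ^ 2 * evalAt D.t D.P6 ≠ 0 :=
    mul_ne_zero (pow_ne_zero 2 (D.evalAt_ne_zero D.P4_ne_zero)) (D.evalAt_ne_zero D.P6_ne_zero)
  refine mul_left_cancel₀ hne ?_
  linear_combination -(qTheta D.t) * h2 + (-(evalAt D.t D.G)) * h1 + evalAt D.t D.G * h4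
    + evalAt D.t (derivative D.G) * qTheta D.t * D.jrel

theorem P_monic : (D.P4 ^ 3).Monic := D.P4_monic.pow 3

end BaseData

/-! ### Level `4` -/

/-- Series of `B/q` at level `4`. -/
def serUB2 : PowerSeries ℤ := PowerSeries.mk fun n => coeffB2 (n + 1)

/-- The Hauptmodul of level `4`. -/
def hauptFour : LaurentSeries ℤ :=
  HahnSeries.single (-1) 1 * LS (serA2 * PowerSeries.invOfUnit serUB2 1)

theorem serB2_eq : serB2 = PowerSeries.X * serUB2 := by
  ext n
  cases n with
  | zero => simp [serB2, coeffB2]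
  | succ n => rw [PowerSeries.coeff_succ_X_mul]; simp [serB2, serUB2]

theorem constantCoeff_serUB2 : PowerSeries.constantCoeff serUB2 = 1 := by
  rw [← PowerSeries.coeff_zero_eq_constantCoeff, serUB2, PowerSeries.coeff_mk]
  decide +kernel

theorem constantCoeff_serA2 : PowerSeries.constantCoeff serA2 = 1 := by
  rw [← PowerSeries.coeff_zero_eq_constantCoeff, serA2, PowerSeries.coeff_mk]
  decide +kernel

theorem hauptFour_mul : hauptFour * LS serB2 = LS serA2 := by
  have hU : serUB2 * PowerSeries.invOfUnit serUB2 1 = 1 :=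
    PowerSeries.mul_invOfUnit _ _ (by rw [constantCoeff_serUB2]; rfl)
  rw [hauptFour, serB2_eq, map_mul LS PowerSeries.X, HahnSeries.ofPowerSeries_X, map_mul,
    mul_mul_mul_comm, HahnSeries.single_mul_single, mul_assoc (LS serA2), ← map_mul,
    mul_comm _ serUB2, hU]
  simp

theorem serB2_ne_zero : LS serB2 ≠ 0 := fun h => by
  have := congrArg (fun f : LaurentSeries ℤ => f.coeff ((1 : ℕ) : ℤ)) h
  simp only [serB2, HahnSeries.ofPowerSeries_apply_coeff, PowerSeries.coeff_mk,
    HahnSeries.coeff_zero] at this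
  revert this; decide +kernel

theorem unitPole_hauptFour : UnitPole hauptFour :=
  ⟨serA2 * PowerSeries.invOfUnit serUB2 1, by
    rw [map_mul, PowerSeries.constantCoeff_invOfUnit, constantCoeff_serA2]; simp, rfl⟩

/-- A quotient of two forms of weight two with integral expansions is in the level `n₀` field. -/
theorem mem_of_forms {n0 : ℕ} [NeZero n0] {A B : UpperHalfPlane → ℂ} {a b : PowerSeries ℤ}
    {t : LaurentSeries ℤ} (hA : IsFormFn (CongruenceSubgroup.Gamma0 n0) 2 A)
    (hB : IsFormFn (CongruenceSubgroup.Gamma0 n0) 2 B) (ha : HasQExp A a) (hb : HasQExp B b)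
    (hb0 : LS b ≠ 0) (ht : t * LS b = LS a) :
    coeffMap (Int.castRingHom ℂ) t ∈ modularFunctionFieldFullC ℂ n0 := by
  rw [modularFunctionFieldFullC_complex_eq, mem_modularFunctionFieldC_iff]
  refine ⟨2, A, B, hA, hB, ?_, ?_⟩
  · intro h
    apply hb0
    apply EichlerShimura.coeffMap_injective (f := Int.castRingHom ℂ) Int.cast_injective
    rw [coeffMap_ofPowerSeries, ← hb.lq_eq, h, lq_zero, map_zero]
  · have h := congrArg (coeffMap (Int.castRingHom ℂ)) ht
    rwa [map_mul, coeffMap_ofPowerSeries, coeffMap_ofPowerSeries, ← ha.lq_eq, ← hb.lq_eq] at h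

theorem isCoprime_X_sub_C {K : Type*} [Field K] {p : K[X]} {a : K} (h : p.eval a ≠ 0) :
    IsCoprime p (X - C a) :=
  ((irreducible_X_sub_C a).coprime_iff_not_dvd.mpr fun hd => h (dvd_iff_isRoot.mp hd)).symm

/-- The base data at level `4`. -/
def baseFour : BaseData 4 where
  t := hauptFour
  b := LS serB2
  pole := unitPole_hauptFour
  b_ne := serB2_ne_zero
  P4 := X ^ 2 + 240 * X + 2112
  P6 := X ^ 3 - 504 * X ^ 2 - 16704 * X - 96768
  G := (X - 8) ^ 4 * (X + 8)
  g0 := (X - 8) ^ 3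
  P4_monic := by monicity!
  G_monic := by monicity!
  g0_monic := by monicity!
  G_degree := by
    rw [show ((X - 8) ^ 4 * (X + 8) : ℤ[X]).natDegree = 5 by compute_degree!,
      show ((X ^ 2 + 240 * X + 2112) ^ 3 : ℤ[X]).natDegree = 6 by compute_degree!]
    norm_num
  delta_poly := by ring
  e4 := by
    rw [← qExpand_one_apply (e4Ser ℤ), ← serE4_eq, e4_four_one]
    simp only [map_add, map_mul, map_pow, map_ofNat, Igusa.evalAt_X, ← hauptFour_mul]
    ring
  e6 := by
    rw [← qExpand_one_apply (e6Ser ℤ), ← serE6_eq, e6_four_one]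
    simp only [map_sub, map_mul, map_pow, map_ofNat, Igusa.evalAt_X, ← hauptFour_mul]
    ring
  wronsk := by
    simp only [derivative_mul, derivative_pow, derivative_add, derivative_sub, derivative_X,
      derivative_ofNat, map_natCast]
    ring
  g0_dvd := ⟨(X - 8) * (X + 8), by ring⟩
  coprime K _ hK := by
    have h2 : (2 : K) ≠ 0 := fun h => hK (by push_cast; linear_combination (2 : K) * h)
    simp only [Polynomial.map_add, Polynomial.map_mul, Polynomial.map_pow, Polynomial.map_sub,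
      Polynomial.map_X, Polynomial.map_ofNat]
    refine IsCoprime.mul_right (IsCoprime.pow_right ?_) ?_
    · rw [show (8 : K[X]) = C 8 from (map_ofNat C 8).symm]
      refine isCoprime_X_sub_C ?_
      simp only [eval_add, eval_mul, eval_pow, eval_X, eval_ofNat]
      norm_num
      rw [show (4096 : K) = 2 ^ 12 by norm_num]
      exact pow_ne_zero _ h2
    · rw [show (X + 8 : K[X]) = X - C (-8) by rw [map_neg, map_ofNat, sub_neg_eq_add]]
      refine isCoprime_X_sub_C ?_
      simp only [eval_add, eval_mul, eval_pow, eval_X, eval_ofNat]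
      norm_num
      rw [show (256 : K) = 2 ^ 8 by norm_num]
      exact pow_ne_zero _ h2
  levels d _ hd := by
    have : d = 1 ∨ d = 2 ∨ d = 4 := by
      have := Nat.le_of_dvd (by norm_num) hd
      interval_cases d <;> simp_all
    rcases this with rfl | rfl | rfl
    · refine ⟨X ^ 2 + 240 * X + 2112, X ^ 3 - 504 * X ^ 2 - 16704 * X - 96768, ?_, ?_⟩
      · rw [← serE4_eq, e4_four_one]
        simp only [map_add, map_mul, map_pow, map_ofNat, Igusa.evalAt_X, ← hauptFour_mul]
        ring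
      · rw [← serE6_eq, e6_four_one]
        simp only [map_sub, map_mul, map_pow, map_ofNat, Igusa.evalAt_X, ← hauptFour_mul]
        ring
    · refine ⟨X ^ 2 + 192, X ^ 3 - 576 * X, ?_, ?_⟩
      · rw [← serE4_eq, e4_four_two]
        simp only [map_add, map_mul, map_pow, map_ofNat, Igusa.evalAt_X, ← hauptFour_mul]
        ring
      · rw [← serE6_eq, e6_four_two]
        simp only [map_sub, map_mul, map_pow, map_ofNat, Igusa.evalAt_X, ← hauptFour_mul]
        ring
    · refine ⟨X ^ 2 - 48, X ^ 3 - 72 * X, ?_, ?_⟩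
      · rw [← serE4_eq, e4_four_four]
        simp only [map_sub, map_mul, map_pow, map_ofNat, Igusa.evalAt_X, ← hauptFour_mul]
        ring
      · rw [← serE6_eq, e6_four_four]
        simp only [map_sub, map_mul, map_pow, map_ofNat, Igusa.evalAt_X, ← hauptFour_mul]
        ring
  mem := mem_of_forms isFormFn_A2 isFormFn_B2 hasQExp_A2 hasQExp_B2 serB2_ne_zero hauptFour_mul

/-! ### Level `9` -/

/-- Series of `A/q` at level `9`. -/
def serUA3 : PowerSeries ℤ := PowerSeries.mk fun n => coeffA3 (n + 1)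

/-- Series of `B/q²` at level `9`. -/
def serUB3 : PowerSeries ℤ := PowerSeries.mk fun n => coeffB3 (n + 2)

/-- The Hauptmodul of level `9`. -/
def hauptNine : LaurentSeries ℤ :=
  HahnSeries.single (-1) 1 * LS (serUA3 * PowerSeries.invOfUnit serUB3 1)

theorem serA3_eq : serA3 = PowerSeries.X * serUA3 := by
  ext n
  cases n with
  | zero => simp [serA3, coeffA3]
  | succ n => rw [PowerSeries.coeff_succ_X_mul]; simp [serA3, serUA3]

theorem serB3_eq : serB3 = PowerSeries.X ^ 2 * serUB3 := by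
  ext n
  rcases n with _ | _ | n
  · simp [serB3, coeffB3, PowerSeries.coeff_X_pow_mul']
  · simp [serB3, coeffB3, PowerSeries.coeff_X_pow_mul']
  · rw [show n + 1 + 1 = n + 2 from rfl, PowerSeries.coeff_X_pow_mul]; simp [serB3, serUB3]

theorem constantCoeff_serUA3 : PowerSeries.constantCoeff serUA3 = 1 := by
  rw [← PowerSeries.coeff_zero_eq_constantCoeff, serUA3, PowerSeries.coeff_mk]
  decide +kernel

theorem constantCoeff_serUB3 : PowerSeries.constantCoeff serUB3 = 1 := by
  rw [← PowerSeries.coeff_zero_eq_constantCoeff, serUB3, PowerSeries.coeff_mk]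
  decide +kernel

theorem hauptNine_mul : hauptNine * LS serB3 = LS serA3 := by
  have hU : serUB3 * PowerSeries.invOfUnit serUB3 1 = 1 :=
    PowerSeries.mul_invOfUnit _ _ (by rw [constantCoeff_serUB3]; rfl)
  rw [hauptNine, serB3_eq, serA3_eq, map_mul LS (PowerSeries.X ^ 2), map_pow,
    HahnSeries.ofPowerSeries_X, map_mul, map_mul LS PowerSeries.X, HahnSeries.ofPowerSeries_X,
    mul_mul_mul_comm, HahnSeries.single_pow, HahnSeries.single_mul_single,
    mul_assoc (LS serUA3), ← map_mul LS (PowerSeries.invOfUnit serUB3 1), mul_comm _ serUB3, hU]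
  norm_num

theorem serB3_ne_zero : LS serB3 ≠ 0 := fun h => by
  have := congrArg (fun f : LaurentSeries ℤ => f.coeff ((2 : ℕ) : ℤ)) h
  simp only [serB3, HahnSeries.ofPowerSeries_apply_coeff, PowerSeries.coeff_mk,
    HahnSeries.coeff_zero] at this
  revert this; decide +kernel

theorem unitPole_hauptNine : UnitPole hauptNine :=
  ⟨serUA3 * PowerSeries.invOfUnit serUB3 1, by
    rw [map_mul, PowerSeries.constantCoeff_invOfUnit, constantCoeff_serUA3]; simp, rfl⟩

theorem ls_cancel_sq {x y : LaurentSeries ℤ} (h : x * LS serB3 ^ 2 = LS serB3 ^ 4 * y) :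
    x = LS serB3 ^ 2 * y :=
  mul_right_cancel₀ (pow_ne_zero 2 serB3_ne_zero) (by rw [h]; ring)

theorem ls_cancel_cube {x y : LaurentSeries ℤ} (h : x * LS serB3 ^ 3 = LS serB3 ^ 6 * y) :
    x = LS serB3 ^ 3 * y :=
  mul_right_cancel₀ (pow_ne_zero 3 serB3_ne_zero) (by rw [h]; ring)

theorem e4_nine_one' : qExpand ℤ 1 (e4Ser ℤ) = LS serB3 ^ 2 *
    evalAt hauptNine (X ^ 4 + 240 * X ^ 3 + 2160 * X ^ 2 + 6696 * X + 12960) := by
  refine ls_cancel_sq ?_
  rw [← serE4_eq, ← map_pow, ← map_mul, e4_nine_one]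
  simp only [map_add, map_mul, map_pow, map_ofNat, Igusa.evalAt_X, ← hauptNine_mul]
  ring

theorem e6_nine_one' : qExpand ℤ 1 (e6Ser ℤ) = LS serB3 ^ 3 *
    evalAt hauptNine (X ^ 6 - 504 * X ^ 5 - 16632 * X ^ 4 - 123012 * X ^ 3 - 517104 * X ^ 2
      - 1143072 * X - 1475496) := by
  refine ls_cancel_cube ?_
  rw [← serE6_eq, ← map_pow, ← map_mul, e6_nine_one]
  simp only [map_sub, map_mul, map_pow, map_ofNat, Igusa.evalAt_X, ← hauptNine_mul]
  ring

/-- The base data at level `9`. -/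
def baseNine : BaseData 9 where
  t := hauptNine
  b := LS serB3
  pole := unitPole_hauptNine
  b_ne := serB3_ne_zero
  P4 := X ^ 4 + 240 * X ^ 3 + 2160 * X ^ 2 + 6696 * X + 12960
  P6 := X ^ 6 - 504 * X ^ 5 - 16632 * X ^ 4 - 123012 * X ^ 3 - 517104 * X ^ 2
    - 1143072 * X - 1475496
  G := (X - 3) ^ 9 * (X ^ 2 + 3 * X + 9)
  g0 := (X - 3) ^ 8
  P4_monic := by monicity!
  G_monic := by monicity!
  g0_monic := by monicity!
  G_degree := by
    rw [show ((X - 3) ^ 9 * (X ^ 2 + 3 * X + 9) : ℤ[X]).natDegree = 11 by compute_degree!,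
      show ((X ^ 4 + 240 * X ^ 3 + 2160 * X ^ 2 + 6696 * X + 12960) ^ 3 : ℤ[X]).natDegree = 12 by
        compute_degree!]
    norm_num
  delta_poly := by ring
  e4 := by rw [← e4_nine_one', qExpand_one_apply]
  e6 := by rw [← e6_nine_one', qExpand_one_apply]
  wronsk := by
    simp only [derivative_mul, derivative_pow, derivative_add, derivative_sub, derivative_X,
      derivative_ofNat, map_natCast]
    ring
  g0_dvd := ⟨(X - 3) * (X ^ 2 + 3 * X + 9), by ring⟩
  coprime K _ hK := by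
    have h3 : (3 : K) ≠ 0 := fun h => hK (by push_cast; linear_combination (3 : K) * h)
    simp only [Polynomial.map_add, Polynomial.map_mul, Polynomial.map_pow, Polynomial.map_sub,
      Polynomial.map_X, Polynomial.map_ofNat]
    refine IsCoprime.mul_right (IsCoprime.pow_right ?_) ?_
    · rw [show (3 : K[X]) = C 3 from (map_ofNat C 3).symm]
      refine isCoprime_X_sub_C ?_
      simp only [eval_add, eval_mul, eval_pow, eval_X, eval_ofNat]
      norm_num
      rw [show (59049 : K) = 3 ^ 10 by norm_num]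
      exact pow_ne_zero _ h3
    · have hc : (2187 : K) ≠ 0 := by
        rw [show (2187 : K) = 3 ^ 7 by norm_num]; exact pow_ne_zero _ h3
      refine ⟨-C (2187 : K)⁻¹ * (X + 3),
        C (2187 : K)⁻¹ * ((X ^ 2 + 237 * X + 1440) * (X + 3) + 243), ?_⟩
      have : C (2187 : K)⁻¹ * 2187 = 1 := by
        rw [show (2187 : K[X]) = C 2187 from (map_ofNat C 2187).symm, ← C_mul,
          inv_mul_cancel₀ hc, C_1]
      linear_combination this
  levels d _ hd := by
    have : d = 1 ∨ d = 3 ∨ d = 9 := by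
      have := Nat.le_of_dvd (by norm_num) hd
      interval_cases d <;> simp_all
    rcases this with rfl | rfl | rfl
    · exact ⟨_, _, e4_nine_one', e6_nine_one'⟩
    · refine ⟨X ^ 4 + 216 * X, X ^ 6 - 540 * X ^ 3 - 5832, ls_cancel_sq ?_,
        ls_cancel_cube ?_⟩
      · rw [← serE4_eq, ← map_pow, ← map_mul, e4_nine_three]
        simp only [map_add, map_mul, map_pow, map_ofNat, Igusa.evalAt_X, ← hauptNine_mul]
        ring
      · rw [← serE6_eq, ← map_pow, ← map_mul, e6_nine_three]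
        simp only [map_sub, map_mul, map_pow, map_ofNat, Igusa.evalAt_X, ← hauptNine_mul]
        ring
    · refine ⟨X ^ 4 - 24 * X, X ^ 6 - 36 * X ^ 3 + 216, ls_cancel_sq ?_,
        ls_cancel_cube ?_⟩
      · rw [← serE4_eq, ← map_pow, ← map_mul, e4_nine_nine]
        simp only [map_sub, map_mul, map_pow, map_ofNat, Igusa.evalAt_X, ← hauptNine_mul]
        ring
      · rw [← serE6_eq, ← map_pow, ← map_mul, e6_nine_nine]
        simp only [map_add, map_sub, map_mul, map_pow, map_ofNat, Igusa.evalAt_X, ← hauptNine_mul]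
        ring
  mem := mem_of_forms isFormFn_A3 isFormFn_B3 hasQExp_A3 hasQExp_B3 serB3_ne_zero hauptNine_mul

end Fermat.Agent.SquareLevel
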