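import Fermat.Agent.Igusa.Degree
import Fermat.Agent.SquareLevel.Hauptmodul.Base

/-!
# The conjugates of `t(qτ)` and of `q¹²Δ(qτ)/Δ` over `ℂ(t)`
-/

noncomputable section

open Function Polynomial IntermediateField ModularCurve
open Fermat.Agent.Igusa (jv sub evalAt evalIn psi IsModPoly rootUnit rootExp xSer ySer zetaC
  isPrimitiveRoot_zetaC)

namespace Fermat.Agent.SquareLevel

namespace BaseData

variable {n0 : ℕ} (D : BaseData n0)

/-- `t` over `ℂ`. -/
def tC : LaurentSeries ℂ := coeffMap (Int.castRingHom ℂ) D.t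

theorem unitPole_tC : UnitPole D.tC := D.pole.map _

/-- Each `j(dτ)`, `d ∣ n₀`, is a rational function of `t`. -/
theorem levels_rel (d : ℕ) [NeZero d] (hd : d ∣ n0) :
    ∃ num den : ℤ[X], den ≠ 0 ∧
      jv (1 : ℤˣ) d * evalAt D.t den = evalAt D.t num := by
  obtain ⟨p, r, h4, h6⟩ := D.levels d hd
  refine ⟨1728 * p ^ 3, p ^ 3 - r ^ 2, fun h0 => ?_, ?_⟩
  · have h1 := congrArg (qExpand ℤ d) e4_cube_sub_e6_sq
    rw [map_sub, map_pow, map_pow, map_mul, map_ofNat, h4, h6] at h1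
    have h2 := congrArg (evalAt D.t) h0
    rw [map_sub, map_pow, map_pow, map_zero] at h2
    have h3 : (1728 : LaurentSeries ℤ) * qExpand ℤ d (Igusa.deltaSer ℤ) = 0 := by
      linear_combination -h1 + D.b ^ 6 * h2
    have hΔ : Igusa.deltaSer ℤ ≠ 0 := fun h => one_ne_zero (α := ℤ)
      (Igusa.deltaSer_coeff_one.symm.trans (by rw [h, HahnSeries.coeff_zero]))
    rcases mul_eq_zero.mp h3 with h | h
    · rw [show (1728 : LaurentSeries ℤ) = HahnSeries.C (1728 : ℤ) by rw [map_ofNat]] at h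
      exact absurd (HahnSeries.C_injective (h.trans (map_zero _).symm)) (by norm_num)
    · exact hΔ (qExpand_injective d (h.trans (map_zero _).symm))
  · have h1 := congrArg (qExpand ℤ d) e4_cube_sub_e6_sq
    have h2 := congrArg (qExpand ℤ d) (jq_mul_deltaSer ℤ)
    rw [map_sub, map_pow, map_pow, map_mul, map_ofNat, h4, h6] at h1
    rw [map_mul, map_pow, h4, ← Igusa.jv_one_eq_qExpand] at h2
    refine mul_left_cancel₀ (pow_ne_zero 6 D.b_ne) ?_
    rw [map_sub, map_mul, map_pow, map_pow, map_ofNat]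
    linear_combination jv (1 : ℤˣ) d * h1 + 1728 * h2

theorem evalAt_mem_adjoin {x : LaurentSeries ℂ} (P : ℂ[X]) : evalAt x P ∈ ℂ⟮x⟯ := by
  rw [← Igusa.algebraMap_comp_evalIn ℂ⟮x⟯ (mem_adjoin_simple_self ℂ x)]
  exact (evalIn ℂ⟮x⟯ (mem_adjoin_simple_self ℂ x) P).2

theorem fullC_eq : modularFunctionFieldFullC ℂ n0 = ℂ⟮D.tC⟯ := by
  refine le_antisymm (Igusa.full_le_iff.mpr fun d hd0 hd => ?_) ?_
  · have : NeZero d := ⟨hd0⟩
    obtain ⟨num, den, hden, h⟩ := D.levels_rel d hd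
    have h' := congrArg (coeffMap (Int.castRingHom ℂ)) h
    rw [map_mul, Igusa.coeffMap_evalAt, Igusa.coeffMap_evalAt, Igusa.coeffMap_jv _ _ hd0,
      map_one] at h'
    have hne : evalAt (coeffMap (Int.castRingHom ℂ) D.t) (den.map (Int.castRingHom ℂ)) ≠ 0 :=
      fun h0 => hden (Polynomial.map_injective _ Int.cast_injective
        ((D.pole.map _).evalAt_injective (h0.trans (map_zero _).symm) |>.trans
          (Polynomial.map_zero _).symm))
    rw [eq_div_of_mul_eq hne h']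
    exact div_mem (evalAt_mem_adjoin _) (evalAt_mem_adjoin _)
  · rw [adjoin_simple_le_iff]
    exact D.mem

end BaseData

variable {q : ℕ} [hq : Fact q.Prime]

/-- One step: a map sending `j(q^e)` to `j(η u^(pm))` sends `j(q^(ep))` to `j(η^p u^(ppm))` or
to some `j(η' u^m)` with `η'^p = η`. -/
theorem root_of_conj {p : ℕ} [hp : Fact p.Prime] {Ω : Type*} [Field Ω]
    (ι : LaurentSeries ℂ →+* Ω) (X' : IntermediateField ℂ (LaurentSeries ℂ)) (ψ : X' →+* Ω)
    (hψC : ∀ a : ℂ, ψ (algebraMap ℂ X' a) = ι (HahnSeries.C a)) {e : ℕ} (he : e ≠ 0)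
    (h1 : jv (1 : ℂˣ) e ∈ X') (h2 : jv (1 : ℂˣ) (e * p) ∈ X') {η : ℂˣ} {m : ℕ} (hm : m ≠ 0)
    (hψ : ψ ⟨_, h1⟩ = ι (jv η (p * m))) :
    ψ ⟨_, h2⟩ = ι (jv (η ^ p) (p * p * m)) ∨
      ∃ η' : ℂˣ, η' ^ p = η ∧ ψ ⟨_, h2⟩ = ι (jv η' m) := by
  have hpK : (p : ℂ) ≠ 0 := by exact_mod_cast hp.out.ne_zero
  obtain ⟨Φ, hΦ⟩ := Igusa.exists_isModPoly (p := p) hpK
  have hev : (Φ.map (evalIn X' h1)).eval ⟨_, h2⟩ = 0 := by
    refine (algebraMap X' (LaurentSeries ℂ)).injective ?_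
    rw [map_zero, ← Polynomial.eval_map_apply, Igusa.map_evalIn_map]
    exact Igusa.isModPoly_root_up hΦ he
  have hcomp : ψ.comp (evalIn X' h1) = ι.comp (evalAt (jv η (p * m))) := by
    refine Polynomial.ringHom_ext (fun a => ?_) ?_
    · simp only [RingHom.comp_apply, Igusa.evalAt_C, ← hψC]
      simp [evalIn]
    · simp only [RingHom.comp_apply, Igusa.evalAt_X, ← hψ]
      simp [evalIn]
  have hroot : ((Φ.map (evalAt (jv η (p * m)))).map ι).IsRoot (ψ ⟨_, h2⟩) := by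
    have := congrArg ψ hev
    rw [map_zero, ← Polynomial.eval_map_apply, Polynomial.map_map, hcomp,
      ← Polynomial.map_map] at this
    exact this
  have hne : Φ.map (evalAt (jv η (p * m))) ≠ 0 := (Igusa.map_evalAt_monic hΦ _).ne_zero
  have hmemroot : ψ ⟨_, h2⟩ ∈ ((Φ.map (evalAt (jv η (p * m)))).map ι).roots :=
    (mem_roots (Polynomial.map_ne_zero hne)).mpr hroot
  rw [(hΦ.splits η m hm).roots_map] at hmemroot
  obtain ⟨y, hy, hyeq⟩ := Multiset.mem_map.mp hmemroot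
  rw [mem_roots hne, hΦ.isRoot_iff η m hm] at hy
  rcases hy with rfl | ⟨η', hη', rfl⟩
  · exact Or.inl hyeq.symm
  · exact Or.inr ⟨η', hη', hyeq.symm⟩

/-- The roots `f(q^q)`, `f(ζ^b q^(1/q))` of the modular equation of `f`, in `u = q^(1/q)`. -/
def fRoot {K : Type*} [CommRing K] (f : LaurentSeries K) (ζ : Kˣ) (x : OnePoint (ZMod q)) :
    LaurentSeries K :=
  sub (rootUnit ζ x) (rootExp q x) f

/-- The polynomial with roots `fRoot`. -/
def fSer {K : Type*} [CommRing K] (f : LaurentSeries K) (ζ : Kˣ) : Polynomial (LaurentSeries K) :=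
  ∏ x : OnePoint (ZMod q), (X - C (fRoot f ζ x))

theorem monic_fSer {K : Type*} [CommRing K] (f : LaurentSeries K) (ζ : Kˣ) :
    (fSer (q := q) f ζ).Monic := monic_prod_of_monic _ _ fun _ _ => monic_X_sub_C _

theorem natDegree_fSer {K : Type*} [CommRing K] [Nontrivial K] (f : LaurentSeries K) (ζ : Kˣ) :
    (fSer (q := q) f ζ).natDegree = q + 1 := by
  rw [fSer, natDegree_finsetProd_X_sub_C_eq_card, Finset.card_univ, Igusa.card_onePoint]

/-- The expansion of `q¹²Δ(qτ)/Δ(τ)` at infinity. -/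
def deltaQuot (K : Type*) [CommRing K] (q : ℕ) [NeZero q] : LaurentSeries K :=
  HahnSeries.C ((q : K) ^ 12) * qExpand K q (Igusa.deltaSer K) * Igusa.deltaSerInv K

omit hq in
theorem qExpand_deltaQuot {K : Type*} [CommRing K] [NeZero q] (ζ : Kˣ) :
    qExpand K q (deltaQuot K q) = ySer ζ (OnePoint.infty : OnePoint (ZMod q)) := by
  have h1 : sub (1 : Kˣ) (q * q) (Igusa.deltaSer K)
      = qExpand K q (qExpand K q (Igusa.deltaSer K)) := by
    rw [qExpand_qExpand, ← Igusa.sub_one_eq]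
  rw [deltaQuot, map_mul, map_mul, qExpand_C, ← h1, ← Igusa.sub_one_eq q]
  rfl

theorem sub_ofPowerSeries_coeff_of_neg (η : ℂˣ) {m : ℕ} (hm : m ≠ 0) (u : PowerSeries ℂ) {n : ℤ}
    (hn : n < 0) : (sub η m (HahnSeries.ofPowerSeries ℤ ℂ u)).coeff n = 0 := by
  by_cases hd : (m : ℤ) ∣ n
  · obtain ⟨k, rfl⟩ := hd
    rw [Igusa.sub_coeff_mul η hm, ofPowerSeries_coeff_of_neg _
      (neg_of_mul_neg_right hn (Int.natCast_nonneg m)), mul_zero]
  · exact Igusa.sub_coeff_of_not_dvd η hm _ hd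

/-- A finite conjugate of `q¹²Δ(qτ)/Δ` has order `1 - q` and leading coefficient `ζ^b`. -/
theorem order_ySer (ζ : ℂˣ) (b : ZMod q) :
    (ySer ζ (b : OnePoint (ZMod q))).coeff (1 - (q : ℤ)) = ((ζ ^ b.val : ℂˣ) : ℂ) ∧
      ∀ n : ℤ, n < 1 - (q : ℤ) → (ySer ζ (b : OnePoint (ZMod q))).coeff n = 0 := by
  have hy : ySer ζ (b : OnePoint (ZMod q)) = HahnSeries.C (1 : ℂ) *
      sub (ζ ^ b.val) 1 (Igusa.deltaSer ℂ) * sub (1 : ℂˣ) q (Igusa.deltaSerInv ℂ) := rfl
  have hsub : sub (1 : ℂˣ) q (Igusa.deltaSerInv ℂ) = HahnSeries.single (-(q : ℤ)) 1 *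
      sub (1 : ℂˣ) q (HahnSeries.ofPowerSeries ℤ ℂ
        (ModularCurve.dedekindEtaUnitInv.map (Int.castRingHom ℂ))) := by
    rw [Igusa.deltaSerInv, map_mul, Igusa.sub_single 1 hq.out.ne_zero]
    simp
  set W := sub (ζ ^ b.val) 1 (Igusa.deltaSer ℂ) * sub (1 : ℂˣ) q (HahnSeries.ofPowerSeries ℤ ℂ
    (ModularCurve.dedekindEtaUnitInv.map (Int.castRingHom ℂ))) with hW
  have hy' : ySer ζ (b : OnePoint (ZMod q)) = HahnSeries.single (-(q : ℤ)) 1 * W := by
    rw [hy, hsub, map_one, one_mul, hW]; ring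
  have hA : sub (ζ ^ b.val) 1 (Igusa.deltaSer ℂ) =
      HahnSeries.single (1 : ℤ) ((ζ ^ b.val : ℂˣ) : ℂ) *
      sub (ζ ^ b.val) 1 (HahnSeries.ofPowerSeries ℤ ℂ
        (ModularCurve.dedekindEtaUnit.map (Int.castRingHom ℂ))) := by
    rw [Igusa.deltaSer, map_mul, Igusa.sub_single _ one_ne_zero]
    simp
  have h0 : ∀ (η : ℂˣ) (m : ℕ), m ≠ 0 → ∀ (u : PowerSeries ℂ),
      (sub η m (HahnSeries.ofPowerSeries ℤ ℂ u)).coeff 0 = PowerSeries.constantCoeff u := by
    intro η m hm u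
    have := Igusa.sub_coeff_mul η hm (HahnSeries.ofPowerSeries ℤ ℂ u) 0
    rw [mul_zero] at this
    rw [this, show (0 : ℤ) = ((0 : ℕ) : ℤ) from rfl, HahnSeries.ofPowerSeries_apply_coeff,
      PowerSeries.coeff_zero_eq_constantCoeff]
    simp
  set S₁ := sub (ζ ^ b.val) 1 (HahnSeries.ofPowerSeries ℤ ℂ
        (ModularCurve.dedekindEtaUnit.map (Int.castRingHom ℂ)))
  set S₂ := sub (1 : ℂˣ) q (HahnSeries.ofPowerSeries ℤ ℂ
    (ModularCurve.dedekindEtaUnitInv.map (Int.castRingHom ℂ)))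
  have hP : ∀ n : ℤ, n ≤ 0 → (S₁ * S₂).coeff n = if n = 0 then 1 else 0 := by
    have h1 : ∀ n < (0 : ℤ), S₁.coeff n = 0 := fun _ =>
      sub_ofPowerSeries_coeff_of_neg _ one_ne_zero _
    have h2 : ∀ n < (0 : ℤ), S₂.coeff n = 0 := fun _ =>
      sub_ofPowerSeries_coeff_of_neg _ hq.out.ne_zero _
    have hc : ∀ (u : PowerSeries ℤ), PowerSeries.constantCoeff u = 1 →
        PowerSeries.constantCoeff (u.map (Int.castRingHom ℂ)) = 1 := fun u hu => by
      rw [← PowerSeries.coeff_zero_eq_constantCoeff, PowerSeries.coeff_map,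
        PowerSeries.coeff_zero_eq_constantCoeff, hu, map_one]
    have e1 : S₁.coeff 0 = 1 := by
      rw [show S₁ = _ from rfl, h0 _ _ one_ne_zero, hc _ constantCoeff_dedekindEtaUnit]
    have e2 : S₂.coeff 0 = 1 := by
      rw [show S₂ = _ from rfl, h0 _ _ hq.out.ne_zero, hc _ constantCoeff_dedekindEtaUnitInv]
    intro n hn
    rw [HahnSeries.coeff_mul]
    split_ifs with hn0
    · subst hn0
      rw [Finset.sum_eq_single (⟨0, 0⟩ : ℤ × ℤ)]
      · rw [e1, e2, one_mul]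
      · intro ij hij hne
        rw [Finset.mem_antidiagonal] at hij
        have a1 : 0 ≤ ij.1 := by by_contra h; exact hij.1 (h1 _ (by omega))
        have a2 : 0 ≤ ij.2 := by by_contra h; exact hij.2.1 (h2 _ (by omega))
        exact absurd (Prod.ext (by omega) (by omega)) hne
      · intro h
        rw [e1, e2]
        exact absurd (Finset.mem_antidiagonal.mpr
          ⟨by simp [HahnSeries.mem_support, e1], by simp [HahnSeries.mem_support, e2], rfl⟩) h
    · refine Finset.sum_eq_zero fun ij hij => ?_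
      rw [Finset.mem_antidiagonal] at hij
      have a1 : 0 ≤ ij.1 := by by_contra h; exact hij.1 (h1 _ (by omega))
      have a2 : 0 ≤ ij.2 := by by_contra h; exact hij.2.1 (h2 _ (by omega))
      omega
  rw [hy', hW, hA, mul_assoc (HahnSeries.single (1 : ℤ) _)]
  refine ⟨?_, fun n hn => ?_⟩
  · rw [HahnSeries.coeff_single_mul, one_mul, HahnSeries.coeff_single_mul,
      hP _ (by omega), if_pos (by omega), mul_one]
  · rw [HahnSeries.coeff_single_mul, one_mul, HahnSeries.coeff_single_mul,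
      hP _ (by omega), if_neg (by omega), mul_zero]

/-- The `q + 1` conjugates of `q¹²Δ(qτ)/Δ` are distinct. -/
theorem ySer_injective {ζ : ℂˣ} (hζ : IsPrimitiveRoot ζ q) :
    Injective fun x : OnePoint (ZMod q) => ySer ζ x := by
  have : NeZero q := ⟨hq.out.ne_zero⟩
  have hinf : ∀ n : ℤ, n < (q : ℤ) * q - q →
      (ySer ζ (OnePoint.infty : OnePoint (ZMod q))).coeff n = 0 := by
    intro n hn
    have hy : ySer ζ (OnePoint.infty : OnePoint (ZMod q)) =
        HahnSeries.C ((q : ℂ) ^ 12) * sub (1 : ℂˣ) (q * q) (Igusa.deltaSer ℂ) *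
          sub (1 : ℂˣ) q (Igusa.deltaSerInv ℂ) := rfl
    rw [hy, mul_assoc, HahnSeries.C_mul_eq_smul, HahnSeries.coeff_smul]
    have hqq : q * q ≠ 0 := mul_ne_zero hq.out.ne_zero hq.out.ne_zero
    rw [Igusa.deltaSer, Igusa.deltaSerInv, map_mul, map_mul, Igusa.sub_single 1 hqq,
      Igusa.sub_single 1 hq.out.ne_zero, mul_mul_mul_comm, HahnSeries.single_mul_single,
      HahnSeries.coeff_single_mul]
    suffices hz : ∀ m : ℤ, m < 0 → (sub (1 : ℂˣ) (q * q) (HahnSeries.ofPowerSeries ℤ ℂ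
        (ModularCurve.dedekindEtaUnit.map (Int.castRingHom ℂ))) *
        sub (1 : ℂˣ) q (HahnSeries.ofPowerSeries ℤ ℂ
          (ModularCurve.dedekindEtaUnitInv.map (Int.castRingHom ℂ)))).coeff m = 0 by
      rw [hz _ (by push_cast; omega), mul_zero, smul_zero]
    intro m hm
    rw [HahnSeries.coeff_mul]
    refine Finset.sum_eq_zero fun ij hij => ?_
    rw [Finset.mem_antidiagonal] at hij
    have a1 : 0 ≤ ij.1 := by
      by_contra h; exact hij.1 (sub_ofPowerSeries_coeff_of_neg _ hqq _ (by omega))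
    have a2 : 0 ≤ ij.2 := by
      by_contra h; exact hij.2.1 (sub_ofPowerSeries_coeff_of_neg _ hq.out.ne_zero _ (by omega))
    omega
  have hlt : (1 : ℤ) - q < (q : ℤ) * q - q := by
    have : (2 : ℤ) ≤ q := by exact_mod_cast hq.out.two_le
    nlinarith
  intro x y h
  simp only at h
  induction x using OnePoint.rec with
  | infty =>
    induction y using OnePoint.rec with
    | infty => rfl
    | coe c =>
      exfalso
      have := congrArg (fun f : LaurentSeries ℂ => f.coeff (1 - (q : ℤ))) h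
      rw [hinf _ hlt, (order_ySer ζ c).1] at this
      exact Units.ne_zero _ this.symm
  | coe b =>
    induction y using OnePoint.rec with
    | infty =>
      exfalso
      have := congrArg (fun f : LaurentSeries ℂ => f.coeff (1 - (q : ℤ))) h
      rw [hinf _ hlt, (order_ySer ζ b).1] at this
      exact Units.ne_zero _ this
    | coe c =>
      have := congrArg (fun f : LaurentSeries ℂ => f.coeff (1 - (q : ℤ))) h
      rw [(order_ySer ζ b).1, (order_ySer ζ c).1] at this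
      exact congrArg _ (ZMod.val_injective q (hζ.pow_inj b.val_lt c.val_lt (Units.ext this)))

omit hq in
/-- `y_k · Φ'(x_k) = G(x_k)`. -/
theorem eval_gSer {ζ : ℂˣ} (x : OnePoint (ZMod q)) [NeZero q] :
    (Igusa.gSer q ζ).eval (xSer ζ x) =
      ySer ζ x * ((Igusa.phiSer q ζ).derivative.eval (xSer ζ x)) := by
  classical
  rw [Igusa.gSer, eval_finsetSum, Finset.sum_eq_single x]
  · rw [Igusa.phiSer, derivative_prod_finset, eval_finsetSum, Finset.sum_eq_single x]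
    · simp [eval_prod]
    · intro b _ hb
      rw [eval_mul, eval_prod]
      refine mul_eq_zero_of_left (Finset.prod_eq_zero (Finset.mem_erase.mpr
        ⟨hb.symm, Finset.mem_univ _⟩) ?_) _
      simp
    · simp
  · intro b _ hb
    rw [eval_mul, eval_prod]
    refine mul_eq_zero_of_right _ (Finset.prod_eq_zero (Finset.mem_erase.mpr
      ⟨hb.symm, Finset.mem_univ _⟩) ?_)
    simp
  · simp

namespace BaseData

variable {n0 : ℕ} [NeZero n0] (D : BaseData n0) {n : ℕ} [hn : Fact n.Prime]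

omit hq [NeZero n0] in
theorem map_qExpand_le [NeZero q] :
    (modularFunctionFieldFullC ℂ n0).map (qExpandAlgHomC ℂ q) ≤
      modularFunctionFieldFullC ℂ (n0 * q) := by
  rw [IntermediateField.map_le_iff_le_comap]
  refine Igusa.full_le_iff.mpr fun d hd0 hd => ?_
  show qExpandAlgHomC ℂ q (jv (1 : ℂˣ) d) ∈ modularFunctionFieldFullC ℂ (n0 * q)
  rw [Igusa.qExpandAlgHomC_jv d hd0, mul_comm]
  exact Igusa.jv_mem_full (mul_ne_zero (NeZero.ne q) hd0) (Nat.mul_dvd_mul_left q hd)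

omit hq [NeZero n0] in
theorem le_fullC_mul : modularFunctionFieldFullC ℂ n0 ≤ modularFunctionFieldFullC ℂ (n0 * q) :=
  Igusa.full_le_iff.mpr fun _ hd0 hd => Igusa.jv_mem_full hd0 (hd.mul_right q)

omit [NeZero n0] in
theorem fullC_mul_eq [NeZero q] :
    modularFunctionFieldFullC ℂ (n0 * q) =
      modularFunctionFieldFullC ℂ n0 ⊔ ℂ⟮qExpand ℂ q D.tC⟯ := by
  refine le_antisymm (Igusa.full_le_iff.mpr fun e he0 he => ?_) (sup_le le_fullC_mul ?_)
  · by_cases hqe : q ∣ e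
    · obtain ⟨d, rfl⟩ := hqe
      have hd0 : d ≠ 0 := right_ne_zero_of_mul he0
      have hd : d ∣ n0 := by
        rw [mul_comm n0] at he
        exact (Nat.mul_dvd_mul_iff_left (NeZero.pos q)).mp he
      refine (le_sup_right : ℂ⟮qExpand ℂ q D.tC⟯ ≤ _) ?_
      have h : qExpandAlgHomC ℂ q (jv (1 : ℂˣ) d) ∈ ℂ⟮D.tC⟯.map (qExpandAlgHomC ℂ q) :=
        ⟨_, by rw [← D.fullC_eq]; exact Igusa.jv_mem_full hd0 hd, rfl⟩
      rw [adjoin_map, Set.image_singleton, Igusa.qExpandAlgHomC_jv d hd0,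
        qExpandAlgHomC_apply] at h
      exact h
    · exact (le_sup_left : modularFunctionFieldFullC ℂ n0 ≤ _) (Igusa.jv_mem_full he0
        ((((hq.out.coprime_iff_not_dvd).mpr hqe).symm).dvd_of_dvd_mul_right he))
  · rw [adjoin_simple_le_iff]
    exact map_qExpand_le ⟨D.tC, D.mem, rfl⟩

theorem relfinrank_fullC_mul (hqn : ¬ q ∣ n0) :
    relfinrank (modularFunctionFieldFullC ℂ n0) (modularFunctionFieldFullC ℂ (n0 * q)) = q + 1 := by
  have h1 := Igusa.relfinrank_full (K := ℂ) n0 (by exact_mod_cast NeZero.ne n0)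
  have h2 := Igusa.relfinrank_full (K := ℂ) (n0 * q)
    (by exact_mod_cast mul_ne_zero (NeZero.ne n0) hq.out.ne_zero)
  rw [← relfinrank_mul_relfinrank Igusa.adjoin_j_le_full le_fullC_mul, h1,
    Igusa.psi_mul_prime (NeZero.ne n0) hq.out, if_neg hqn] at h2
  exact Nat.eq_of_mul_eq_mul_left (Igusa.psi_pos n0) h2

omit hn [NeZero n0] in
/-- A map sending `j(q^(dq))` to `j(θ^d u^(dM))` for all `d ∣ n₀` sends `x(q^q)` to `x(θ u^M)` for
every `x` of level `n₀`. -/
theorem apply_qExpand_eq_sub [NeZero q] {Ω : Type*} [Field Ω] (ι : LaurentSeries ℂ →+* Ω)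
    (φ : modularFunctionFieldFullC ℂ (n0 * q) →+* Ω) {θ : ℂˣ} {M : ℕ} (hM : M ≠ 0)
    (hφC : ∀ a : ℂ, φ (algebraMap ℂ (modularFunctionFieldFullC ℂ (n0 * q)) a) =
      ι (HahnSeries.C a))
    (hgen : ∀ d, d ∣ n0 → ∀ h : jv (1 : ℂˣ) (d * q) ∈ modularFunctionFieldFullC ℂ (n0 * q),
      φ ⟨_, h⟩ = ι (jv (θ ^ d) (d * M))) :
    ∀ x ∈ modularFunctionFieldFullC ℂ n0, ∀ h :
      qExpand ℂ q x ∈ modularFunctionFieldFullC ℂ (n0 * q),
      φ ⟨_, h⟩ = ι (sub θ M x) := by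
  intro x hx
  induction hx using IntermediateField.adjoin_induction with
  | mem y hy =>
    obtain ⟨d, hd, hdn, rfl⟩ := hy
    have := hd
    intro h
    have e1 : qExpand ℂ q (qExpand ℂ d (jqModC ℂ)) = jv (1 : ℂˣ) (d * q) := by
      rw [qExpand_qExpand, ← Igusa.sub_one_eq]
      show jv (1 : ℂˣ) (q * d) = _
      rw [mul_comm]
    have e2 : sub θ M (qExpand ℂ d (jqModC ℂ)) = jv (θ ^ d) (d * M) := by
      rw [← Igusa.jv_one_eq_qExpand, Igusa.sub_jv θ 1 hM hd.out, one_mul, mul_comm]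
    rw [e2, ← hgen d hdn (Igusa.jv_mem_full (mul_ne_zero hd.out hq.out.ne_zero)
        (Nat.mul_dvd_mul_right hdn q))]
    congr 2
  | algebraMap a =>
    intro h
    have hC : algebraMap ℂ (LaurentSeries ℂ) a = HahnSeries.C a := by
      rw [algebraMap_laurentSeries_eq_single]; rfl
    refine Eq.trans ?_ (congrArg ι (show HahnSeries.C a = sub θ M _ by rw [hC, Igusa.sub_C θ hM]))
    rw [← hφC]
    congr 1
    refine Subtype.ext ?_
    show qExpand ℂ q (algebraMap ℂ (LaurentSeries ℂ) a) = algebraMap ℂ (LaurentSeries ℂ) a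
    rw [hC, qExpand_C]
  | add y z hy hz ihy ihz =>
    intro h
    have my : qExpand ℂ q y ∈ modularFunctionFieldFullC ℂ (n0 * q) := map_qExpand_le ⟨y, hy, rfl⟩
    have mz : qExpand ℂ q z ∈ modularFunctionFieldFullC ℂ (n0 * q) := map_qExpand_le ⟨z, hz, rfl⟩
    rw [map_add (sub θ M), map_add ι, ← ihy my, ← ihz mz, ← map_add φ]
    congr 1
    exact Subtype.ext (map_add _ y z)
  | inv y hy ihy =>
    intro h
    have my : qExpand ℂ q y ∈ modularFunctionFieldFullC ℂ (n0 * q) := map_qExpand_le ⟨y, hy, rfl⟩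
    rw [map_inv₀ (sub θ M), map_inv₀ ι, ← ihy my, ← map_inv₀ φ]
    congr 1
    exact Subtype.ext (map_inv₀ _ y)
  | mul y z hy hz ihy ihz =>
    intro h
    have my : qExpand ℂ q y ∈ modularFunctionFieldFullC ℂ (n0 * q) := map_qExpand_le ⟨y, hy, rfl⟩
    have mz : qExpand ℂ q z ∈ modularFunctionFieldFullC ℂ (n0 * q) := map_qExpand_le ⟨z, hz, rfl⟩
    rw [map_mul (sub θ M), map_mul ι, ← ihy my, ← ihz mz, ← map_mul φ]
    congr 1
    exact Subtype.ext (map_mul _ y z)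

/-- The conjugations of the level `n₀q` field over the level `n₀` field move `t(qτ)` and
`q¹²Δ(qτ)/Δ` to the standard roots with the same label. -/
theorem exists_label [NeZero q] (hn0 : n0 = n * n) (hqn : q ≠ n)
    {Ω : Type*} [Field Ω] (ι : LaurentSeries ℂ →+* Ω)
    (φ : modularFunctionFieldFullC ℂ (n0 * q) →+* Ω)
    (hbase : ∀ (x : LaurentSeries ℂ) (_ : x ∈ modularFunctionFieldFullC ℂ n0)
      (h : x ∈ modularFunctionFieldFullC ℂ (n0 * q)),
      φ ⟨x, h⟩ = ι (sub (1 : ℂˣ) n0 (qExpand ℂ q x))) :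
    ∃ k : OnePoint (ZMod q),
      (∀ h, φ ⟨qExpand ℂ q D.tC, h⟩ = ι (sub (1 : ℂˣ) n0 (fRoot D.tC (zetaC q) k))) ∧
      (∀ h, φ ⟨qExpand ℂ q (jqModC ℂ), h⟩ = ι (sub (1 : ℂˣ) n0 (xSer (zetaC q) k))) := by
  have hn00 : n0 ≠ 0 := NeZero.ne n0
  have hq0 := hq.out.ne_zero
  have hφC : ∀ a : ℂ, φ (algebraMap ℂ (modularFunctionFieldFullC ℂ (n0 * q)) a) =
      ι (HahnSeries.C a) := by
    intro a
    have h := hbase (algebraMap ℂ (LaurentSeries ℂ) a) (IntermediateField.algebraMap_mem _ a)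
      (IntermediateField.algebraMap_mem _ a)
    have hC : algebraMap ℂ (LaurentSeries ℂ) a = HahnSeries.C a := by
      rw [algebraMap_laurentSeries_eq_single]; rfl
    refine Eq.trans ?_ (h.trans ?_)
    · rfl
    · rw [hC, qExpand_C, Igusa.sub_C _ hn00]
  have hjd : ∀ (d : ℕ) (_ : d ≠ 0) (_ : d ∣ n0)
      (h : jv (1 : ℂˣ) d ∈ modularFunctionFieldFullC ℂ (n0 * q)),
      φ ⟨_, h⟩ = ι (jv (1 : ℂˣ) (q * (n0 * d))) := by
    intro d hd0 hd h
    rw [hbase _ (Igusa.jv_mem_full hd0 hd) h, ← Igusa.sub_one_eq q, Igusa.sub_jv 1 1 hq0 hd0,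
      Igusa.sub_jv 1 _ hn00 (mul_ne_zero hq0 hd0)]
    simp only [one_pow, one_mul]
    rw [show n0 * (q * d) = q * (n0 * d) by ring]
  have hmemd : ∀ d : ℕ, d ∣ n0 → jv (1 : ℂˣ) d ∈ modularFunctionFieldFullC ℂ (n0 * q) := fun d hd =>
    le_fullC_mul (Igusa.jv_mem_full (ne_zero_of_dvd_ne_zero hn00 hd) hd)
  have hmemdq : ∀ d : ℕ, d ∣ n0 →
      jv (1 : ℂˣ) (d * q) ∈ modularFunctionFieldFullC ℂ (n0 * q) := fun d hd =>
    Igusa.jv_mem_full (mul_ne_zero (ne_zero_of_dvd_ne_zero hn00 hd) hq0)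
      (Nat.mul_dvd_mul_right hd q)
  -- the label
  obtain ⟨θ, M, hθ, hone⟩ : ∃ (θ : ℂˣ) (M : ℕ),
      (θ = 1 ∧ M = n0 * (q * q) ∨ θ ^ q = 1 ∧ M = n0) ∧
      φ ⟨_, hmemdq 1 (one_dvd n0)⟩ = ι (jv θ M) := by
    have h1 := hjd 1 one_ne_zero (one_dvd n0) (hmemd 1 (one_dvd n0))
    rw [mul_one] at h1
    rcases root_of_conj (p := q) ι (modularFunctionFieldFullC ℂ (n0 * q)) φ hφC one_ne_zero
        (hmemd 1 (one_dvd n0))
      (hmemdq 1 (one_dvd n0)) hn00 h1 with h | ⟨η, hη, h⟩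
    · exact ⟨1, n0 * (q * q), Or.inl ⟨rfl, rfl⟩, by rw [h, one_pow, mul_comm]⟩
    · exact ⟨η, n0, Or.inr ⟨hη, rfl⟩, h⟩
  obtain ⟨M0, hM0⟩ : n ∣ M := by
    rcases hθ with ⟨-, rfl⟩ | ⟨-, rfl⟩
    · exact (hn0 ▸ dvd_mul_right n n : n ∣ n0).mul_right _
    · exact hn0 ▸ dvd_mul_right n n
  have hM00 : M0 ≠ 0 := by
    rintro rfl
    rcases hθ with ⟨-, h⟩ | ⟨-, h⟩ <;> rw [hM0, mul_zero] at h
    · exact mul_ne_zero hn00 (mul_ne_zero hq0 hq0) h.symm
    · exact hn00 h.symm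
  have hstep : ∀ d : ℕ, d ≠ 0 → ∀ hd : d * n ∣ n0, ∀ h : jv (1 : ℂˣ) (d * q) ∈
      modularFunctionFieldFullC ℂ (n0 * q),
      φ ⟨_, h⟩ = ι (jv (θ ^ d) (d * M)) →
      φ ⟨_, hmemdq (d * n) hd⟩ = ι (jv (θ ^ (d * n)) (d * n * M)) := by
    intro d hd0 hd h hval
    have hdn0 : d * n ≠ 0 := mul_ne_zero hd0 hn.out.ne_zero
    have hA := root_of_conj (p := q) ι (modularFunctionFieldFullC ℂ (n0 * q)) φ hφC hdn0
        (hmemd _ hd) (hmemdq _ hd)
      (mul_ne_zero hn00 hdn0) (hjd _ hdn0 hd (hmemd _ hd))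
    have h2 : jv (1 : ℂˣ) (d * q * n) ∈ modularFunctionFieldFullC ℂ (n0 * q) := by
      rw [mul_right_comm]; exact hmemdq _ hd
    have hB := root_of_conj (p := n) ι (modularFunctionFieldFullC ℂ (n0 * q)) φ hφC
        (mul_ne_zero hd0 hq0) h h2
      (mul_ne_zero hd0 hM00) (by rw [hval, hM0]; congr 2; ring)
    have hswap : φ ⟨_, h2⟩ = φ ⟨_, hmemdq _ hd⟩ := by congr 2; rw [mul_right_comm]
    rw [hswap] at hB
    rcases hB with hB | ⟨η', -, hB⟩
    · rw [hB, hM0, ← pow_mul]; congr 2; ring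
    · exfalso
      have hn2 := hn.out.two_le
      have hq2 := hq.out.two_le
      have hnq : n * n ≠ q * q := fun he => hqn (Nat.mul_self_inj.mp he).symm
      have hd' : 0 < d := Nat.pos_of_ne_zero hd0
      rcases hA with hA | ⟨η, -, hA⟩
      · have h3 := ((Igusa.jv_inj (mul_ne_zero hd0 hM00) (mul_ne_zero (mul_ne_zero hq0 hq0)
          (mul_ne_zero hn00 hdn0))).mp (ι.injective (hB.symm.trans hA))).2
        have h4 : d * M = d * (n0 * (q * q) * (n * n)) := by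
          rw [hM0, show d * (n * M0) = n * (d * M0) by ring, h3]; ring
        have h5 := Nat.eq_of_mul_eq_mul_left hd' h4
        rcases hθ with ⟨-, rfl⟩ | ⟨-, hMe⟩
        · have h6 : n0 * (q * q) * 1 = n0 * (q * q) * (n * n) := by rw [mul_one]; exact h5
          have := Nat.eq_of_mul_eq_mul_left (Nat.pos_of_ne_zero
            (mul_ne_zero hn00 (mul_ne_zero hq0 hq0))) h6
          nlinarith
        · rw [hMe] at h5
          have h6 : n0 * 1 = n0 * (q * q * (n * n)) := by rw [mul_one, ← mul_assoc]; exact h5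
          have h7 := Nat.eq_of_mul_eq_mul_left (Nat.pos_of_ne_zero hn00) h6
          nlinarith [Nat.mul_le_mul (Nat.mul_le_mul hq2 hq2) (Nat.mul_le_mul hn2 hn2)]
      · have h3 := ((Igusa.jv_inj (mul_ne_zero hd0 hM00) (mul_ne_zero hn00 hdn0)).mp
          (ι.injective (hB.symm.trans hA))).2
        have h4 : d * M = d * (n0 * (n * n)) := by
          rw [hM0, show d * (n * M0) = n * (d * M0) by ring, h3]; ring
        have h5 := Nat.eq_of_mul_eq_mul_left hd' h4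
        rcases hθ with ⟨-, hMe⟩ | ⟨-, hMe⟩ <;> rw [hMe] at h5
        · exact hnq (Nat.eq_of_mul_eq_mul_left (Nat.pos_of_ne_zero hn00) h5).symm
        · have h6 : n0 * 1 = n0 * (n * n) := by rw [mul_one]; exact h5
          have h7 := Nat.eq_of_mul_eq_mul_left (Nat.pos_of_ne_zero hn00) h6
          nlinarith
  have hall : ∀ d, d ∣ n0 → ∀ h : jv (1 : ℂˣ) (d * q) ∈ modularFunctionFieldFullC ℂ (n0 * q),
      φ ⟨_, h⟩ = ι (jv (θ ^ d) (d * M)) := by
    intro d hd h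
    have h1 : φ ⟨_, hmemdq 1 (one_dvd n0)⟩ = ι (jv (θ ^ 1) (1 * M)) := by
      conv_rhs => rw [pow_one, one_mul]
      exact hone
    have hn1 : 1 * n ∣ n0 := by rw [one_mul, hn0]; exact dvd_mul_right n n
    have h2 := hstep 1 one_ne_zero hn1 _ h1
    simp only [one_mul] at h2
    have hn2 : n * n ∣ n0 := hn0 ▸ dvd_refl _
    have h3 := hstep n hn.out.ne_zero hn2 _ h2
    have hd' : d ∣ n ^ 2 := by rw [sq, ← hn0]; exact hd
    obtain ⟨i, hi, rfl⟩ := (Nat.dvd_prime_pow hn.out).mp hd'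
    interval_cases i
    · simp only [pow_zero] at h ⊢
      exact h1
    · simp only [pow_one] at h ⊢
      exact h2
    · simp only [sq] at h ⊢
      exact h3
  -- equality of the two homomorphisms on the field of level `n₀`
  have key := apply_qExpand_eq_sub ι φ (θ := θ) (M := M)
    (by rw [hM0]; exact mul_ne_zero hn.out.ne_zero hM00) hφC hall
  have hj : jqModC ℂ ∈ modularFunctionFieldFullC ℂ n0 := by
    rw [← Igusa.jv_one_one]; exact Igusa.jv_mem_full one_ne_zero (one_dvd n0)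
  -- identify the label
  have hlab : ∀ (k : OnePoint (ZMod q)), θ = rootUnit (zetaC q) k → M = n0 * rootExp q k →
      ∀ x : LaurentSeries ℂ, sub θ M x = sub (1 : ℂˣ) n0 (fRoot x (zetaC q) k) := by
    intro k h1 h2 x
    rw [fRoot, Igusa.sub_sub _ _ hn00 (Igusa.rootExp_ne_zero k), one_pow, mul_one, h1, h2]
  rcases hθ with ⟨h1, h2⟩ | ⟨h1, h2⟩
  · refine ⟨OnePoint.infty, fun h => ?_, fun h => ?_⟩
    · rw [key D.tC D.mem h, hlab OnePoint.infty h1 h2]
    · rw [key (jqModC ℂ) hj h, hlab OnePoint.infty h1 h2]; rfl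
  · have hζu : IsPrimitiveRoot (zetaC q) q := (isPrimitiveRoot_zetaC q).of_map_of_injective
      (f := Units.coeHom ℂ) Units.val_injective
    obtain ⟨i, hi, hi'⟩ := hζu.eq_pow_of_mem_rootsOfUnity (ξ := θ)
      (by rw [mem_rootsOfUnity]; exact h1)
    have hk : θ = rootUnit (zetaC q) ((i : ZMod q) : OnePoint (ZMod q)) := by
      show θ = zetaC q ^ (i : ZMod q).val
      rw [ZMod.val_cast_of_lt hi, hi']
    refine ⟨((i : ZMod q) : OnePoint (ZMod q)), fun h => ?_, fun h => ?_⟩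
    · rw [key D.tC D.mem h, hlab _ hk (by rw [h2]; exact (mul_one n0).symm)]
    · rw [key (jqModC ℂ) hj h, hlab _ hk (by rw [h2]; exact (mul_one n0).symm)]; rfl

end BaseData

end Fermat.Agent.SquareLevel
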