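import Mathlib.RingTheory.RootsOfUnity.PrimitiveRoots
import Fermat.Agent.Igusa.ModEq

/-!
# Galois-invariant elements of `ℤ[ζ_q]`, and series descent to `ℤ`
-/

noncomputable section

open ModularCurve Function Polynomial
open Fermat.Agent.Igusa (CycInt cycHom cycZeta zetaC isPrimitiveRoot_zetaC cycHom_injective)

namespace Fermat.Agent.SquareLevel

variable {q : ℕ} [hq : Fact q.Prime]

/-- Power sums of primitive roots of unity are integers. -/
theorem sum_primitiveRoots_pow (k : ℕ) :
    ∃ z : ℤ, ∑ ω ∈ primitiveRoots q ℂ, ω ^ k = (z : ℂ) := by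
  classical
  have hpos := hq.out.pos
  by_cases hk : q ∣ k
  · refine ⟨(primitiveRoots q ℂ).card, ?_⟩
    rw [Int.cast_natCast, Finset.card_eq_sum_ones, Nat.cast_sum]
    refine Finset.sum_congr rfl fun ω hω => ?_
    obtain ⟨c, rfl⟩ := hk
    rw [mem_primitiveRoots hpos] at hω
    rw [pow_mul, hω.pow_eq_one, one_pow, Nat.cast_one]
  · refine ⟨-1, ?_⟩
    set ζ : ℂ := ((zetaC q : ℂˣ) : ℂ)
    have hζ : IsPrimitiveRoot ζ q := isPrimitiveRoot_zetaC q
    have hset : primitiveRoots q ℂ = ((Finset.range q).erase 0).image (fun i => ζ ^ i) := by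
      ext ω
      rw [mem_primitiveRoots hpos, Finset.mem_image]
      constructor
      · intro hω
        obtain ⟨i, hi, rfl⟩ := hζ.eq_pow_of_pow_eq_one hω.pow_eq_one
        refine ⟨i, Finset.mem_erase.mpr ⟨?_, Finset.mem_range.mpr hi⟩, rfl⟩
        rintro rfl
        rw [pow_zero] at hω
        exact hq.out.one_lt.ne' (hω.unique IsPrimitiveRoot.one)
      · rintro ⟨i, hi, rfl⟩
        rw [Finset.mem_erase, Finset.mem_range] at hi
        exact hζ.pow_of_coprime i (((hq.out.coprime_iff_not_dvd).mpr fun h =>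
          absurd (Nat.le_of_dvd (Nat.pos_of_ne_zero hi.1) h) (by omega)).symm)
    rw [hset, Finset.sum_image fun a ha b hb h => hζ.pow_inj
      (Finset.mem_range.mp (Finset.mem_of_mem_erase ha))
      (Finset.mem_range.mp (Finset.mem_of_mem_erase hb)) h]
    have hgeo := (hζ.pow_of_coprime k
      ((hq.out.coprime_iff_not_dvd).mpr hk).symm).geom_sum_eq_zero hq.out.one_lt
    have h := Finset.add_sum_erase (Finset.range q) (fun i => (ζ ^ k) ^ i)
      (Finset.mem_range.mpr hpos)
    rw [hgeo, pow_zero] at h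
    push_cast
    rw [eq_neg_iff_add_eq_zero, add_comm]
    refine Eq.trans ?_ h
    congr 1
    exact Finset.sum_congr rfl fun i _ => by rw [← pow_mul, ← pow_mul, mul_comm]

/-- An element of `ℤ[ζ_q]` with the same image under every embedding is an integer. -/
theorem exists_int_of_invariant (x : CycInt q)
    (h : ∀ (ω : ℂ) (hω : IsPrimitiveRoot ω q),
      cycHom q hω x = cycHom q (isPrimitiveRoot_zetaC q) x) :
    ∃ m : ℤ, x = (m : CycInt q) := by
  classical
  obtain ⟨g, rfl⟩ := AdjoinRoot.mk_surjective x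
  set v := cycHom q (isPrimitiveRoot_zetaC q) (AdjoinRoot.mk _ g) with hv
  have hev : ∀ ω ∈ primitiveRoots q ℂ,
      ∑ i ∈ Finset.range (g.natDegree + 1), (g.coeff i : ℂ) * ω ^ i = v := by
    intro ω hω
    rw [mem_primitiveRoots hq.out.pos] at hω
    rw [← h ω hω, Igusa.cycHom, AdjoinRoot.lift_mk, eval₂_eq_sum_range]
    simp
  choose z hz using sum_primitiveRoots_pow (q := q)
  have hsum : ((primitiveRoots q ℂ).card : ℂ) * v =
      ((∑ i ∈ Finset.range (g.natDegree + 1), g.coeff i * z i : ℤ) : ℂ) := by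
    rw [← nsmul_eq_mul, ← Finset.sum_const, ← Finset.sum_congr rfl hev, Finset.sum_comm,
      Int.cast_sum]
    exact Finset.sum_congr rfl fun i _ => by rw [← Finset.mul_sum, hz, Int.cast_mul]
  have hcard : ((primitiveRoots q ℂ).card : ℚ) ≠ 0 := by
    rw [Complex.card_primitiveRoots]
    exact_mod_cast (Nat.totient_pos.mpr hq.out.pos).ne'
  set r : ℚ := ((∑ i ∈ Finset.range (g.natDegree + 1), g.coeff i * z i : ℤ) : ℚ) /
    ((primitiveRoots q ℂ).card : ℚ)
  have hvr : v = algebraMap ℚ ℂ r := by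
    have hc : ((primitiveRoots q ℂ).card : ℂ) ≠ 0 := by exact_mod_cast hcard
    simp only [r, map_div₀, map_intCast, map_natCast]
    rw [eq_div_iff hc, mul_comm, hsum]
  have hint : IsIntegral ℤ v := by
    have hζ : IsIntegral ℤ ((zetaC q : ℂˣ) : ℂ) :=
      (isPrimitiveRoot_zetaC q).isIntegral hq.out.pos
    rw [hv, Igusa.cycHom, AdjoinRoot.lift_mk, eval₂_eq_sum_range]
    refine IsIntegral.sum _ fun i _ => ?_
    have hi : IsIntegral ℤ ((g.coeff i : ℤ) : ℂ) := by
      simpa using (isIntegral_algebraMap (R := ℤ) (A := ℂ) (x := g.coeff i))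
    simpa using hi.mul (hζ.pow i)
  rw [hvr, isIntegral_algebraMap_iff (algebraMap ℚ ℂ).injective] at hint
  obtain ⟨m, hm⟩ := IsIntegrallyClosed.isIntegral_iff.mp hint
  refine ⟨m, cycHom_injective q (isPrimitiveRoot_zetaC q) ?_⟩
  rw [← hv, hvr, ← hm, map_intCast]
  simp

/-- A series over `ℤ[ζ_q]` invariant under every embedding has integer coefficients. -/
theorem exists_int_series (F : LaurentSeries (CycInt q))
    (h : ∀ (ω : ℂ) (hω : IsPrimitiveRoot ω q),
      coeffMap (cycHom q hω) F = coeffMap (cycHom q (isPrimitiveRoot_zetaC q)) F) :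
    ∃ F₀ : LaurentSeries ℤ, coeffMap (Int.castRingHom (CycInt q)) F₀ = F := by
  classical
  have hco : ∀ n, ∃ m : ℤ, F.coeff n = (m : CycInt q) := fun n =>
    exists_int_of_invariant _ fun ω hω => by
      simpa using congrArg (fun f : LaurentSeries ℂ => f.coeff n) (h ω hω)
  choose m hm using hco
  refine ⟨{ coeff := fun n => if F.coeff n = 0 then 0 else m n
            isPWO_support' := F.isPWO_support.mono fun n hn h0 => hn (by simp [h0]) }, ?_⟩
  ext n
  rw [coeffMap_coeff]
  show (Int.castRingHom (CycInt q)) (if F.coeff n = 0 then 0 else m n) = F.coeff n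
  split_ifs with h0
  · rw [map_zero, h0]
  · rw [eq_intCast, ← hm]

/-- A series whose image under an injective map is a series in `q^m` is a series in `q^m`. -/
theorem exists_qExpand_descend {R S : Type*} [CommRing R] [CommRing S] {φ : R →+* S}
    (hφ : Injective φ) (m : ℕ) [NeZero m] (F : LaurentSeries R) (Z : LaurentSeries S)
    (h : coeffMap φ F = qExpand S m Z) :
    ∃ F' : LaurentSeries R, qExpand R m F' = F ∧ coeffMap φ F' = Z := by
  have hsupp : ∀ k, F.coeff ((m : ℤ) * k) ≠ 0 → k ∈ Z.support := fun k hk h0 => hk (hφ (by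
    have h' := congrArg (fun f : LaurentSeries S => f.coeff ((m : ℤ) * k)) h
    simp only [coeffMap_coeff, qExpand_coeff_mul] at h'
    rw [h', h0, map_zero]))
  refine ⟨{ coeff := fun k => F.coeff ((m : ℤ) * k)
            isPWO_support' := Z.isPWO_support.mono fun k hk => hsupp k hk }, ?_, ?_⟩
  · ext n
    by_cases hn : (m : ℤ) ∣ n
    · obtain ⟨k, rfl⟩ := hn
      rw [qExpand_coeff_mul]
    · rw [qExpand_coeff_of_not_dvd m _ hn]
      apply hφ
      have h' := congrArg (fun f : LaurentSeries S => f.coeff n) h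
      simp only [coeffMap_coeff, qExpand_coeff_of_not_dvd m _ hn] at h'
      rw [map_zero, h']
  · ext k
    rw [coeffMap_coeff]
    show φ (F.coeff ((m : ℤ) * k)) = _
    have h' := congrArg (fun f : LaurentSeries S => f.coeff ((m : ℤ) * k)) h
    simpa only [coeffMap_coeff, qExpand_coeff_mul] using h'

/-- An embedding of `ℤ[ζ_q]` only permutes the labels of the roots. -/
theorem exists_rootUnit_perm {K : Type*} [CommRing K] {ζ : Kˣ}
    (hζ : ζ ^ q = 1) {k : ℕ} (hk : Nat.Coprime k q) :
    ∃ σ : Equiv.Perm (OnePoint (ZMod q)),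
      (∀ x, Igusa.rootUnit (ζ ^ k) x = Igusa.rootUnit ζ (σ x)) ∧
      (∀ x, Igusa.rootExp q (σ x) = Igusa.rootExp q x) ∧
      (∀ x, Igusa.rootKappa K (σ x) = Igusa.rootKappa K x) := by
  have hu : IsUnit (k : ZMod q) := (ZMod.isUnit_iff_coprime k q).mpr hk
  refine ⟨Equiv.optionCongr (hu.unit.mulLeft), fun x => ?_, fun x => ?_, fun x => ?_⟩
  all_goals induction x using OnePoint.rec with
    | infty => rfl
    | coe b => ?_
  · show (ζ ^ k) ^ b.val = ζ ^ ((k : ZMod q) * b).val
    rw [← pow_mul, ZMod.val_mul, ZMod.val_natCast, Nat.mod_mul_mod]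
    exact pow_eq_pow_mod _ hζ
  · rfl
  · rfl

end Fermat.Agent.SquareLevel
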