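import Fermat.Agent.SquareLevel.Hauptmodul.Conj

/-!
# `t(qτ)` and `q¹²Δ(qτ)/Δ` have all their standard conjugates over the level `n₀` field
-/

noncomputable section

open Function Polynomial IntermediateField ModularCurve
open Fermat.Agent.Igusa (jv sub evalAt evalIn xSer ySer zetaC isPrimitiveRoot_zetaC
  phiSer gSer hSer)

namespace Fermat.Agent.SquareLevel

variable {q : ℕ} [hq : Fact q.Prime]

/-- An irreducible monic polynomial of degree `#ι` whose roots are among the `c k` is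
`∏ (X - c k)`, and the `c k` are distinct roots of it. -/
theorem map_eq_prod_of_rootSet {F : Type*} [Field F] [CharZero F] {Ω : Type*} [Field Ω]
    [Algebra F Ω] [IsAlgClosed Ω] {ι : Type*} [Fintype ι] {m : F[X]} (hm : m.Monic)
    (hirr : Irreducible m) (hdeg : m.natDegree = Fintype.card ι) (c : ι → Ω)
    (h : m.rootSet Ω ⊆ Set.range c) :
    m.map (algebraMap F Ω) = ∏ k, (X - C (c k)) ∧ Injective c ∧ Set.range c ⊆ m.rootSet Ω := by
  classical
  have hcard : Fintype.card (m.rootSet Ω) = m.natDegree :=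
    card_rootSet_eq_natDegree hirr.separable (IsAlgClosed.splits _)
  have hsub : (m.rootSet Ω).toFinset ⊆ Finset.univ.image c := by
    intro y hy
    obtain ⟨k, rfl⟩ := h (Set.mem_toFinset.mp hy)
    exact Finset.mem_image_of_mem c (Finset.mem_univ k)
  have hle : (Finset.univ.image c).card ≤ (m.rootSet Ω).toFinset.card := by
    rw [Set.toFinset_card, hcard, hdeg]
    exact Finset.card_image_le
  have heq := Finset.eq_of_subset_of_card_le hsub hle
  have hinj : Injective c := by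
    have h1 : (Finset.univ.image c).card = (Finset.univ : Finset ι).card := by
      rw [← heq, Set.toFinset_card, hcard, hdeg, Finset.card_univ]
    intro a b hab
    exact Finset.card_image_iff.mp h1 (Finset.mem_univ a) (Finset.mem_univ b) hab
  have hr : Set.range c ⊆ m.rootSet Ω := by
    rintro _ ⟨k, rfl⟩
    rw [← Set.mem_toFinset, heq]
    exact Finset.mem_image_of_mem c (Finset.mem_univ k)
  refine ⟨?_, hinj, hr⟩
  have hroots : (m.map (algebraMap F Ω)).roots = (Finset.univ.image c).val := by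
    have h1 : (m.map (algebraMap F Ω)).roots.toFinset = Finset.univ.image c := by
      rw [← heq]
      ext y
      rw [Multiset.mem_toFinset, Set.mem_toFinset, mem_rootSet,
          mem_roots (Polynomial.map_ne_zero hm.ne_zero), IsRoot, ← eval₂_eq_eval_map, ← aeval_def]
      exact (and_iff_right hm.ne_zero).symm
    rw [← h1, Multiset.toFinset_val, (nodup_roots (hirr.separable.map (f := algebraMap F Ω))).dedup]
  rw [(IsAlgClosed.splits (m.map (algebraMap F Ω))).eq_prod_roots_of_monic (hm.map _), hroots,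
    Finset.image_val_of_injOn hinj.injOn, Multiset.map_map, Finset.prod_eq_multiset_prod]
  rfl

/-- An irreducible monic polynomial of degree at most `#ι` with distinct roots `c k` is
`∏ (X - c k)`. -/
theorem map_eq_prod_of_subset_rootSet {F : Type*} [Field F] [CharZero F] {Ω : Type*} [Field Ω]
    [Algebra F Ω] [IsAlgClosed Ω] {ι : Type*} [Fintype ι] {m : F[X]} (hm : m.Monic)
    (hirr : Irreducible m) (hdeg : m.natDegree ≤ Fintype.card ι) {c : ι → Ω} (hc : Injective c)
    (h : Set.range c ⊆ m.rootSet Ω) :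
    m.map (algebraMap F Ω) = ∏ k, (X - C (c k)) ∧ m.natDegree = Fintype.card ι := by
  classical
  have hcard : Fintype.card (m.rootSet Ω) = m.natDegree :=
    card_rootSet_eq_natDegree hirr.separable (IsAlgClosed.splits _)
  have hsub : Finset.univ.image c ⊆ (m.rootSet Ω).toFinset := fun y hy => by
    obtain ⟨k, -, rfl⟩ := Finset.mem_image.mp hy
    exact Set.mem_toFinset.mpr (h ⟨k, rfl⟩)
  have hle : (m.rootSet Ω).toFinset.card ≤ (Finset.univ.image c).card := by
    rw [Set.toFinset_card, hcard, Finset.card_image_of_injective _ hc, Finset.card_univ]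
    exact hdeg
  have heq := Finset.eq_of_subset_of_card_le hsub hle
  have hdeg' : m.natDegree = Fintype.card ι := by
    rw [← hcard, ← Set.toFinset_card, ← heq, Finset.card_image_of_injective _ hc, Finset.card_univ]
  refine ⟨(map_eq_prod_of_rootSet hm hirr hdeg' c fun y hy => ?_).1, hdeg'⟩
  obtain ⟨k, -, hk⟩ := Finset.mem_image.mp (heq ▸ Set.mem_toFinset.mpr hy)
  exact ⟨k, hk⟩

/-- `q¹²Δ(qτ)/Δ` as a rational function of `j(τ)` and `j(qτ)`. -/
theorem gC_eq_deltaQuot_mul [NeZero q] {Φ Gp : Polynomial (Polynomial ℂ)}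
    (hΦ : Φ.map (evalAt (jv (1 : ℂˣ) q)) = Igusa.phiSer q (zetaC q))
    (hG : Gp.map (evalAt (jv (1 : ℂˣ) q)) = gSer q (zetaC q)) :
    (Gp.map (evalAt (jv (1 : ℂˣ) 1))).eval (jv (1 : ℂˣ) q) =
      deltaQuot ℂ q * ((Φ.map (evalAt (jv (1 : ℂˣ) 1))).derivative).eval (jv (1 : ℂˣ) q) := by
  have hshift : ∀ Q : Polynomial (Polynomial ℂ),
      (Q.map (evalAt (jv (1 : ℂˣ) 1))).map (qExpand ℂ q) = Q.map (evalAt (jv (1 : ℂˣ) q)) := by
    intro Q
    rw [Polynomial.map_map, show qExpand ℂ q = sub (1 : ℂˣ) q from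
      RingHom.ext fun f => (Igusa.sub_one_eq q f).symm, Igusa.sub_evalAt 1 hq.out.ne_zero,
      Igusa.sub_jv 1 1 hq.out.ne_zero one_ne_zero]
    simp
  have hxinf : qExpand ℂ q (jv (1 : ℂˣ) q) =
      xSer (zetaC q) (OnePoint.infty : OnePoint (ZMod q)) := by
    rw [← Igusa.sub_one_eq q, Igusa.sub_jv 1 1 hq.out.ne_zero hq.out.ne_zero]
    simp only [one_pow, one_mul]
    rfl
  apply qExpand_injective (R := ℂ) q
  rw [map_mul, qExpand_deltaQuot (zetaC q), ← Polynomial.eval_map_apply, hshift, hG,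
    hxinf, eval_gSer, ← Polynomial.eval_map_apply, ← Polynomial.derivative_map, hshift, hΦ,
    hxinf]

namespace BaseData

variable {n0 : ℕ} [NeZero n0] (D : BaseData n0) {n : ℕ} [hn : Fact n.Prime]

/-- The level `n₀` field inside series in `u = q^(1/q)`. -/
def baseSigma (q : ℕ) [NeZero q] (n0 : ℕ) [NeZero n0] :
    modularFunctionFieldFullC ℂ n0 →+* LaurentSeries ℂ :=
  (qExpand ℂ q).comp (algebraMap (modularFunctionFieldFullC ℂ n0) (LaurentSeries ℂ))

omit [NeZero n0] in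
/-- A map extending `z(τ) ↦ g(z(qτ))` sends a polynomial in `j` to that polynomial in `j(qτ)`. -/
theorem comp_evalIn [NeZero q] {Ω : Type} [Field Ω] {g : LaurentSeries ℂ →+* Ω}
    (φ : modularFunctionFieldFullC ℂ (n0 * q) →+* Ω)
    (hb : ∀ (z : LaurentSeries ℂ) (_ : z ∈ modularFunctionFieldFullC ℂ n0)
      (h : z ∈ modularFunctionFieldFullC ℂ (n0 * q)), φ ⟨z, h⟩ = g (qExpand ℂ q z))
    (hj1 : jv (1 : ℂˣ) 1 ∈ modularFunctionFieldFullC ℂ (n0 * q)) :
    φ.comp (evalIn _ hj1) = g.comp (evalAt (jv (1 : ℂˣ) q)) := by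
  refine Polynomial.ringHom_ext (fun a => ?_) ?_
  · have h1 := hb (algebraMap ℂ (LaurentSeries ℂ) a) (IntermediateField.algebraMap_mem _ a)
      (IntermediateField.algebraMap_mem _ a)
    have hC : algebraMap ℂ (LaurentSeries ℂ) a = HahnSeries.C a := by
      rw [algebraMap_laurentSeries_eq_single]; rfl
    simp only [RingHom.comp_apply, Igusa.evalAt_C]
    have h2 : qExpand ℂ q (algebraMap ℂ (LaurentSeries ℂ) a) = HahnSeries.C a := by
      rw [hC, qExpand_C]
    rw [h2] at h1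
    refine Eq.trans ?_ h1
    congr 1
    exact Subtype.ext (by simp [evalIn, hC])
  · simp only [RingHom.comp_apply, Igusa.evalAt_X]
    have h1 := hb (jv (1 : ℂˣ) 1) (Igusa.jv_mem_full one_ne_zero (one_dvd _)) hj1
    rw [← Igusa.sub_one_eq q, Igusa.sub_jv 1 1 hq.out.ne_zero one_ne_zero] at h1
    simp only [one_pow, mul_one] at h1
    refine Eq.trans ?_ h1
    congr 1
    exact Subtype.ext (by simp [evalIn])

omit [NeZero n0] in
/-- `q¹²Δ(qτ)/Δ` lies in the level `n₀ q` field and follows the conjugates of `j(qτ)`. -/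
theorem deltaQuot_mem_and_conj [NeZero q] :
    ∃ hymem : deltaQuot ℂ q ∈ modularFunctionFieldFullC ℂ (n0 * q),
      ∀ {Ω : Type} [Field Ω] (g : LaurentSeries ℂ →+* Ω)
        (φ : modularFunctionFieldFullC ℂ (n0 * q) →+* Ω),
        (∀ (z : LaurentSeries ℂ) (_ : z ∈ modularFunctionFieldFullC ℂ n0)
          (h : z ∈ modularFunctionFieldFullC ℂ (n0 * q)), φ ⟨z, h⟩ = g (qExpand ℂ q z)) →
        ∀ k : OnePoint (ZMod q),
          (∀ h, φ ⟨qExpand ℂ q (jqModC ℂ), h⟩ = g (xSer (zetaC q) k)) →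
          φ ⟨deltaQuot ℂ q, hymem⟩ = g (ySer (zetaC q) k) := by
  -- `q¹²Δ(qτ)/Δ` as a rational function of `j`, `j(qτ)`
  obtain ⟨Φ, hΦ'⟩ := Igusa.exists_phiC (p := q)
  obtain ⟨Gp, hGp⟩ := Igusa.exists_gC (p := q)
  have hΦ := Igusa.isModPoly_of_map_eq (isPrimitiveRoot_zetaC q) hΦ'
  set fq := ((Φ.map (evalAt (jv (1 : ℂˣ) 1))).derivative).eval (jv (1 : ℂˣ) q) with hfq
  set gq := (Gp.map (evalAt (jv (1 : ℂˣ) 1))).eval (jv (1 : ℂˣ) q) with hgq
  have hfq0 : fq ≠ 0 := by
    refine (Igusa.isModPoly_separable hΦ one_ne_zero).eval₂_derivative_ne_zero (RingHom.id _) ?_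
    have := Igusa.isModPoly_root_up (p := q) hΦ one_ne_zero
    rw [one_mul] at this
    rw [eval₂_id]; exact this
  have hfg : gq = deltaQuot ℂ q * fq := gC_eq_deltaQuot_mul hΦ' hGp
  have hj1 : jv (1 : ℂˣ) 1 ∈ modularFunctionFieldFullC ℂ (n0 * q) :=
    Igusa.jv_mem_full one_ne_zero (one_dvd _)
  have hjq : jv (1 : ℂˣ) q ∈ modularFunctionFieldFullC ℂ (n0 * q) :=
    Igusa.jv_mem_full hq.out.ne_zero (dvd_mul_left q n0)
  set fE : modularFunctionFieldFullC ℂ (n0 * q) :=
    ((Φ.map (evalIn _ hj1)).derivative).eval ⟨_, hjq⟩ with hfE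
  set gE : modularFunctionFieldFullC ℂ (n0 * q) := (Gp.map (evalIn _ hj1)).eval ⟨_, hjq⟩ with hgE
  have hfEv : (fE : LaurentSeries ℂ) = fq := by
    rw [hfE, hfq]
    show algebraMap (modularFunctionFieldFullC ℂ (n0 * q)) (LaurentSeries ℂ) _ = _
    rw [← Polynomial.eval_map_apply, ← Polynomial.derivative_map, Igusa.map_evalIn_map]
    rfl
  have hgEv : (gE : LaurentSeries ℂ) = gq := by
    rw [hgE, hgq]
    show algebraMap (modularFunctionFieldFullC ℂ (n0 * q)) (LaurentSeries ℂ) _ = _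
    rw [← Polynomial.eval_map_apply, Igusa.map_evalIn_map]
    rfl
  have hymem : deltaQuot ℂ q ∈ modularFunctionFieldFullC ℂ (n0 * q) := by
    rw [show deltaQuot ℂ q = gq / fq by rw [eq_div_iff hfq0, hfg]]
    exact div_mem (hgEv ▸ gE.2) (hfEv ▸ fE.2)
  have hprod : gE = ⟨deltaQuot ℂ q, hymem⟩ * fE :=
    Subtype.ext (by show (gE : LaurentSeries ℂ) = deltaQuot ℂ q * (fE : LaurentSeries ℂ)
                    rw [hgEv, hfEv, hfg])
  refine ⟨hymem, fun {Ω} _ g φ hb k hk => ?_⟩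
  have hcomp : φ.comp (evalIn _ hj1) = g.comp (evalAt (jv (1 : ℂˣ) q)) :=
    comp_evalIn φ hb hj1
  have hxk : φ ⟨_, hjq⟩ = g (xSer (zetaC q) k) := by
    have e : jv (1 : ℂˣ) q = qExpand ℂ q (jqModC ℂ) := Igusa.jv_one_eq_qExpand q
    refine Eq.trans ?_ (hk (e ▸ hjq))
    congr 2
  have hfφ : φ fE =
      g ((phiSer q (zetaC q)).derivative.eval (xSer (zetaC q) k)) := by
    rw [hfE, ← Polynomial.eval_map_apply, hxk, ← Polynomial.derivative_map, Polynomial.map_map,
      hcomp, ← Polynomial.map_map, hΦ', Polynomial.derivative_map]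
    exact Polynomial.eval_map_apply (f := g) _
  have hgφ : φ gE = g ((gSer q (zetaC q)).eval (xSer (zetaC q) k)) := by
    rw [hgE, ← Polynomial.eval_map_apply, hxk, Polynomial.map_map,
      hcomp, ← Polynomial.map_map, hGp]
    exact Polynomial.eval_map_apply (f := g) _
  rw [hprod, map_mul, hfφ, eval_gSer, map_mul] at hgφ
  have hne : g ((phiSer q (zetaC q)).derivative.eval (xSer (zetaC q) k)) ≠ 0 := by
    refine (map_ne_zero_iff _ g.injective).mpr ?_
    have hs : (phiSer q (zetaC q)).Separable := by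
      rw [← hΦ', ← mul_one q]
      exact hΦ.separable 1 1 one_ne_zero
    refine hs.eval₂_derivative_ne_zero (RingHom.id _) ?_
    rw [eval₂_id, phiSer, eval_prod]
    exact Finset.prod_eq_zero (Finset.mem_univ k) (by simp)
  exact mul_right_cancel₀ hne hgφ

/-- `t(qτ)` and `q¹²Δ(qτ)/Δ` have all `q + 1` standard conjugates over the level `n₀` field, and
the second generates the level `n₀ q` field. -/
theorem minpoly_eq_and_generates [NeZero q] (hn0 : n0 = n * n) (hqn : q ≠ n) :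
    (minpoly (modularFunctionFieldFullC ℂ n0) (qExpand ℂ q D.tC)).map (baseSigma q n0)
        = fSer (q := q) D.tC (zetaC q) ∧
      (minpoly (modularFunctionFieldFullC ℂ n0) (deltaQuot ℂ q)).map (baseSigma q n0)
        = hSer q (zetaC q) ∧
      modularFunctionFieldFullC ℂ n0 ⊔ ℂ⟮deltaQuot ℂ q⟯ = modularFunctionFieldFullC ℂ (n0 * q) := by
  classical
  set F₀ := modularFunctionFieldFullC ℂ n0 with hF₀
  have hqn0 : ¬ q ∣ n0 := by
    rw [hn0]
    intro h
    rcases hq.out.dvd_mul.mp h with h | h <;>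
      exact hqn ((Nat.prime_dvd_prime_iff_eq hq.out hn.out).mp h)
  have hle : F₀ ≤ modularFunctionFieldFullC ℂ (n0 * q) := le_fullC_mul (q := q)
  have hrel := relfinrank_fullC_mul (n0 := n0) hqn0
  let E := extendScalars hle
  have : FiniteDimensional F₀ E := FiniteDimensional.of_finrank_pos (by
    rw [← relfinrank_eq_finrank_of_le hle, hF₀, hrel]; exact Nat.succ_pos q)
  let Ω := AlgebraicClosure (LaurentSeries ℂ)
  let ι : LaurentSeries ℂ →+* Ω := algebraMap (LaurentSeries ℂ) Ω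
  let algΩ : Algebra F₀ Ω := ((ι.comp (sub (1 : ℂˣ) n0)).comp (baseSigma q n0)).toAlgebra
  have hι : Injective (ι.comp (sub (1 : ℂˣ) n0)) := RingHom.injective _
  -- conjugations
  have hlab : ∀ (x : E) (y : Ω), y ∈ (minpoly F₀ x).rootSet Ω →
      ∃ (φ : modularFunctionFieldFullC ℂ (n0 * q) →+* Ω) (k : OnePoint (ZMod q)),
        φ ⟨(x : LaurentSeries ℂ), x.2⟩ = y ∧
        (∀ (z : LaurentSeries ℂ) (_ : z ∈ F₀) (h : z ∈ modularFunctionFieldFullC ℂ (n0 * q)),
          φ ⟨z, h⟩ = ι (sub (1 : ℂˣ) n0 (qExpand ℂ q z))) ∧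
        (∀ h, φ ⟨qExpand ℂ q D.tC, h⟩ = ι (sub (1 : ℂˣ) n0 (fRoot D.tC (zetaC q) k))) ∧
        (∀ h, φ ⟨qExpand ℂ q (jqModC ℂ), h⟩ = ι (sub (1 : ℂˣ) n0 (xSer (zetaC q) k))) := by
    intro x y hy
    rw [← Algebra.IsAlgebraic.range_eval_eq_rootSet_minpoly (F := F₀) (K := E) Ω x] at hy
    obtain ⟨ψ, hψ⟩ := hy
    let φ : modularFunctionFieldFullC ℂ (n0 * q) →+* Ω :=
      ψ.toRingHom.comp
        { toFun := fun z => (⟨z.1, z.2⟩ : E)
          map_one' := rfl
          map_mul' := fun _ _ => rfl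
          map_zero' := rfl
          map_add' := fun _ _ => rfl }
    have hb : ∀ (z : LaurentSeries ℂ) (_ : z ∈ F₀) (h : z ∈ modularFunctionFieldFullC ℂ (n0 * q)),
        φ ⟨z, h⟩ = ι (sub (1 : ℂˣ) n0 (qExpand ℂ q z)) := fun z hz h => ψ.commutes ⟨z, hz⟩
    obtain ⟨k, hk1, hk2⟩ := D.exists_label hn0 hqn ι φ hb
    exact ⟨φ, k, hψ, hb, hk1, hk2⟩
  have hminE : ∀ x : E, minpoly F₀ x = minpoly F₀ (x : LaurentSeries ℂ) := fun x =>
    (minpoly.algHom_eq E.val Subtype.val_injective x).symm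
  -- `t(qτ)`
  have htmem : qExpand ℂ q D.tC ∈ modularFunctionFieldFullC ℂ (n0 * q) :=
    map_qExpand_le (q := q) ⟨D.tC, D.mem, rfl⟩
  let tE : E := ⟨_, htmem⟩
  have htint : IsIntegral F₀ (qExpand ℂ q D.tC) :=
    (isIntegral_algHom_iff E.val Subtype.val_injective).mpr (IsIntegral.of_finite F₀ tE)
  have htdeg : (minpoly F₀ tE).natDegree = Fintype.card (OnePoint (ZMod q)) := by
    rw [hminE, ← Igusa.relfinrank_adjoin_simple F₀ htint, hF₀, ← D.fullC_mul_eq, hrel,
      Igusa.card_onePoint]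
  obtain ⟨hmt, htinj, htrange⟩ := map_eq_prod_of_rootSet (Ω := Ω)
    (minpoly.monic (IsIntegral.of_finite F₀ tE)) (minpoly.irreducible (IsIntegral.of_finite F₀ tE))
    htdeg (fun k => ι (sub (1 : ℂˣ) n0 (fRoot D.tC (zetaC q) k))) fun y hy => by
      obtain ⟨φ, k, hφ, -, hk, -⟩ := hlab tE y hy
      exact ⟨k, (hk htmem).symm.trans hφ⟩
  have hsurj : ∀ k : OnePoint (ZMod q),
      ∃ φ : modularFunctionFieldFullC ℂ (n0 * q) →+* Ω,
        (∀ (z : LaurentSeries ℂ) (_ : z ∈ F₀) (h : z ∈ modularFunctionFieldFullC ℂ (n0 * q)),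
          φ ⟨z, h⟩ = ι (sub (1 : ℂˣ) n0 (qExpand ℂ q z))) ∧
        (∀ h, φ ⟨qExpand ℂ q (jqModC ℂ), h⟩ = ι (sub (1 : ℂˣ) n0 (xSer (zetaC q) k))) := by
    intro k
    obtain ⟨φ, k', hφ, hb, hk, hk2⟩ := hlab tE _ (htrange ⟨k, rfl⟩)
    obtain rfl : k' = k := htinj ((hk htmem).symm.trans hφ)
    exact ⟨φ, hb, hk2⟩
  obtain ⟨hymem, hconj⟩ := deltaQuot_mem_and_conj (q := q) (n0 := n0)
  let yE : E := ⟨_, hymem⟩
  have hyint : IsIntegral F₀ (deltaQuot ℂ q) :=
    (isIntegral_algHom_iff E.val Subtype.val_injective).mpr (IsIntegral.of_finite F₀ yE)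
  have hyval : ∀ k : OnePoint (ZMod q),
      ι (sub (1 : ℂˣ) n0 (ySer (zetaC q) k)) ∈ (minpoly F₀ yE).rootSet Ω := by
    intro k
    obtain ⟨φ, hb, hk⟩ := hsurj k
    have hφy : φ ⟨deltaQuot ℂ q, hymem⟩ = ι (sub (1 : ℂˣ) n0 (ySer (zetaC q) k)) :=
      hconj (ι.comp (sub (1 : ℂˣ) n0)) φ hb k hk
    rw [Polynomial.mem_rootSet]
    refine ⟨minpoly.ne_zero (IsIntegral.of_finite F₀ yE), ?_⟩
    let φA : E →ₐ[F₀] Ω :=
      { toRingHom := φ.comp
          { toFun := fun z => (⟨z.1, z.2⟩ : modularFunctionFieldFullC ℂ (n0 * q))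
            map_one' := rfl
            map_mul' := fun _ _ => rfl
            map_zero' := rfl
            map_add' := fun _ _ => rfl }
        commutes' := fun r => hb r.1 r.2 (hle r.2) }
    rw [← hφy, show φ ⟨deltaQuot ℂ q, hymem⟩ = φA yE from rfl, aeval_algHom_apply,
      minpoly.aeval, map_zero]
  have hycinj : Injective fun k : OnePoint (ZMod q) => ι (sub (1 : ℂˣ) n0 (ySer (zetaC q) k)) :=
    hι.comp (ySer_injective ((isPrimitiveRoot_zetaC q).of_map_of_injective
      (f := Units.coeHom ℂ) Units.val_injective))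
  have hsup : F₀ ⊔ ℂ⟮deltaQuot ℂ q⟯ ≤ modularFunctionFieldFullC ℂ (n0 * q) :=
    sup_le hle (adjoin_simple_le_iff.mpr hymem)
  obtain ⟨hmy, hydeg⟩ := map_eq_prod_of_subset_rootSet
    (minpoly.monic (IsIntegral.of_finite F₀ yE)) (minpoly.irreducible (IsIntegral.of_finite F₀ yE))
    (by
      rw [hminE, ← Igusa.relfinrank_adjoin_simple F₀ hyint, Igusa.card_onePoint, ← hrel, hF₀]
      exact Nat.le_of_dvd (by rw [hrel]; exact Nat.succ_pos q)
        ⟨_, (relfinrank_mul_relfinrank le_sup_left hsup).symm⟩)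
    hycinj (Set.range_subset_iff.mpr hyval)
  refine ⟨?_, ?_, ?_⟩
  · rw [← hminE tE]
    apply Polynomial.map_injective _ hι
    rw [Polynomial.map_map]
    refine hmt.trans ?_
    rw [fSer, Polynomial.map_prod]
    exact Finset.prod_congr rfl fun k _ => by simp
  · rw [← hminE yE]
    apply Polynomial.map_injective _ hι
    rw [Polynomial.map_map]
    refine hmy.trans ?_
    rw [hSer, Polynomial.map_prod]
    exact Finset.prod_congr rfl fun k _ => by simp
  · have h1 := relfinrank_mul_relfinrank (le_sup_left : F₀ ≤ _) hsup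
    rw [Igusa.relfinrank_adjoin_simple F₀ hyint, ← hminE yE, hydeg, Igusa.card_onePoint, hrel] at h1
    refine le_antisymm hsup (relfinrank_eq_one_iff.mp ?_)
    exact Nat.eq_of_mul_eq_mul_left (Nat.succ_pos q) (h1.trans (mul_one _).symm)

end BaseData

end Fermat.Agent.SquareLevel
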