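import Mathlib.RingTheory.Localization.Away.Basic
import Fermat.Agent.EichlerShimura.Series
import Fermat.Agent.SquareLevel.Hauptmodul.CycDescent
import Fermat.Agent.SquareLevel.Hauptmodul.Galois

/-!
# The modular equation between `t` and `t(qτ)` over `ℤ`
-/

noncomputable section

open Function Polynomial IntermediateField ModularCurve
open Fermat.Agent.Igusa (jv sub evalAt rootUnit rootExp xSer zetaC isPrimitiveRoot_zetaC CycInt
  cycHom cycHom_zeta cycHom_injective cycZeta phiSer)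

namespace Fermat.Agent.SquareLevel

variable {q : ℕ} [hq : Fact q.Prime]

theorem map_fSer {K L : Type*} [CommRing K] [CommRing L] (φ : K →+* L) (f : LaurentSeries K)
    (ζ : Kˣ) : (fSer (q := q) f ζ).map (coeffMap φ) =
      fSer (q := q) (coeffMap φ f) (Units.map (φ : K →* L) ζ) := by
  have : NeZero q := ⟨hq.out.ne_zero⟩
  simp [fSer, fRoot, Polynomial.map_prod, Igusa.map_rootUnit,
    Igusa.coeffMap_sub φ _ (Igusa.rootExp_ne_zero _)]

/-- The product only permutes its factors when `ζ` is replaced by `ζ^k`, `k` prime to `q`. -/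
theorem fSer_perm {K : Type*} [CommRing K] (f : LaurentSeries K) {ζ : Kˣ} (hζ : ζ ^ q = 1) {k : ℕ}
    (hk : Nat.Coprime k q) : fSer (q := q) f (ζ ^ k) = fSer (q := q) f ζ := by
  obtain ⟨σ, h1, h2, -⟩ := exists_rootUnit_perm hζ hk
  rw [fSer, fSer]
  refine Eq.trans (Finset.prod_congr rfl fun x _ => ?_) (σ.prod_comp _ _ (by simp))
  simp only [fRoot, h1, h2]

namespace BaseData

variable {n0 : ℕ} [NeZero n0] (D : BaseData n0) {n : ℕ} [hn : Fact n.Prime]

/-- `ℂ[T] → ℂ((u))`, `T ↦ t(u^q)`. -/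
def tuC (q : ℕ) [NeZero q] : ℂ[X] →+* LaurentSeries ℂ := evalAt (qExpand ℂ q D.tC)

omit [NeZero n0] in
theorem tuC_eq [NeZero q] (P : ℂ[X]) : D.tuC q P = qExpand ℂ q (evalAt D.tC P) := by
  rw [tuC, ← Igusa.sub_one_eq q (evalAt D.tC P), ← RingHom.comp_apply,
    Igusa.sub_evalAt 1 hq.out.ne_zero, Igusa.sub_one_eq]

omit [NeZero n0] in
theorem tuC_injective [NeZero q] : Injective (D.tuC q) := fun a b h => by
  rw [D.tuC_eq, D.tuC_eq] at h
  exact D.unitPole_tC.evalAt_injective (qExpand_injective q h)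

set_option maxSynthPendingDepth 3 in
/-- A coefficient of the product is a polynomial in `t` divided by a power of `G`. -/
theorem exists_coeff_poly [NeZero q] (hn0 : n0 = n * n) (hqn : q ≠ n) (i : ℕ) :
    ∃ (N : ℂ[X]) (e : ℕ), D.tuC q N =
      D.tuC q (D.G.map (Int.castRingHom ℂ)) ^ e * (fSer (q := q) D.tC (zetaC q)).coeff i := by
  classical
  set G : ℂ[X] := D.G.map (Int.castRingHom ℂ) with hG
  have hG0 : G ≠ 0 := (D.G_monic.map _).ne_zero
  have hunit : IsUnit (D.tuC q G) :=
    Ne.isUnit fun h => hG0 (D.tuC_injective (h.trans (map_zero _).symm))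
  suffices H : ∀ (A : Type) [CommRing A] [Algebra ℂ[X] A] [IsLocalization.Away G A],
      ∃ (N : ℂ[X]) (e : ℕ), D.tuC q N = D.tuC q G ^ e *
        (fSer (q := q) D.tC (zetaC q)).coeff i from H (Localization.Away G)
  intro A _ _ _
  let f : A →+* LaurentSeries ℂ := IsLocalization.Away.lift G (S := A) hunit
  have hf : ∀ P : ℂ[X], f (algebraMap ℂ[X] A P) = D.tuC q P := fun P =>
    IsLocalization.Away.lift_eq G hunit P
  have hM : Submonoid.powers G ≤ nonZeroDivisors ℂ[X] :=
    powers_le_nonZeroDivisors_of_noZeroDivisors hG0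
  have : IsDomain A := IsLocalization.isDomain_of_le_nonZeroDivisors A hM
  have : IsIntegrallyClosed A := isIntegrallyClosed_of_isLocalization A (Submonoid.powers G) hM
  have hfinj : Injective f := by
    rw [injective_iff_map_eq_zero]
    intro a ha
    obtain ⟨m, a', h⟩ := IsLocalization.Away.surj G a
    have h2 := congrArg f h
    rw [map_mul, map_pow, ha, zero_mul, hf] at h2
    have ha' : a' = 0 := D.tuC_injective (h2.symm.trans (map_zero _).symm)
    rw [ha', map_zero] at h
    exact (IsLocalization.Away.algebraMap_pow_isUnit G m).mul_left_eq_zero.mp h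
  let algA : Algebra A (LaurentSeries ℂ) := f.toAlgebra
  set B := integralClosure A (LaurentSeries ℂ)
  -- `j` is in `A`
  set P : ℂ[X] := (D.P4 ^ 3).map (Int.castRingHom ℂ) with hP
  have hjrel : jv (1 : ℂˣ) q * D.tuC q G = D.tuC q P := by
    have h := congrArg (fun x => qExpand ℂ q (coeffMap (Int.castRingHom ℂ) x)) D.jrel
    simp only [map_mul, Igusa.coeffMap_evalAt, coeffMap_jqModC] at h
    rw [Igusa.jv_one_eq_qExpand, D.tuC_eq, D.tuC_eq, hG, hP]
    exact h
  obtain ⟨gi, hgi⟩ := (IsLocalization.Away.algebraMap_isUnit G (S := A)).exists_right_inv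
  have hj : f (algebraMap ℂ[X] A P * gi) = jv (1 : ℂˣ) q := by
    refine mul_right_cancel₀ hunit.ne_zero ?_
    rw [hjrel, ← hf G, ← map_mul f, mul_assoc (algebraMap ℂ[X] A P), mul_comm gi, hgi, mul_one, hf]
  -- the roots are integral
  obtain ⟨Φ, hΦ⟩ := Igusa.exists_phiC (p := q)
  have hΦm := (Igusa.isModPoly_of_map_eq (isPrimitiveRoot_zetaC q) hΦ).monic
  let g : ℂ[X] →+* A := eval₂RingHom ((algebraMap ℂ[X] A).comp C) (algebraMap ℂ[X] A P * gi)
  have hfg : f.comp g = evalAt (jv (1 : ℂˣ) q) := by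
    refine Polynomial.ringHom_ext (fun a => ?_) ?_
    · simp only [g, RingHom.comp_apply, coe_eval₂RingHom, eval₂_C, Igusa.evalAt_C, hf, tuC]
    · simp only [g, RingHom.comp_apply, coe_eval₂RingHom, eval₂_X, hj, Igusa.evalAt_X]
  have hx : ∀ k : OnePoint (ZMod q), xSer (zetaC q) k ∈ B := by
    intro k
    refine ⟨Φ.map g, hΦm.map _, ?_⟩
    show eval₂ f (xSer (zetaC q) k) (Φ.map g) = 0
    rw [eval₂_eq_eval_map, Polynomial.map_map, hfg, hΦ, phiSer, eval_prod]
    exact Finset.prod_eq_zero (Finset.mem_univ k) (by simp)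
  have hroot : ∀ k : OnePoint (ZMod q), fRoot D.tC (zetaC q) k ∈ B := by
    intro k
    set r := fRoot D.tC (zetaC q) k with hr
    have hm : rootExp q k ≠ 0 := Igusa.rootExp_ne_zero k
    let c : ℂ →+* B := (algebraMap A B).comp ((algebraMap ℂ[X] A).comp C)
    have hc : ∀ Q : ℂ[X], eval₂ (algebraMap B (LaurentSeries ℂ)) r (Q.map c) = evalAt r Q := by
      intro Q
      rw [eval₂_map]
      refine congrArg (fun h : ℂ →+* LaurentSeries ℂ => eval₂ h r Q) (RingHom.ext fun a => ?_)
      show f (algebraMap ℂ[X] A (C a)) = _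
      rw [hf, tuC, Igusa.evalAt_C]
    have hdeg : G.natDegree < P.natDegree := by
      rw [hG, hP, D.G_monic.natDegree_map, D.P_monic.natDegree_map]
      exact D.G_degree
    have hmon : (P.map c - C (⟨_, hx k⟩ : B) * G.map c).Monic := by
      have hPm : (P.map c).Monic := (D.P_monic.map _).map c
      refine hPm.sub_of_left (lt_of_le_of_lt (degree_mul_le _ _) ?_)
      refine lt_of_le_of_lt (add_le_add degree_C_le (degree_le_natDegree)) ?_
      rw [zero_add, degree_eq_natDegree hPm.ne_zero]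
      rw [(D.P_monic.map (Int.castRingHom ℂ)).natDegree_map]
      exact WithBot.coe_lt_coe.mpr (lt_of_le_of_lt natDegree_map_le hdeg)
    refine isIntegral_trans (R := A) (A := B) r ⟨_, hmon, ?_⟩
    rw [eval₂_sub, eval₂_mul, eval₂_C, hc, hc, sub_eq_zero]
    show evalAt r P = xSer (zetaC q) k * evalAt r G
    have h := congrArg (fun x => sub (rootUnit (zetaC q) k) (rootExp q k)
      (coeffMap (Int.castRingHom ℂ) x)) D.jrel
    have hev : ∀ (y : LaurentSeries ℂ) (Q : ℂ[X]), sub (rootUnit (zetaC q) k) (rootExp q k)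
        (evalAt y Q) = evalAt (sub (rootUnit (zetaC q) k) (rootExp q k) y) Q := fun y Q =>
      RingHom.congr_fun (Igusa.sub_evalAt _ hm y) Q
    simp only [map_mul, Igusa.coeffMap_evalAt, coeffMap_jqModC, hev] at h
    exact h.symm
  have hco : IsIntegral A ((fSer (q := q) D.tC (zetaC q)).coeff i) := by
    have h : (∏ k : OnePoint (ZMod q), (X - C (⟨_, hroot k⟩ : B))).map (algebraMap B _) =
        fSer (q := q) D.tC (zetaC q) := by
      simp only [Polynomial.map_prod, Polynomial.map_sub, Polynomial.map_X, Polynomial.map_C, fSer]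
      rfl
    rw [← h, Polynomial.coeff_map]
    exact ((∏ k : OnePoint (ZMod q), (X - C (⟨_, hroot k⟩ : B))).coeff i).2
  -- it is a rational function of `t`
  obtain ⟨hgal, -, -⟩ := D.minpoly_eq_and_generates hn0 hqn
  have hci := congrArg (fun F : Polynomial (LaurentSeries ℂ) => F.coeff i) hgal
  simp only [Polynomial.coeff_map] at hci
  set z := (minpoly (modularFunctionFieldFullC ℂ n0) (qExpand ℂ q D.tC)).coeff i
  have hz : (z : LaurentSeries ℂ) ∈ ℂ⟮D.tC⟯ := by rw [← D.fullC_eq]; exact z.2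
  obtain ⟨r, s, hzrs⟩ := IntermediateField.mem_adjoin_simple_iff ℂ _ |>.mp hz
  obtain ⟨r, s, hs, hrs⟩ : ∃ r s : ℂ[X], s ≠ 0 ∧
      (fSer (q := q) D.tC (zetaC q)).coeff i = D.tuC q r / D.tuC q s := by
    rw [Igusa.aeval_eq_evalAt, Igusa.aeval_eq_evalAt] at hzrs
    by_cases hs : s = 0
    · refine ⟨0, 1, one_ne_zero, ?_⟩
      rw [hs, map_zero, div_zero] at hzrs
      rw [← hci, map_zero, zero_div]
      show qExpand ℂ q (z : LaurentSeries ℂ) = 0
      rw [hzrs, map_zero]
    · refine ⟨r, s, hs, ?_⟩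
      rw [← hci, D.tuC_eq, D.tuC_eq]
      show qExpand ℂ q (z : LaurentSeries ℂ) = _
      rw [hzrs, map_div₀]
  obtain ⟨Q, hQm, hQ⟩ := hco
  obtain ⟨a, ha⟩ := Igusa.exists_eq_of_integral_div f hfinj (algebraMap _ A r) (algebraMap _ A s) Q
    hQm (by rw [hf, hf, ← hrs]; exact hQ)
  obtain ⟨m, N, hN⟩ := IsLocalization.Away.surj G a
  refine ⟨N, m, ?_⟩
  rw [hrs, ← hf r, ← hf s, ← ha, ← hf N, ← hN, map_mul, map_pow, hf, mul_comm]

/-- `ℤ[T] → ℤ[ζ_q]((u))`, `T ↦ t(u^q)`. -/
def tuCyc (q : ℕ) [Fact q.Prime] [NeZero q] : ℤ[X] →+* LaurentSeries (CycInt q) :=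
  (coeffMap (Int.castRingHom (CycInt q))).comp ((qExpand ℤ q).comp (evalAt D.t))

omit [NeZero n0] in
theorem coeffMap_tuCyc [NeZero q] {K : Type*} [CommRing K] (φ : CycInt q →+* K) (P : ℤ[X]) :
    coeffMap φ (D.tuCyc q P) =
      qExpand K q (evalAt (coeffMap (Int.castRingHom K) D.t) (P.map (Int.castRingHom K))) := by
  rw [tuCyc, RingHom.comp_apply, RingHom.comp_apply, coeffMap_coeffMap,
    RingHom.ext_int (φ.comp (Int.castRingHom _)) (Int.castRingHom K), coeffMap_qExpand,
    Igusa.coeffMap_evalAt]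

/-- The coefficients of the product, times a power of `G`, are integral polynomials in `t`. -/
theorem exists_coeff_int [NeZero q] (hn0 : n0 = n * n) (hqn : q ≠ n) (i : ℕ) :
    ∃ (N : ℤ[X]) (e : ℕ), D.tuCyc q N = D.tuCyc q D.G ^ e *
      (fSer (q := q) (coeffMap (Int.castRingHom (CycInt q)) D.t) (cycZeta q)).coeff i := by
  obtain ⟨N, e, hN⟩ := D.exists_coeff_poly hn0 hqn (q := q) i
  set F := D.tuCyc q D.G ^ e *
    (fSer (q := q) (coeffMap (Int.castRingHom (CycInt q)) D.t) (cycZeta q)).coeff i with hF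
  have himg : ∀ (ω : ℂˣ) (hω : IsPrimitiveRoot (ω : ℂ) q),
      coeffMap (cycHom q hω) F = D.tuC q (D.G.map (Int.castRingHom ℂ)) ^ e *
        (fSer (q := q) D.tC ω).coeff i := by
    intro ω hω
    rw [hF, map_mul, map_pow, D.coeffMap_tuCyc, D.tuC_eq, ← Polynomial.coeff_map, map_fSer,
      cycHom_zeta, coeffMap_coeffMap,
      RingHom.ext_int ((cycHom q hω).comp (Int.castRingHom _)) (Int.castRingHom ℂ)]
    rfl
  obtain ⟨F0, hF0⟩ := exists_int_series F fun ω hω => by
    obtain ⟨k, hk, rfl⟩ := (isPrimitiveRoot_zetaC q).eq_pow_of_pow_eq_one hω.pow_eq_one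
    have hk' : Nat.Coprime k q :=
      ((isPrimitiveRoot_zetaC q).pow_iff_coprime hq.out.pos k).mp hω
    have h1 := himg (zetaC q ^ k) (by simpa using hω)
    rw [fSer_perm _ (Units.ext (by simpa using (isPrimitiveRoot_zetaC q).pow_eq_one)) hk',
      ← himg (zetaC q) (isPrimitiveRoot_zetaC q)] at h1
    refine Eq.trans ?_ h1
    congr 2
  have h0 : coeffMap (Int.castRingHom ℂ) F0 = qExpand ℂ q (evalAt D.tC N) := by
    rw [← D.tuC_eq, hN, ← himg (zetaC q) (isPrimitiveRoot_zetaC q), ← hF0, coeffMap_coeffMap,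
      RingHom.ext_int ((cycHom q _).comp (Int.castRingHom _)) (Int.castRingHom ℂ)]
  obtain ⟨F', hF', hF''⟩ := exists_qExpand_descend Int.cast_injective q F0 _ h0
  obtain ⟨Nz, -, hNz⟩ := D.pole.exists_lift Int.cast_injective N F' hF''.symm
  refine ⟨Nz, e, ?_⟩
  rw [tuCyc, RingHom.comp_apply, RingHom.comp_apply, hNz, hF', hF0, hF, tuCyc]

/-- The modular equation, with leading coefficient a power of `G`. -/
theorem exists_modEq [NeZero q] (hn0 : n0 = n * n) (hqn : q ≠ n) :
    ∃ (Φ : Polynomial (Polynomial ℤ)) (e : ℕ), Φ.natDegree = q + 1 ∧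
      Φ.leadingCoeff = D.G ^ e ∧
      Φ.map (D.tuCyc q) = C (D.tuCyc q D.G ^ e) *
        fSer (q := q) (coeffMap (Int.castRingHom (CycInt q)) D.t) (cycZeta q) := by
  classical
  set S := fSer (q := q) (coeffMap (Int.castRingHom (CycInt q)) D.t) (cycZeta q)
  choose N e hN using fun i => D.exists_coeff_int hn0 hqn (q := q) i
  set E := ∑ i ∈ Finset.range (q + 1), e i
  set Ψ : Polynomial (Polynomial ℤ) := C (D.G ^ E) * X ^ (q + 1) +
    ∑ i ∈ Finset.range (q + 1), monomial i (N i * D.G ^ (E - e i)) with hΨ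
  have hlt : ∀ j, q + 1 ≤ j →
      (∑ i ∈ Finset.range (q + 1), monomial i (N i * D.G ^ (E - e i))).coeff j = 0 := by
    intro j hj
    rw [finsetSum_coeff]
    refine Finset.sum_eq_zero fun i hi => ?_
    rw [Finset.mem_range] at hi
    rw [coeff_monomial, if_neg (by omega)]
  have hGE : D.G ^ E ≠ 0 := pow_ne_zero _ D.G_monic.ne_zero
  have hcoeff : ∀ j, Ψ.coeff j = (if j = q + 1 then D.G ^ E else 0) +
      if j < q + 1 then N j * D.G ^ (E - e j) else 0 := by
    intro j
    rw [hΨ, coeff_add, coeff_C_mul_X_pow, finsetSum_coeff]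
    simp only [coeff_monomial, Finset.sum_ite_eq', Finset.mem_range]
  have hdeg : Ψ.natDegree = q + 1 := by
    refine natDegree_eq_of_le_of_coeff_ne_zero (natDegree_le_iff_coeff_eq_zero.mpr
      fun j hj => ?_) ?_
    · rw [hcoeff, if_neg (by omega), if_neg (by omega), add_zero]
    · rw [hcoeff, if_pos rfl, if_neg (by omega), add_zero]
      exact hGE
  refine ⟨Ψ, E, hdeg, ?_, ?_⟩
  · rw [leadingCoeff, hdeg, hcoeff, if_pos rfl, if_neg (by omega), add_zero]
  ext j : 1
  rw [Polynomial.coeff_map, coeff_C_mul, hcoeff]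
  rcases lt_trichotomy j (q + 1) with hj | rfl | hj
  · rw [if_neg hj.ne, if_pos hj, zero_add, map_mul, hN, map_pow, mul_comm, ← mul_assoc, ← pow_add,
      Nat.sub_add_cancel (Finset.single_le_sum (f := e) (fun i _ => Nat.zero_le _)
        (Finset.mem_range.mpr hj))]
  · have h1 : S.coeff (q + 1) = 1 := by
      have : Nontrivial (CycInt q) :=
        (cycHom q (isPrimitiveRoot_zetaC q)).domain_nontrivial
      have := (monic_fSer (q := q) (coeffMap (Int.castRingHom (CycInt q)) D.t) (cycZeta q))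
      rw [Monic, leadingCoeff, natDegree_fSer] at this
      exact this
    rw [if_pos rfl, if_neg (by omega), add_zero, h1, mul_one, map_pow]
  · rw [if_neg hj.ne', if_neg (by omega), add_zero, map_zero]
    have : Nontrivial (CycInt q) := (cycHom q (isPrimitiveRoot_zetaC q)).domain_nontrivial
    rw [coeff_eq_zero_of_natDegree_lt (by rw [natDegree_fSer]; exact hj), mul_zero]

variable [NeZero q] {Φ : Polynomial (Polynomial ℤ)} {e : ℕ}

omit [NeZero n0] in
theorem eval_root_eq_zero
    (hΦ : Φ.map (D.tuCyc q) = C (D.tuCyc q D.G ^ e) *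
        fSer (q := q) (coeffMap (Int.castRingHom (CycInt q)) D.t) (cycZeta q))
    (k : OnePoint (ZMod q)) :
    Φ.eval₂ (D.tuCyc q) (fRoot (coeffMap (Int.castRingHom (CycInt q)) D.t) (cycZeta q) k) = 0 := by
  rw [eval₂_eq_eval_map, hΦ, eval_mul, fSer, eval_prod, Finset.prod_eq_zero (Finset.mem_univ k),
    mul_zero]
  simp

theorem aeval_toRingHom (x : LaurentSeries ℤ) : (aeval x).toRingHom = evalAt x :=
  Polynomial.ringHom_ext (fun a => by simp) (by simp)

omit [NeZero q] in
theorem cycCast_injective : Injective (coeffMap (Int.castRingHom (CycInt q))) := by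
  refine EichlerShimura.coeffMap_injective fun a b h => ?_
  have := congrArg (cycHom q (isPrimitiveRoot_zetaC q)) h
  simpa using this

omit [NeZero n0] in
/-- `t(qτ)` is a root over `t`. -/
theorem modEq_relation
    (hΦ : Φ.map (D.tuCyc q) = C (D.tuCyc q D.G ^ e) *
        fSer (q := q) (coeffMap (Int.castRingHom (CycInt q)) D.t) (cycZeta q)) :
    Φ.eval₂ (aeval D.t).toRingHom (qExpand ℤ q D.t) = 0 := by
  have h := D.eval_root_eq_zero hΦ OnePoint.infty
  refine qExpand_injective (R := ℤ) q (cycCast_injective (q := q) ?_)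
  rw [map_zero, map_zero, aeval_toRingHom, hom_eval₂, hom_eval₂]
  refine Eq.trans ?_ h
  congr 1
  show _ = sub (1 : (CycInt q)ˣ) (q * q) _
  rw [Igusa.sub_one_eq, qExpand_qExpand, coeffMap_qExpand]

omit [NeZero n0] in
/-- `t` is a root over `t(qτ)`. -/
theorem modEq_relation_symm
    (hΦ : Φ.map (D.tuCyc q) = C (D.tuCyc q D.G ^ e) *
        fSer (q := q) (coeffMap (Int.castRingHom (CycInt q)) D.t) (cycZeta q)) :
    Φ.eval₂ (aeval (qExpand ℤ q D.t)).toRingHom D.t = 0 := by
  have h := D.eval_root_eq_zero hΦ ((0 : ZMod q) : OnePoint (ZMod q))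
  refine cycCast_injective (q := q) ?_
  rw [map_zero, aeval_toRingHom, hom_eval₂]
  refine Eq.trans ?_ h
  congr 1
  · rw [tuCyc]
    congr 1
    exact Polynomial.ringHom_ext (fun a => by simp) (by simp)
  · show _ = sub (cycZeta q ^ (0 : ZMod q).val) 1 _
    rw [ZMod.val_zero, pow_zero, Igusa.sub_one_eq, qExpand_one_apply]

variable (q) in
/-- `ℤ[ζ_q] → F_q`. -/
def cycRed : CycInt q →+* ZMod q :=
  AdjoinRoot.lift (Int.castRingHom (ZMod q)) 1 (by
    rw [eval₂_eq_eval_map, map_cyclotomic, eval_one_cyclotomic_prime, ZMod.natCast_self])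

omit [NeZero q] in
theorem cycRed_zeta : Units.map (cycRed q : CycInt q →* ZMod q) (cycZeta q) = 1 := by
  ext
  show cycRed q (AdjoinRoot.root _) = 1
  rw [cycRed, AdjoinRoot.lift_root]

theorem pow_eq_qExpand (x : LaurentSeries (ZMod q)) : x ^ q = qExpand (ZMod q) q x := by
  rw [EichlerShimura.pow_char_eq_qExpand q x, ZMod.frobenius_zmod]
  congr 1

omit [NeZero n0] in
/-- Kronecker's congruence. -/
theorem modEq_kronecker
    (hΦ : Φ.map (D.tuCyc q) = C (D.tuCyc q D.G ^ e) *
        fSer (q := q) (coeffMap (Int.castRingHom (CycInt q)) D.t) (cycZeta q)) :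
    Φ.map (mapRingHom (Int.castRingHom (ZMod q))) =
      C ((D.G ^ e).map (Int.castRingHom (ZMod q))) *
        ((C (X ^ q) - X) * (C X - X ^ q)) := by
  set t := coeffMap (Int.castRingHom (ZMod q)) D.t
  set U := qExpand (ZMod q) q t with hU
  have hinj : Injective (evalAt U) := by
    intro a b h
    rw [hU, ← Igusa.sub_one_eq q t, ← Igusa.sub_evalAt 1 hq.out.ne_zero, RingHom.comp_apply,
      RingHom.comp_apply] at h
    exact (D.pole.map _).evalAt_injective (Igusa.sub_injective 1 hq.out.ne_zero h)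
  refine Polynomial.map_injective (evalAt U) hinj ?_
  have hcomp : (evalAt U).comp (mapRingHom (Int.castRingHom (ZMod q))) =
      (coeffMap (cycRed q)).comp (D.tuCyc q) := by
    refine RingHom.ext fun P => ?_
    rw [RingHom.comp_apply, RingHom.comp_apply, D.coeffMap_tuCyc, coe_mapRingHom, hU,
      ← Igusa.sub_one_eq q t, ← Igusa.sub_evalAt 1 hq.out.ne_zero, RingHom.comp_apply,
      Igusa.sub_one_eq]
  rw [Polynomial.map_map, hcomp, ← Polynomial.map_map, hΦ]
  simp only [Polynomial.map_mul, Polynomial.map_C, map_fSer, cycRed_zeta, Polynomial.map_sub,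
    Polynomial.map_X, Polynomial.map_pow, map_pow, Igusa.evalAt_X]
  rw [coeffMap_coeffMap,
    RingHom.ext_int ((cycRed q).comp (Int.castRingHom _)) (Int.castRingHom (ZMod q)),
    ← RingHom.comp_apply (coeffMap (cycRed q)), ← hcomp, RingHom.comp_apply, coe_mapRingHom]
  congr 1
  rw [fSer]
  have hstep : ∀ g : OnePoint (ZMod q) → Polynomial (LaurentSeries (ZMod q)),
      ∏ x, g x = g OnePoint.infty * ∏ b : ZMod q, g (b : OnePoint (ZMod q)) := fun g =>
    Fintype.prod_option g
  rw [hstep]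
  have hb : ∀ b : ZMod q, fRoot t (1 : (ZMod q)ˣ) (b : OnePoint (ZMod q)) = t := fun b => by
    show sub ((1 : (ZMod q)ˣ) ^ b.val) 1 t = t
    rw [one_pow, Igusa.sub_one_eq, qExpand_one_apply]
  have hi : fRoot t (1 : (ZMod q)ˣ) (OnePoint.infty : OnePoint (ZMod q)) = U ^ q := by
    show sub (1 : (ZMod q)ˣ) (q * q) t = _
    rw [Igusa.sub_one_eq, pow_eq_qExpand, hU, qExpand_qExpand]
  show (X - C _) * ∏ b : ZMod q, (X - C _) = _
  rw [hi, Finset.prod_congr rfl fun b _ => by rw [hb b],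
    Finset.prod_const, Finset.card_univ, ZMod.card]
  rw [hU, ← pow_eq_qExpand t]
  have : CharP (LaurentSeries (ZMod q)) q :=
    charP_of_injective_ringHom (HahnSeries.C_injective (Γ := ℤ) (R := ZMod q)) q
  rw [sub_pow_char (p := q)]
  simp only [map_pow]
  ring

end BaseData

end Fermat.Agent.SquareLevel
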