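import Fermat.Agent.SquareLevel.Hauptmodul.DeltaEq

/-!
# Identities modulo `q` for the modular equation of the Hauptmodul
-/

noncomputable section

open Function Polynomial ModularCurve
open Fermat.Agent.Igusa (evalAt CycInt cycZeta hSer jv)

namespace Fermat.Agent.SquareLevel

section Defs

variable {R : Type*} [CommRing R]

/-- `E(T, T^q)`. -/
def diagA (q : ℕ) (E : Polynomial (Polynomial R)) : Polynomial R := E.eval (X ^ q)

/-- `E(T^q, T)`. -/
def diagB (q : ℕ) (E : Polynomial (Polynomial R)) : Polynomial R :=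
  E.eval₂ (eval₂RingHom C (X ^ q)) X

/-- `L (T^(q²) - T)`. -/
def branchM (q : ℕ) (L : Polynomial R) : Polynomial R := L * (X ^ (q * q) - X)

/-- `T^(q-1) M² - φ' M + φ M'`. -/
def bracket (q : ℕ) (L φ : Polynomial R) : Polynomial R :=
  X ^ (q - 1) * branchM q L ^ 2 - φ.derivative * branchM q L + φ * (branchM q L).derivative

/-- `h(P/G) G^(deg h)`. -/
def homEval (h P G : Polynomial R) : Polynomial R :=
  ∑ i ∈ Finset.range (h.natDegree + 1), C (h.coeff i) * P ^ i * G ^ (h.natDegree - i)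

theorem map_homEval {S : Type*} [CommRing S] (φ : Polynomial R →+* S) (h P G : Polynomial R) {x : S}
    (hx : x * φ G = φ P) :
    φ (homEval h P G) = h.eval₂ (φ.comp C) x * φ G ^ h.natDegree := by
  rw [homEval, map_sum, eval₂_eq_sum_range, Finset.sum_mul]
  refine Finset.sum_congr rfl fun i hi => ?_
  rw [map_mul, map_mul, map_pow, map_pow, RingHom.comp_apply, ← hx, mul_pow]
  rw [Finset.mem_range] at hi
  conv_rhs => rw [show h.natDegree = i + (h.natDegree - i) by omega, pow_add]
  ring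

end Defs

variable {q : ℕ} [hq : Fact q.Prime]

/-- `ℤ[T] → F_q[T]`. -/
abbrev redPoly (q : ℕ) : ℤ[X] →+* (ZMod q)[X] := mapRingHom (Int.castRingHom (ZMod q))

theorem exists_eq_mul_of_coeffMap_eq_zero (z : LaurentSeries ℤ)
    (h : coeffMap (Int.castRingHom (ZMod q)) z = 0) :
    ∃ y : LaurentSeries ℤ, z = (q : LaurentSeries ℤ) * y := by
  refine ⟨{ coeff := fun n => z.coeff n / q
            isPWO_support' := z.isPWO_support.mono fun n hn h0 => hn (by simp [h0]) }, ?_⟩
  ext n
  rw [← nsmul_eq_mul, HahnSeries.coeff_nsmul, Pi.smul_apply, nsmul_eq_mul]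
  show z.coeff n = (q : ℤ) * (z.coeff n / q)
  refine (Int.mul_ediv_cancel' ((ZMod.intCast_zmod_eq_zero_iff_dvd _ _).mp ?_)).symm
  simpa using congrArg (fun f : LaurentSeries (ZMod q) => f.coeff n) h

theorem natCast_laurent_ne_zero : (q : LaurentSeries ℤ) ≠ 0 := fun h => by
  have := congrArg (fun f : LaurentSeries ℤ => f.coeff 0) h
  rw [show (q : LaurentSeries ℤ) = HahnSeries.C (q : ℤ) by rw [map_natCast],
    HahnSeries.C_apply] at this
  simp [hq.out.ne_zero] at this

/-- Writing an equation congruent to Kronecker's as `L·K + q E`. -/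
theorem exists_kronecker_exact {Φ : Polynomial (Polynomial ℤ)} {L : ℤ[X]}
    (h : Φ.map (redPoly q) = C (redPoly q L) * ((C (X ^ q) - X) * (C X - X ^ q))) :
    ∃ E : Polynomial (Polynomial ℤ),
      Φ = C L * ((C (X ^ q) - X) * (C X - X ^ q)) + C (C (q : ℤ)) * E := by
  have h0 : (Φ - C L * ((C (X ^ q) - X) * (C X - X ^ q))).map (redPoly q) = 0 := by
    rw [Polynomial.map_sub, h]
    simp
  obtain ⟨E, hE⟩ : C (C (q : ℤ)) ∣ Φ - C L * ((C (X ^ q) - X) * (C X - X ^ q)) := by
    rw [C_dvd_iff_dvd_coeff]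
    intro i
    rw [C_dvd_iff_dvd_coeff]
    intro j
    have := congrArg (fun P : Polynomial (ZMod q)[X] => (P.coeff i).coeff j) h0
    simp only [Polynomial.coeff_map, coe_mapRingHom, Polynomial.coeff_zero, eq_intCast] at this
    exact (ZMod.intCast_zmod_eq_zero_iff_dvd _ _).mp this
  exact ⟨E, by rw [← hE]; ring⟩

namespace BaseData

variable {n0 : ℕ} [NeZero n0] (D : BaseData n0) [NeZero q]

omit hq [NeZero n0] [NeZero q] in
theorem unitPole_red : UnitPole (coeffMap (Int.castRingHom (ZMod q)) D.t) := D.pole.map _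

/-- `T ↦ t mod q`. -/
def redAt (q : ℕ) : (ZMod q)[X] →+* LaurentSeries (ZMod q) :=
  evalAt (coeffMap (Int.castRingHom (ZMod q)) D.t)

omit hq [NeZero n0] [NeZero q] in
theorem redAt_redPoly (P : ℤ[X]) :
    D.redAt q (redPoly q P) = coeffMap (Int.castRingHom (ZMod q)) (evalAt D.t P) := by
  rw [redAt, coe_mapRingHom, Igusa.coeffMap_evalAt]

omit [NeZero n0] in
/-- Modulo `q`: the modular equation is `G^e` times Kronecker's plus `q E`, the equation of the
Delta quotient is `Y^(q+1) + h Y`, and `E(T^q, T)`, `E(T, T^q)` and `h(j)` are related. -/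
theorem exists_identities_mod {Φ : Polynomial (Polynomial ℤ)} {e : ℕ}
    (hΦ : Φ.map (D.tuCyc q) = C (D.tuCyc q D.G ^ e) *
        fSer (q := q) (coeffMap (Int.castRingHom (CycInt q)) D.t) (cycZeta q))
    {H : Polynomial (Polynomial ℤ)}
    (hH : H.map ((coeffMap (Int.castRingHom (CycInt q))).comp (evalAt (jv (1 : ℤˣ) q))) =
        hSer q (cycZeta q)) :
    ∃ (E : Polynomial (Polynomial ℤ)) (h : (ZMod q)[X]),
      Φ = C (D.G ^ e) * ((C (X ^ q) - X) * (C X - X ^ q)) + C (C (q : ℤ)) * E ∧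
      H.map (redPoly q) = X ^ (q + 1) + C h * X ∧
      diagB q (E.map (redPoly q)) * redPoly q (D.G ^ e) =
        redPoly q (D.G ^ e) ^ q * diagA q (E.map (redPoly q)) ∧
      bracket q (redPoly q (D.G ^ e)) (diagA q (E.map (redPoly q))) ^ 6 *
          redPoly q D.g0 ^ (6 * (q - 1)) * homEval h (redPoly q (D.P4 ^ 3)) (redPoly q D.G) =
        -(redPoly q D.G ^ (5 * (q - 1) + h.natDegree) *
          branchM q (redPoly q (D.G ^ e)) ^ 12) := by
  obtain ⟨E, hE⟩ := exists_kronecker_exact (L := D.G ^ e) (D.modEq_kronecker hΦ)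
  obtain ⟨h, hHq, hh⟩ := deltaEq_red hH
  refine ⟨E, h, hE, hHq, ?_⟩
  have : CharP (LaurentSeries (ZMod q)) q :=
    charP_of_injective_ringHom (HahnSeries.C_injective (Γ := ℤ) (R := ZMod q)) q
  set φq := coeffMap (Int.castRingHom (ZMod q))
  set t := D.t
  set tq := qExpand ℤ q t with htq
  set T := φq t with hT
  set η := D.redAt q with hη
  have hηX : η X = T := Igusa.evalAt_X _
  have hηinj : Injective η := D.unitPole_red.evalAt_injective
  have htqbar : φq tq = T ^ q := by
    rw [htq, coeffMap_qExpand, BaseData.pow_eq_qExpand]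
  obtain ⟨δ, hδ⟩ := exists_eq_mul_of_coeffMap_eq_zero (q := q) (t ^ q - tq) (by
    show φq (t ^ q - tq) = 0
    rw [map_sub, map_pow, htqbar, sub_self])
  have hq0 := natCast_laurent_ne_zero (q := q)
  set Ē := E.map (redPoly q) with hĒ
  set L := redPoly q (D.G ^ e) with hL
  set M := branchM q L with hM
  -- the equation at `(t, t(qτ))`
  have hA : η M * φq δ = η (diagA q Ē) := by
    have h0 := D.modEq_relation hΦ
    rw [hE, aeval_toRingHom] at h0
    simp only [eval₂_add, eval₂_mul, eval₂_sub, eval₂_C, eval₂_X, eval₂_pow, map_pow,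
      Igusa.evalAt_X, Igusa.evalAt_C] at h0
    rw [show HahnSeries.C (q : ℤ) = (q : LaurentSeries ℤ) by rw [map_natCast],
      show t ^ q - tq = _ from hδ] at h0
    have h1 : evalAt t D.G ^ e * δ * (t - tq ^ q) + E.eval₂ (evalAt t) tq = 0 :=
      mul_left_cancel₀ hq0 (by rw [mul_zero]; linear_combination h0)
    have h2 := congrArg φq h1
    have hev : φq (E.eval₂ (evalAt t) tq) = η (diagA q Ē) := by
      rw [diagA, hĒ, hom_eval₂, eval_map, hom_eval₂, map_pow, hηX, ← htqbar]
      congr 1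
      exact RingHom.ext fun P => (D.redAt_redPoly P).symm
    rw [map_add, map_mul, map_mul, map_sub, map_pow φq tq, htqbar, hev, map_zero, map_pow,
      ← hT, ← pow_mul] at h2
    have hLη : η L = φq (evalAt t D.G) ^ e := by rw [hL, hη, D.redAt_redPoly, map_pow, map_pow]
    rw [hM, branchM, map_mul, map_sub, map_pow, hηX, hLη]
    linear_combination -h2
  -- the equation at `(t(qτ), t)`
  have hB : η (diagB q Ē) = η L ^ q * (T ^ (q * q) - T) * φq δ := by
    have h0 := D.modEq_relation_symm hΦ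
    rw [hE, aeval_toRingHom] at h0
    simp only [eval₂_add, eval₂_mul, eval₂_sub, eval₂_C, eval₂_X, eval₂_pow, map_pow,
      Igusa.evalAt_X, Igusa.evalAt_C] at h0
    rw [show HahnSeries.C (q : ℤ) = (q : LaurentSeries ℤ) by rw [map_natCast],
      show tq - t ^ q = -((q : LaurentSeries ℤ) * δ) by rw [← hδ]; ring] at h0
    have h1 : -(evalAt tq D.G ^ e * (tq ^ q - t) * δ) + E.eval₂ (evalAt tq) t = 0 :=
      mul_left_cancel₀ hq0 (by rw [mul_zero]; linear_combination h0)
    have h2 := congrArg φq h1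
    have hcomp : ∀ P : ℤ[X], φq (evalAt tq P) = evalAt (T ^ q) (redPoly q P) := fun P => by
      rw [Igusa.coeffMap_evalAt, htqbar]; rfl
    have hfrob : ∀ P : (ZMod q)[X], evalAt (T ^ q) P = η P ^ q := fun P => by
      rw [hη, redAt, BaseData.pow_eq_qExpand, BaseData.pow_eq_qExpand, ← Igusa.sub_one_eq q,
        ← Igusa.sub_one_eq q]
      exact (RingHom.congr_fun (Igusa.sub_evalAt 1 hq.out.ne_zero T) P).symm
    have hev : φq (E.eval₂ (evalAt tq) t) = η (diagB q Ē) := by
      rw [diagB, hĒ, hom_eval₂, eval₂_map, hom_eval₂, hηX]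
      congr 1
      refine RingHom.ext fun P => ?_
      simp only [RingHom.comp_apply, hcomp, coe_eval₂RingHom]
      rw [hom_eval₂, map_pow, hηX, evalAt, coe_eval₂RingHom]
      congr 1
      exact RingHom.ext fun a => (Igusa.evalAt_C _ a).symm
    rw [map_add, map_neg, map_mul, map_mul, map_sub, map_pow φq tq, htqbar, hev, map_zero, map_pow,
      hcomp, hfrob, ← hT, ← pow_mul, ← pow_mul] at h2
    rw [hL, map_pow, map_pow, ← pow_mul]
    rw [mul_comm q e] at h2
    linear_combination h2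
  have hI : diagB q Ē * L = L ^ q * diagA q Ē := by
    refine hηinj ?_
    rw [map_mul, map_mul, map_pow, hB, ← hA, hM, branchM, map_mul η L, map_sub, map_pow, hηX]
    ring
  refine ⟨hI, ?_⟩
  set φ := diagA q Ē
  -- differentiate
  have hθδ : qTheta (φq δ) = T ^ (q - 1) * qTheta T - qTheta T ^ q := by
    have h1 : qTheta δ = t ^ (q - 1) * qTheta t - qExpand ℤ q (qTheta t) := by
      refine mul_left_cancel₀ hq0 ?_
      have h2 := congrArg qTheta hδ
      rw [map_sub, qTheta_pow, htq, qTheta_qExpand, qTheta_mul,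
        show (q : LaurentSeries ℤ) = HahnSeries.C (q : ℤ) by rw [map_natCast], qTheta_C,
        zero_mul, zero_add] at h2
      rw [show (q : LaurentSeries ℤ) = HahnSeries.C (q : ℤ) by rw [map_natCast]]
      linear_combination -h2
    rw [← coeffMap_qTheta, h1, map_sub, map_mul, map_pow, coeffMap_qExpand,
      ← BaseData.pow_eq_qExpand, coeffMap_qTheta]
  have hθT : qTheta T ≠ 0 := fun h0 => by
    have := congrArg (fun f : LaurentSeries (ZMod q) => f.coeff (-1)) h0
    rw [qTheta_coeff, D.unitPole_red.coeff_neg_one] at this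
    simp at this
  have hB0 : η (bracket q L φ) = qTheta T ^ (q - 1) * η M ^ 2 := by
    have h1 := congrArg qTheta hA
    rw [qTheta_mul, hη, redAt, qTheta_evalAt, qTheta_evalAt, hθδ] at h1
    change η (derivative M) * qTheta T * φq δ +
        η M * (T ^ (q - 1) * qTheta T - qTheta T ^ q) = η φ.derivative * qTheta T at h1
    refine mul_left_cancel₀ hθT ?_
    rw [bracket, map_add, map_sub, map_mul, map_mul, map_mul, map_pow η (branchM q L), map_pow,
      hηX, ← hM]
    have hpow : qTheta T * qTheta T ^ (q - 1) = qTheta T ^ q := by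
      rw [← pow_succ', Nat.sub_add_cancel hq.out.pos]
    linear_combination (η M) * h1 - η (derivative M) * qTheta T * hA - η M ^ 2 * hpow
  -- compare with `j`
  have hjrel : jqModC (ZMod q) * η (redPoly q D.G) = η (redPoly q (D.P4 ^ 3)) := by
    rw [hη, D.redAt_redPoly, D.redAt_redPoly, ← D.jrel, map_mul, coeffMap_jqModC]
  have hdelta : Igusa.deltaSer (ZMod q) * η (redPoly q D.G) ^ 5 =
      qTheta T ^ 6 * η (redPoly q D.g0) ^ 6 := by
    rw [hη, D.redAt_redPoly, D.redAt_redPoly, ← Igusa.coeffMap_deltaSer (Int.castRingHom (ZMod q)),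
      D.delta_eq, ← mul_pow, hT, ← coeffMap_qTheta, ← map_mul φq, D.theta, map_neg, map_mul,
      map_mul, map_pow]
    ring
  have hhom := map_homEval η h (redPoly q (D.P4 ^ 3)) (redPoly q D.G) hjrel
  have hh' : h.eval₂ (η.comp C) (jqModC (ZMod q)) * Igusa.deltaSer (ZMod q) ^ (q - 1) = -1 := by
    rw [← hh, evalAt, coe_eval₂RingHom]
    congr 2
    exact RingHom.ext fun a => Igusa.evalAt_C _ a
  refine hηinj ?_
  rw [map_mul, map_mul, map_pow, map_pow, hB0, hhom, map_neg, map_mul, map_pow, map_pow,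
    pow_mul (η (redPoly q D.g0)), mul_pow (qTheta T ^ (q - 1)), ← pow_mul (qTheta T),
    mul_comm (q - 1) 6, pow_mul (qTheta T), pow_add, pow_mul (η (redPoly q D.G)), ← pow_mul (η M)]
  calc (qTheta T ^ 6) ^ (q - 1) * η M ^ (2 * 6) * (η (redPoly q D.g0) ^ 6) ^ (q - 1) *
        (h.eval₂ (η.comp C) (jqModC (ZMod q)) * η (redPoly q D.G) ^ h.natDegree)
      = (qTheta T ^ 6 * η (redPoly q D.g0) ^ 6) ^ (q - 1) * η M ^ 12 *
        (h.eval₂ (η.comp C) (jqModC (ZMod q)) * η (redPoly q D.G) ^ h.natDegree) := by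
        rw [mul_pow]; ring
    _ = _ := by
        rw [← hdelta, mul_pow]
        linear_combination ((η (redPoly q D.G) ^ 5) ^ (q - 1) * η M ^ 12 *
          η (redPoly q D.G) ^ h.natDegree) * hh'

end BaseData

end Fermat.Agent.SquareLevel
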