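import Mathlib.RingTheory.PowerSeries.Derivative
import Mathlib.RingTheory.PowerSeries.Expand
import Fermat.Agent.SquareLevel.Hauptmodul.ModP

/-!
# Consequences over a field of characteristic `q` of the identities modulo `q`
-/

noncomputable section

open Function Polynomial

namespace Fermat.Agent.SquareLevel

variable {q : ℕ} [hq : Fact q.Prime] {k : Type*} [Field k] [CharP k q]

local notation "κ" => ZMod.castHom (dvd_refl q) k

theorem eval₂_pow_char (P : (ZMod q)[X]) (β : k) : P.eval₂ κ β ^ q = P.eval₂ κ (β ^ q) := by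
  have h : (frobenius k q).comp (eval₂RingHom κ β) = eval₂RingHom κ (β ^ q) := by
    refine Polynomial.ringHom_ext (fun a => ?_) ?_
    · simp only [RingHom.comp_apply, coe_eval₂RingHom, eval₂_C, frobenius_def]
      rw [← map_pow, ZMod.pow_card]
    · simp [frobenius_def]
  exact RingHom.congr_fun h P

/-- A zero `a` of `h(j)` off the cusps is fixed by `q²`-th powers and is no zero of `E(T, T^q)`. -/
theorem crossing_residual {L G g h P φ : (ZMod q)[X]} {N m : ℕ} {e : ℕ} (hL : L = G ^ e)
    (hid : bracket q L φ ^ 6 * g ^ m * homEval h P G = -(G ^ N * branchM q L ^ 12))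
    {a : k} (hG : G.eval₂ κ a ≠ 0) (h0 : (homEval h P G).eval₂ κ a = 0) :
    a ^ (q * q) = a ∧ φ.eval₂ κ a ≠ 0 := by
  set ev := eval₂RingHom κ a
  have hLa : ev L ≠ 0 := by rw [hL, map_pow]; exact pow_ne_zero _ hG
  have hMa : ev (branchM q L) = 0 := by
    have h1 := congrArg ev hid
    rw [map_mul, show ev (homEval h P G) = 0 from h0, mul_zero, map_neg, map_mul, map_pow,
      map_pow, eq_comm, neg_eq_zero, mul_eq_zero] at h1
    exact eq_zero_of_pow_eq_zero (h1.resolve_left (pow_ne_zero _ hG))
  have hfix : a ^ (q * q) = a := by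
    rw [branchM, map_mul, mul_eq_zero] at hMa
    have := hMa.resolve_left hLa
    rwa [map_sub, map_pow, show ev X = a from eval₂_X _ _, sub_eq_zero] at this
  refine ⟨hfix, fun hφ => ?_⟩
  set mp := mapRingHom (R := ZMod q) κ
  have hev : ∀ R : (ZMod q)[X], (mp R).eval a = ev R := fun R => eval_map _ _
  obtain ⟨φ1, hφ1⟩ : X - C a ∣ mp φ := dvd_iff_isRoot.mpr ((hev φ).trans hφ)
  obtain ⟨M1, hM1⟩ : X - C a ∣ mp (branchM q L) := dvd_iff_isRoot.mpr ((hev _).trans hMa)
  have hM1a : M1.eval a = -(ev L) := by
    have h1 := congrArg (fun R : k[X] => (derivative R).eval a) hM1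
    simp only [derivative_mul, derivative_X_sub_C, eval_add, eval_mul, one_mul, eval_sub,
      eval_X, eval_C, sub_self, zero_mul, add_zero] at h1
    rw [← h1, branchM, map_mul, map_sub, map_pow, show mp X = X from map_X _, derivative_mul,
      derivative_sub, derivative_X_pow, derivative_X, eval_add, eval_mul, eval_mul, eval_sub,
      eval_sub, eval_pow, eval_X, hfix, sub_self, mul_zero, zero_add, Nat.cast_mul,
      CharP.cast_eq_zero, zero_mul, map_zero, zero_mul, eval_zero, eval_one, hev]
    ring
  have hbr : ∃ B1 : k[X], mp (bracket q L φ) = (X - C a) ^ 2 * B1 := by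
    refine ⟨X ^ (q - 1) * M1 ^ 2 - φ1.derivative * M1 + φ1 * M1.derivative, ?_⟩
    rw [bracket, map_add, map_sub, map_mul, map_mul, map_mul, map_pow, map_pow,
      show mp X = X from map_X _, coe_mapRingHom, ← Polynomial.derivative_map,
      ← Polynomial.derivative_map, ← coe_mapRingHom, hφ1, hM1]
    simp only [derivative_mul, derivative_X_sub_C]
    ring
  obtain ⟨B1, hB1⟩ := hbr
  have h2 := congrArg mp hid
  rw [map_mul, map_mul, map_pow, map_pow, hB1, map_neg, map_mul, map_pow, map_pow mp, hM1] at h2
  have h3 : (X - C a) ^ 12 * (B1 ^ 6 * mp g ^ m * mp (homEval h P G) + mp G ^ N * M1 ^ 12) = 0 := by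
    linear_combination h2
  have h4 := congrArg (Polynomial.eval a)
    ((mul_eq_zero.mp h3).resolve_left (pow_ne_zero _ (X_sub_C_ne_zero a)))
  simp only [eval_add, eval_mul, eval_pow, hev, hM1a, eval_zero] at h4
  rw [show ev (homEval h P G) = 0 from h0, mul_zero, zero_add, mul_eq_zero] at h4
  rcases h4 with h4 | h4
  · exact pow_ne_zero _ hG h4
  · exact pow_ne_zero _ (neg_ne_zero.mpr hLa) h4

open PowerSeries in
/-- The derivative along `T ↦ T + β`. -/
theorem derivative_eval₂_shift (β : k) (P : (ZMod q)[X]) :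
    PowerSeries.derivative k
        (P.eval₂ ((PowerSeries.C).comp κ) (PowerSeries.C β + PowerSeries.X)) =
      P.derivative.eval₂ ((PowerSeries.C).comp κ) (PowerSeries.C β + PowerSeries.X) := by
  induction P using Polynomial.induction_on' with
  | add P Q hP hQ => rw [eval₂_add, map_add, hP, hQ, derivative_add, eval₂_add]
  | monomial n c =>
    rw [eval₂_monomial, derivative_monomial, eval₂_monomial, Derivation.leibniz,
      Derivation.leibniz_pow, RingHom.comp_apply, PowerSeries.derivative_C, map_add,
      PowerSeries.derivative_C, PowerSeries.derivative_X, RingHom.comp_apply, map_mul, map_mul,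
      map_natCast, map_natCast]
    simp only [smul_eq_mul, nsmul_eq_mul, zero_add, mul_zero, add_zero, mul_one]
    ring

theorem derivative_expand_char (f : PowerSeries k) :
    PowerSeries.derivative k (PowerSeries.expand q hq.out.ne_zero f) = 0 := by
  ext n
  rw [PowerSeries.coeff_derivative, map_zero]
  by_cases hn : q ∣ n + 1
  · rw [show (n : k) + 1 = ((n + 1 : ℕ) : k) by push_cast; ring,
      (CharP.cast_eq_zero_iff k q _).mpr hn,
      mul_zero]
  · rw [PowerSeries.coeff_expand_of_not_dvd q hq.out.ne_zero _ hn, zero_mul]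

theorem derivative_eval₂_expand (β : k) (Ψ : Polynomial (PowerSeries k)) :
    PowerSeries.derivative k (Ψ.eval₂ (PowerSeries.expand q hq.out.ne_zero).toRingHom
        (PowerSeries.C β + PowerSeries.X)) =
      Ψ.derivative.eval₂ (PowerSeries.expand q hq.out.ne_zero).toRingHom
        (PowerSeries.C β + PowerSeries.X) := by
  induction Ψ using Polynomial.induction_on' with
  | add P Q hP hQ => rw [eval₂_add, map_add, hP, hQ, derivative_add, eval₂_add]
  | monomial n c =>
    rw [eval₂_monomial, derivative_monomial, eval₂_monomial, Derivation.leibniz,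
      Derivation.leibniz_pow, AlgHom.toRingHom_eq_coe, RingHom.coe_coe, derivative_expand_char,
      map_add, PowerSeries.derivative_C, PowerSeries.derivative_X, map_mul, map_natCast]
    simp only [smul_eq_mul, nsmul_eq_mul, zero_add, mul_zero, add_zero, mul_one]
    ring

/-- `T ↦ ā + s`. -/
def pointHom (a : k) : (ZMod q)[X] →+* PowerSeries k :=
  eval₂RingHom ((PowerSeries.C).comp κ) (PowerSeries.C a + PowerSeries.X)

theorem constantCoeff_pointHom (a : k) (P : (ZMod q)[X]) :
    PowerSeries.constantCoeff (pointHom (q := q) a P) = P.eval₂ κ a := by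
  rw [pointHom, coe_eval₂RingHom, hom_eval₂]
  rw [map_add, PowerSeries.constantCoeff_C, PowerSeries.constantCoeff_X, add_zero,
    show PowerSeries.constantCoeff.comp ((PowerSeries.C).comp κ) = κ from
      RingHom.ext fun c => PowerSeries.constantCoeff_C _]

/-- At an ordinary point `L(a) β^(q-1) + Ψ'(β)` is nonzero, which makes the pair ring regular at
`b = β`. -/
theorem ordinary_residual {L G g h P : (ZMod q)[X]} {E : Polynomial (ZMod q)[X]} {N m e : ℕ}
    (hL : L = G ^ e) (hI : diagB q E * L = L ^ q * diagA q E)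
    (hid : bracket q L (diagA q E) ^ 6 * g ^ m * homEval h P G = -(G ^ N * branchM q L ^ 12))
    {a β : k} (hβ : β ^ q = a) (hG : G.eval₂ κ a ≠ 0)
    {Ψ : Polynomial (PowerSeries k)} {S₁ : PowerSeries k}
    (hΨ : E.map (pointHom a) =
      (X - C ((PowerSeries.C a + PowerSeries.X) ^ q)) * Ψ -
        C (S₁ * pointHom a L) * (X ^ q - C (PowerSeries.C a + PowerSeries.X))) :
    L.eval₂ κ a * β ^ (q - 1) +
      PowerSeries.constantCoeff (Ψ.derivative.eval (PowerSeries.C β)) ≠ 0 := by
  have : CharP (PowerSeries k) q :=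
    charP_of_injective_ringHom (PowerSeries.C_injective (R := k)) q
  set ε := pointHom (q := q) β with hε
  set Y : PowerSeries k := PowerSeries.C β + PowerSeries.X with hY
  set ex := (PowerSeries.expand q hq.out.ne_zero (R := k)).toRingHom with hex
  set ψ := Ψ.eval₂ ex Y
  have hεX : ε X = Y := eval₂_X _ _
  have hexA : ex (PowerSeries.C a + PowerSeries.X) = Y ^ q := by
    rw [hY, add_pow_char, ← map_pow, hβ, hex, map_add]
    exact congrArg₂ (· + ·) (PowerSeries.expand_C q hq.out.ne_zero a)
      (PowerSeries.expand_X q hq.out.ne_zero)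
  have hexα : ex.comp (pointHom (q := q) a) = ε.comp (eval₂RingHom C (X ^ q)) := by
    refine Polynomial.ringHom_ext (fun c => ?_) ?_
    · simp [pointHom, hex, hε, PowerSeries.expand_C]
    · simp only [RingHom.comp_apply, pointHom, coe_eval₂RingHom, eval₂_X, hexA, hε,
        eval₂_X_pow]
      rfl
  have hdiag : ε (diagB q E) = (Y - Y ^ (q * q)) * ψ := by
    have h1 := congrArg (fun R : Polynomial (PowerSeries k) => R.eval₂ ex Y) hΨ
    simp only [eval₂_map, eval₂_sub, eval₂_mul, eval₂_C, eval₂_X, eval₂_pow, map_pow,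
      hexA, sub_self, mul_zero, sub_zero, hexα, ← pow_mul] at h1
    rw [diagB, hom_eval₂, hεX, h1]
  have hG' : G.eval₂ κ β ≠ 0 := fun h0 => hG (by
    rw [← hβ, ← eval₂_pow_char, h0, zero_pow hq.out.ne_zero])
  have hLβ : L.eval₂ κ β ^ q = L.eval₂ κ a := by rw [eval₂_pow_char, hβ]
  have hcc : ∀ R, PowerSeries.constantCoeff (ε R) = R.eval₂ κ β := constantCoeff_pointHom β
  have hd : ∀ R : (ZMod q)[X], PowerSeries.derivative k (ε R) = ε R.derivative :=
    derivative_eval₂_shift β
  have hdY : PowerSeries.derivative k Y = 1 := by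
    rw [hY, map_add, PowerSeries.derivative_C, PowerSeries.derivative_X, zero_add]
  have hM0 : ε (branchM q L) ≠ 0 := by
    rw [branchM, map_mul]
    refine mul_ne_zero (fun h0 => ?_) (fun h0 => ?_)
    · have := congrArg PowerSeries.constantCoeff h0
      rw [hcc, map_zero, hL, eval₂_pow] at this
      exact pow_ne_zero _ hG' this
    · have := congrArg (PowerSeries.derivative k) h0
      rw [hd, map_zero, derivative_sub, derivative_X_pow, derivative_X, Nat.cast_mul,
        CharP.cast_eq_zero, zero_mul, map_zero, zero_mul, zero_sub, map_neg, map_one,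
        neg_eq_zero] at this
      exact one_ne_zero this
  have hψ : ψ * ε (branchM q L) = -(ε L ^ q * ε (diagA q E)) := by
    have h1 := congrArg ε hI
    rw [map_mul, map_mul, map_pow, hdiag] at h1
    rw [branchM, map_mul, map_sub, map_pow, hεX]
    linear_combination -h1
  have hdiff : (ε L ^ q * Y ^ (q - 1) + PowerSeries.derivative k ψ) * ε (branchM q L) ^ 2 =
      ε L ^ q * ε (bracket q L (diagA q E)) := by
    have h1 := congrArg (PowerSeries.derivative k) hψ
    simp only [Derivation.leibniz, Derivation.leibniz_pow, map_neg, smul_eq_mul, nsmul_eq_mul,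
      CharP.cast_eq_zero, zero_mul, mul_zero, add_zero, hd] at h1
    rw [bracket, map_add, map_sub, map_mul, map_mul, map_mul, map_pow ε (branchM q L), map_pow,
      hεX]
    linear_combination ε (branchM q L) * h1 - ε (branchM q L).derivative * hψ
  set R := ε L ^ q * Y ^ (q - 1) + PowerSeries.derivative k ψ with hR
  have hfinal : R ^ 6 * ε g ^ m * ε (homEval h P G) = -(ε L ^ (q * 6) * ε G ^ N) := by
    refine mul_right_cancel₀ (pow_ne_zero 12 hM0) ?_
    have h1 := congrArg ε hid
    rw [map_mul, map_mul, map_pow, map_pow, map_neg, map_mul, map_pow, map_pow] at h1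
    have h2 : R ^ 6 * ε (branchM q L) ^ 12 =
        ε L ^ (q * 6) * ε (bracket q L (diagA q E)) ^ 6 := by
      calc R ^ 6 * ε (branchM q L) ^ 12 = (R * ε (branchM q L) ^ 2) ^ 6 := by ring
        _ = _ := by rw [hdiff, mul_pow, ← pow_mul]
    linear_combination (ε g ^ m * ε (homEval h P G)) * h2 + ε L ^ (q * 6) * h1
  intro hzero
  have hR0 : PowerSeries.constantCoeff R = 0 := by
    rw [← hzero, hR, map_add, map_mul, map_pow, map_pow, hcc, hLβ, hY]
    congr 1
    · simp
    · rw [derivative_eval₂_expand, hom_eval₂, map_add, PowerSeries.constantCoeff_C,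
        PowerSeries.constantCoeff_X, add_zero, ← eval₂_at_apply,
        PowerSeries.constantCoeff_C]
      congr 1
      exact RingHom.ext fun f => PowerSeries.constantCoeff_expand q hq.out.ne_zero f
  have h3 := congrArg PowerSeries.constantCoeff hfinal
  rw [map_mul, map_mul, map_pow _ R, hR0, zero_pow (by norm_num), zero_mul, zero_mul, map_neg,
    map_mul, map_pow, map_pow, hcc, hcc, eq_comm, neg_eq_zero, mul_eq_zero] at h3
  rcases h3 with h3 | h3
  · exact pow_ne_zero _ (by rw [hL, eval₂_pow]; exact pow_ne_zero _ hG') h3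
  · exact pow_ne_zero _ hG' h3

end Fermat.Agent.SquareLevel
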