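import Fermat.Agent.SquareLevel.Hauptmodul.Rational
import Fermat.Agent.SquareLevel.Hauptmodul.Residual
import Fermat.Agent.SquareLevel.PointData

/-!
# The modular equation at the points of the Hauptmodul line off the cusps
-/

noncomputable section

open Function Polynomial ModularCurve
open Fermat.Agent.Igusa (evalAt CycInt cycZeta hSer jv)

namespace Fermat.Agent.SquareLevel

variable {q : ℕ} [hq : Fact q.Prime] {W : Type} [CommRing W] [IsDomain W]
  [IsDiscreteValuationRing W] [CharZero W]

omit hq [CharZero W] in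
theorem dvd_of_residue (hm : IsLocalRing.maximalIdeal W = Ideal.span {(q : W)}) {x : W}
    (hx : IsLocalRing.residue W x = 0) : (q : W) ∣ x := by
  rwa [IsLocalRing.residue_eq_zero_iff, hm, Ideal.mem_span_singleton] at hx

theorem exactlyOnce_of_residue (hm : IsLocalRing.maximalIdeal W = Ideal.span {(q : W)}) {x : W}
    (hx : IsLocalRing.residue W x ≠ 0) : ExactlyOnce q ((q : W) * x) := by
  refine ⟨dvd_mul_right _ _, fun h => hx ?_⟩
  rw [sq] at h
  obtain ⟨c, rfl⟩ := (mul_dvd_mul_iff_left (Nat.cast_ne_zero.mpr hq.out.ne_zero)).mp h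
  rw [map_mul, map_natCast, residue_natCast_eq_zero hm, zero_mul]

omit hq [CharZero W] in
theorem exists_eq_C_mul_series (hm : IsLocalRing.maximalIdeal W = Ideal.span {(q : W)})
    {f : PowerSeries W} (hf : PowerSeries.map (IsLocalRing.residue W) f = 0) :
    ∃ g : PowerSeries W, f = PowerSeries.C (q : W) * g := by
  rw [map_natCast]
  exact natCast_dvd_of_map_residue_eq_zero hm hf

omit hq [CharZero W] in
theorem exists_eq_C_mul_poly (hm : IsLocalRing.maximalIdeal W = Ideal.span {(q : W)})
    {f : Polynomial (PowerSeries W)}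
    (hf : f.map (PowerSeries.map (IsLocalRing.residue W)) = 0) :
    ∃ g : Polynomial (PowerSeries W), f = C (PowerSeries.C (q : W)) * g := by
  refine (C_dvd_iff_dvd_coeff _ _).mpr fun i => exists_eq_C_mul_series hm ?_
  rw [← Polynomial.coeff_map, hf, coeff_zero]

omit [CharZero W] in
/-- A simple residual root lifts to a power series root. -/
theorem exists_root_series [IsAdicComplete (IsLocalRing.maximalIdeal W) W]
    (f : Polynomial (PowerSeries W)) (hf : f.Monic) (z₀ : W)
    (h0 : IsLocalRing.residue W ((f.map PowerSeries.constantCoeff).eval z₀) = 0)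
    (h1 : IsLocalRing.residue W ((f.map PowerSeries.constantCoeff).derivative.eval z₀) ≠ 0) :
    ∃ z : PowerSeries W, f.eval z = 0 ∧
      IsLocalRing.residue W (PowerSeries.constantCoeff z) = IsLocalRing.residue W z₀ := by
  have hW : HenselianRing W (IsLocalRing.maximalIdeal W) := IsAdicComplete.henselianRing _ _
  obtain ⟨c, hc, hcz⟩ := hW.is_henselian (f.map PowerSeries.constantCoeff) (hf.map _) z₀
    ((IsLocalRing.residue_eq_zero_iff _).mp h0)
    ((IsLocalRing.notMem_maximalIdeal.mp fun h => h1
        ((IsLocalRing.residue_eq_zero_iff _).mpr h)).map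
      _)
  have hS : HenselianRing (PowerSeries W) (Ideal.span {PowerSeries.X}) :=
    IsAdicComplete.henselianRing _ _
  have hev : ∀ g : Polynomial (PowerSeries W),
      PowerSeries.constantCoeff (g.eval (PowerSeries.C c)) =
      (g.map PowerSeries.constantCoeff).eval c := fun g => by
    rw [eval_map, ← eval₂_hom, PowerSeries.constantCoeff_C]
  have hres : IsLocalRing.residue W c = IsLocalRing.residue W z₀ := by
    rw [← sub_eq_zero, ← map_sub, IsLocalRing.residue_eq_zero_iff]
    exact hcz
  have hunit : IsUnit (f.derivative.eval (PowerSeries.C c)) := by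
    rw [PowerSeries.isUnit_iff_constantCoeff, hev, ← derivative_map]
    refine IsLocalRing.notMem_maximalIdeal.mp fun h => h1 ?_
    rw [← (IsLocalRing.residue_eq_zero_iff _).mpr h, ← Polynomial.eval_map_apply,
      ← Polynomial.eval_map_apply, hres]
  obtain ⟨z, hz, hzc⟩ := hS.is_henselian f hf (PowerSeries.C c)
    (by rw [Ideal.mem_span_singleton, PowerSeries.X_dvd_iff, hev]; exact hc) (hunit.map _)
  rw [Ideal.mem_span_singleton, PowerSeries.X_dvd_iff, map_sub, PowerSeries.constantCoeff_C,
    sub_eq_zero] at hzc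
  exact ⟨z, hz, by rw [hzc, hres]⟩

omit [IsDomain W] [IsDiscreteValuationRing W] [CharZero W] in
theorem shiftSeries_injective (a : W) : Injective (shiftSeries a) := by
  have h : ∀ P : W[X], shiftSeries a P = ((taylor a P : W[X]) : PowerSeries W) := fun P => by
    rw [taylor_apply, shiftSeries, coe_eval₂RingHom, Polynomial.comp,
      ← coeToPowerSeries.ringHom_apply, hom_eval₂, map_add]
    congr 1
    · exact RingHom.ext fun c => (Polynomial.coe_C c).symm
    · rw [coeToPowerSeries.ringHom_apply, coeToPowerSeries.ringHom_apply, Polynomial.coe_X,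
        Polynomial.coe_C, add_comm]
  intro P Q hPQ
  rw [h, h, Polynomial.coe_inj] at hPQ
  exact taylor_injective a hPQ

omit [IsDomain W] [IsDiscreteValuationRing W] [CharZero W] in
theorem shiftSeries_X (a : W) : shiftSeries a X = PowerSeries.C a + PowerSeries.X := by
  simp [shiftSeries]

omit [IsDomain W] [IsDiscreteValuationRing W] [CharZero W] in
theorem shiftSeries_C (a w : W) : shiftSeries a (Polynomial.C w) = PowerSeries.C w := by
  simp [shiftSeries]

omit [IsDomain W] [IsDiscreteValuationRing W] [CharZero W] in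
theorem constantCoeff_shiftSeries (a : W) (P : W[X]) :
    PowerSeries.constantCoeff (shiftSeries a P) = P.eval a := by
  have h : (PowerSeries.constantCoeff).comp (shiftSeries a) = evalRingHom a :=
    Polynomial.ringHom_ext (fun c => by simp [shiftSeries]) (by simp [shiftSeries])
  exact RingHom.congr_fun h P

namespace BaseData

variable {n0 : ℕ} [NeZero n0] (D : BaseData n0) {n : ℕ} [hn : Fact n.Prime] [NeZero q]
  {Φ : Polynomial (Polynomial ℤ)} {e : ℕ} {H : Polynomial (Polynomial ℤ)}

/-- `T ↦ a + s` over `ℤ`. -/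
def shiftInt (a : W) : ℤ[X] →+* PowerSeries W :=
  (shiftSeries a).comp (mapRingHom (Int.castRingHom W))

omit [IsDomain W] [IsDiscreteValuationRing W] [CharZero W] in
theorem shiftInt_X (a : W) : shiftInt a X = PowerSeries.C a + PowerSeries.X := by
  simp [shiftInt, shiftSeries]

omit [IsDomain W] [IsDiscreteValuationRing W] [CharZero W] in
theorem constantCoeff_shiftInt (a : W) (P : ℤ[X]) :
    PowerSeries.constantCoeff (shiftInt a P) = (P.map (Int.castRingHom W)).eval a :=
  constantCoeff_shiftSeries a _

omit [IsDomain W] [IsDiscreteValuationRing W] in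
theorem shiftInt_injective (a : W) : Injective (shiftInt a) :=
  (shiftSeries_injective a).comp (Polynomial.map_injective _ Int.cast_injective)

omit [IsDomain W] [IsDiscreteValuationRing W] [CharZero W] in
theorem localModEq_eq (a : W) (Φ : Polynomial (Polynomial ℤ)) :
    localModEq Φ a = Φ.map (shiftInt a) := rfl

omit [CharZero W] [NeZero q] in
/-- `P(T) mod q` is evaluated at a residue as the residue of the value. -/
theorem eval₂_redPoly [CharP (IsLocalRing.ResidueField W) q] (a : W) (P : ℤ[X]) :
    (redPoly q P).eval₂ (ZMod.castHom (dvd_refl q) _) (IsLocalRing.residue W a) =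
      IsLocalRing.residue W ((P.map (Int.castRingHom W)).eval a) := by
  have hred : (eval₂RingHom (ZMod.castHom (dvd_refl q) _) (IsLocalRing.residue W a)).comp
      (redPoly q) = (IsLocalRing.residue W).comp
        ((evalRingHom a).comp (mapRingHom (Int.castRingHom W))) :=
    Polynomial.ringHom_ext (fun c => by simp) (by simp)
  exact RingHom.congr_fun hred P

omit [NeZero n0] [NeZero q] in
/-- Where `h(j)` is residually zero, the point is a crossing. -/
theorem crossingAt_of_residual {E : Polynomial (Polynomial ℤ)} {h : (ZMod q)[X]}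
    [CharP (IsLocalRing.ResidueField W) q]
    (hE : Φ = C (D.G ^ e) * ((C (X ^ q) - X) * (C X - X ^ q)) + C (C (q : ℤ)) * E)
    (hid : bracket q (redPoly q (D.G ^ e)) (diagA q (E.map (redPoly q))) ^ 6 *
          redPoly q D.g0 ^ (6 * (q - 1)) * homEval h (redPoly q (D.P4 ^ 3)) (redPoly q D.G) =
        -(redPoly q D.G ^ (5 * (q - 1) + h.natDegree) *
          branchM q (redPoly q (D.G ^ e)) ^ 12))
    (hm : IsLocalRing.maximalIdeal W = Ideal.span {(q : W)}) (a : W)
    (hG : IsLocalRing.residue W ((D.G.map (Int.castRingHom W)).eval a) ≠ 0)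
    (hP0 : (homEval h (redPoly q (D.P4 ^ 3)) (redPoly q D.G)).eval₂ (ZMod.castHom (dvd_refl q) _)
      (IsLocalRing.residue W a) = 0) :
    CrossingAt q Φ a := by
  set k := IsLocalRing.ResidueField W
  set res := IsLocalRing.residue W
  set κ := ZMod.castHom (dvd_refl q) k
  have hred : (eval₂RingHom κ (res a)).comp (redPoly q) =
      res.comp ((evalRingHom a).comp (mapRingHom (Int.castRingHom W))) :=
    RingHom.ext fun P => eval₂_redPoly a P
  have hGk : (redPoly q D.G).eval₂ κ (res a) ≠ 0 := by rw [eval₂_redPoly]; exact hG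
  have hL : redPoly q (D.G ^ e) = redPoly q D.G ^ e := map_pow _ _ _
  obtain ⟨hfix, hφ⟩ := crossing_residual hL hid hGk hP0
  refine ⟨hfix, fun b hb => ?_⟩
  set ev : ℤ[X] →+* W := (evalRingHom a).comp (mapRingHom (Int.castRingHom W)) with hevdef
  have hcoe : PowerSeries.constantCoeff ((localModEq Φ a).eval (PowerSeries.C b)) =
      Φ.eval₂ ev b := by
    rw [localModEq_eq, eval_map, hom_eval₂, PowerSeries.constantCoeff_C]
    congr 1
    exact RingHom.ext fun P => constantCoeff_shiftInt a P
  have hevX : ev X = a := by simp [hevdef]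
  obtain ⟨u, hu⟩ := dvd_of_residue hm (x := a ^ q - b)
    (show res (a ^ q - b) = 0 by rw [map_sub, map_pow, hb, sub_self])
  obtain ⟨v, hv⟩ := dvd_of_residue hm (x := a - b ^ q)
    (show res (a - b ^ q) = 0 by rw [map_sub, map_pow, hb, ← pow_mul, hfix, sub_self])
  rw [hcoe, hE]
  simp only [eval₂_add, eval₂_mul, eval₂_sub, eval₂_C, eval₂_X, eval₂_pow, map_pow, hevX,
      map_natCast, eval₂_natCast]
  rw [hu, hv,
    show ev D.G ^ e * ((q : W) * u * ((q : W) * v)) + (q : W) * E.eval₂ ev b =
      (q : W) * ((q : W) * (ev D.G ^ e * u * v) + E.eval₂ ev b) by ring]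
  refine exactlyOnce_of_residue hm ?_
  show res _ ≠ 0
  rw [map_add, map_mul res (q : W), map_natCast, residue_natCast_eq_zero hm, zero_mul, zero_add,
    hom_eval₂, hevdef, ← hred, hb]
  refine fun h0 => hφ (Eq.trans ?_ h0)
  rw [diagA, ← coe_eval₂RingHom, ← Polynomial.eval_map_apply, map_pow, coe_eval₂RingHom, eval₂_X,
    eval₂_eq_eval_map (f := (eval₂RingHom κ (res a)).comp (redPoly q)), ← Polynomial.map_map]

omit [CharZero W] [NeZero q] in
/-- `T ↦ a + s` reduces to the point at the residue of `a`. -/
theorem map_comp_shiftInt [CharP (IsLocalRing.ResidueField W) q] (a : W) :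
    (PowerSeries.map (IsLocalRing.residue W)).comp (shiftInt a) =
      (pointHom (q := q) (IsLocalRing.residue W a)).comp (redPoly q) :=
  Polynomial.ringHom_ext (fun c => by simp [shiftInt, shiftSeries, pointHom])
    (by simp [shiftInt, shiftSeries, pointHom])

omit [NeZero n0] in
/-- A root of the local modular equation makes the point ordinary. -/
theorem ordinaryAt_of_root {E : Polynomial (Polynomial ℤ)} {h : (ZMod q)[X]}
    [CharP (IsLocalRing.ResidueField W) q]
    (hΦ : Φ.map (D.tuCyc q) = C (D.tuCyc q D.G ^ e) *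
        fSer (q := q) (coeffMap (Int.castRingHom (CycInt q)) D.t) (cycZeta q))
    (hE : Φ = C (D.G ^ e) * ((C (X ^ q) - X) * (C X - X ^ q)) + C (C (q : ℤ)) * E)
    (hI : diagB q (E.map (redPoly q)) * redPoly q (D.G ^ e) =
      redPoly q (D.G ^ e) ^ q * diagA q (E.map (redPoly q)))
    (hid : bracket q (redPoly q (D.G ^ e)) (diagA q (E.map (redPoly q))) ^ 6 *
          redPoly q D.g0 ^ (6 * (q - 1)) * homEval h (redPoly q (D.P4 ^ 3)) (redPoly q D.G) =
        -(redPoly q D.G ^ (5 * (q - 1) + h.natDegree) *
          branchM q (redPoly q (D.G ^ e)) ^ 12))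
    (hm : IsLocalRing.maximalIdeal W = Ideal.span {(q : W)}) (a : W)
    (hG : IsLocalRing.residue W ((D.G.map (Int.castRingHom W)).eval a) ≠ 0)
    {S : PowerSeries W} (hroot : (localModEq Φ a).IsRoot S) : OrdinaryAt q Φ a := by
  set k := IsLocalRing.ResidueField W
  set res := IsLocalRing.residue W
  set κ := ZMod.castHom (dvd_refl q) k
  have hev : ∀ P : ℤ[X], (redPoly q P).eval₂ κ (res a) =
      res ((P.map (Int.castRingHom W)).eval a) := eval₂_redPoly a
  have hGk : (redPoly q D.G).eval₂ κ (res a) ≠ 0 := by rw [hev]; exact hG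
  have hL : redPoly q (D.G ^ e) = redPoly q D.G ^ e := map_pow _ _ _
  set rs := PowerSeries.map res with hrs
  set A : PowerSeries W := PowerSeries.C a + PowerSeries.X with hA
  set σ := shiftInt (W := W) a with hσ
  have hσX : σ X = A := shiftInt_X a
  set α := pointHom (q := q) (res a) with hα
  have hσα : rs.comp σ = α.comp (redPoly q) := map_comp_shiftInt a
  have hσα' : ∀ P, rs (σ P) = α (redPoly q P) := fun P => RingHom.congr_fun hσα P
  obtain ⟨Psi, hPsi⟩ := dvd_iff_isRoot.mpr hroot
  -- reductions
  have : CharP (PowerSeries k) q :=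
    charP_of_injective_ringHom (PowerSeries.C_injective (R := k)) q
  set Ā : PowerSeries k := PowerSeries.C (res a) + PowerSeries.X with hĀ
  have hαX : α X = Ā := by simp [hα, pointHom, hĀ]
  have hrsA : rs A = Ā := by rw [← hσX, hσα', coe_mapRingHom, Polynomial.map_X, hαX]
  set L := redPoly q (D.G ^ e) with hLdef
  have hΦk : (localModEq Φ a).map rs =
      C (α L) * ((C (Ā ^ q) - X) * (C Ā - X ^ q)) := by
    rw [localModEq_eq, ← hσ, Polynomial.map_map, hσα, ← Polynomial.map_map,
      D.modEq_kronecker hΦ]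
    simp only [Polynomial.map_mul, Polynomial.map_sub, Polynomial.map_pow, Polynomial.map_X,
      Polynomial.map_C, map_pow, hαX, hLdef, coe_mapRingHom]
  have hαL : α L ≠ 0 := fun h0 => by
    have := congrArg PowerSeries.constantCoeff h0
    rw [hα, constantCoeff_pointHom, map_zero, hL, eval₂_pow] at this
    exact pow_ne_zero _ hGk this
  have hSbar : rs S = Ā ^ q := by
    have h1 := congrArg (Polynomial.eval (rs S)) hΦk
    rw [Polynomial.eval_map_apply, hroot, map_zero, eval_mul, eval_mul, eval_sub, eval_sub,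
      eval_C, eval_C, eval_C, eval_pow, eval_X, eq_comm, mul_eq_zero, mul_eq_zero] at h1
    rcases h1 with h1 | h1 | h1
    · exact absurd h1 hαL
    · exact (sub_eq_zero.mp h1).symm
    · exfalso
      have h2 := congrArg (PowerSeries.derivative k) (sub_eq_zero.mp h1)
      rw [hĀ, map_add, PowerSeries.derivative_C, PowerSeries.derivative_X, zero_add,
        Derivation.leibniz_pow, nsmul_eq_mul, CharP.cast_eq_zero, zero_mul] at h2
      exact one_ne_zero h2
  have hPsibar : Psi.map rs = C (α L) * (X ^ q - C Ā) := by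
    refine mul_left_cancel₀ (X_sub_C_ne_zero (rs S)) ?_
    have h1 := congrArg (Polynomial.map rs) hPsi
    rw [hΦk, Polynomial.map_mul, Polynomial.map_sub, Polynomial.map_X, Polynomial.map_C] at h1
    rw [← h1, hSbar]
    ring
  obtain ⟨S₁, hS₁⟩ := exists_eq_C_mul_series hm (f := S - A ^ q)
    (show rs (S - A ^ q) = 0 by rw [map_sub, map_pow, hrsA, hSbar, sub_self])
  obtain ⟨Ψ₁, hΨ₁⟩ := exists_eq_C_mul_poly hm (f := Psi - C (σ (D.G ^ e)) * (X ^ q - C A))
    (by
      show Polynomial.map rs _ = 0
      rw [Polynomial.map_sub, Polynomial.map_mul, hPsibar, Polynomial.map_sub, Polynomial.map_pow,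
        Polynomial.map_X, Polynomial.map_C, Polynomial.map_C, hrsA, hσα', ← hLdef, sub_self])
  have hqS : (C (PowerSeries.C (q : W)) : Polynomial (PowerSeries W)) ≠ 0 :=
    C_ne_zero.mpr ((map_ne_zero_iff _ PowerSeries.C_injective).mpr
      (Nat.cast_ne_zero.mpr hq.out.ne_zero))
  have hexp : E.map σ = (X - C (A ^ q)) * Ψ₁ - C (S₁ * σ (D.G ^ e)) * (X ^ q - C A)
      - C (PowerSeries.C (q : W)) * (C S₁ * Ψ₁) := by
    refine mul_left_cancel₀ hqS ?_
    have h1 : (localModEq Φ a) = C (σ (D.G ^ e)) * ((C (A ^ q) - X) * (C A - X ^ q)) +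
        C (PowerSeries.C (q : W)) * E.map σ := by
      rw [localModEq_eq, ← hσ, hE]
      simp only [Polynomial.map_add, Polynomial.map_mul, Polynomial.map_sub, Polynomial.map_pow,
        Polynomial.map_X, Polynomial.map_C, map_pow, hσX, map_natCast, Polynomial.map_natCast]
    have h2 : C S = C (A ^ q) + C (PowerSeries.C (q : W)) * C S₁ := by
      rw [← C_mul, ← C_add, ← hS₁, add_sub_cancel]
    rw [h1, h2] at hPsi
    rw [map_mul C S₁]
    linear_combination hPsi + (X - C (A ^ q) - C (PowerSeries.C (q : W)) * C S₁) * hΨ₁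
  refine ⟨S, Psi, hPsi, hSbar, fun b hb => ?_⟩
  set Ψk := Ψ₁.map rs
  have hΨk : (E.map (redPoly q)).map α = (X - C (Ā ^ q)) * Ψk -
      C (rs S₁ * α L) * (X ^ q - C Ā) := by
    have h1 := congrArg (Polynomial.map rs) hexp
    have hq0 : rs (PowerSeries.C (q : W)) = 0 := by
      rw [hrs, PowerSeries.map_C, map_natCast, residue_natCast_eq_zero hm, map_zero]
    simp only [Polynomial.map_sub, Polynomial.map_mul, Polynomial.map_pow, Polynomial.map_X,
      Polynomial.map_C, map_mul, map_pow, hrsA, hq0, map_zero, zero_mul, sub_zero, hσα',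
      Polynomial.map_map, hσα] at h1
    rw [Polynomial.map_map, h1, hLdef]
    simp only [Ψk, map_pow, map_mul]
  have hres := ordinary_residual hL hI hid hb hGk hΨk
  have hderiv : Psi.derivative =
      C (PowerSeries.C (q : W)) * (C (σ (D.G ^ e)) * X ^ (q - 1) + Ψ₁.derivative) := by
    rw [eq_add_of_sub_eq hΨ₁]
    simp only [derivative_add, derivative_mul, derivative_C, derivative_sub, derivative_X_pow,
      sub_zero, zero_mul, zero_add, map_natCast, derivative_natCast]
    ring
  rw [hderiv, eval_mul, eval_C, map_mul, PowerSeries.constantCoeff_C]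
  refine exactlyOnce_of_residue hm ?_
  show res _ ≠ 0
  refine fun h0 => hres (Eq.trans ?_ h0)
  simp only [eval_add, eval_mul, eval_pow, eval_C, eval_X, map_add, map_mul, map_pow,
    PowerSeries.constantCoeff_C]
  congr 1
  · rw [hσ, constantCoeff_shiftInt, hLdef, hev, Polynomial.map_pow, eval_pow, map_pow]
  · rw [derivative_map, ← PowerSeries.map_C (IsLocalRing.residue W) b, Polynomial.eval_map,
      eval₂_at_apply, ← PowerSeries.coeff_zero_eq_constantCoeff, PowerSeries.coeff_map,
      PowerSeries.coeff_zero_eq_constantCoeff]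

/-- At a point off the cusps the modular equation is either ordinary or a crossing. -/
theorem ordinary_or_crossing (hn0 : n0 = n * n) (hqn : q ≠ n)
    (hdeg : Φ.natDegree = q + 1) (hlead : Φ.leadingCoeff = D.G ^ e)
    (hΦ : Φ.map (D.tuCyc q) = C (D.tuCyc q D.G ^ e) *
        fSer (q := q) (coeffMap (Int.castRingHom (CycInt q)) D.t) (cycZeta q))
    (hHm : H.Monic)
    (hH : H.map ((coeffMap (Int.castRingHom (CycInt q))).comp (evalAt (jv (1 : ℤˣ) q))) =
        hSer q (cycZeta q))
    [IsAdicComplete (IsLocalRing.maximalIdeal W) W]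
    (hm : IsLocalRing.maximalIdeal W = Ideal.span {(q : W)}) (a : W)
    (hG : IsLocalRing.residue W ((D.G.map (Int.castRingHom W)).eval a) ≠ 0) :
    OrdinaryAt q Φ a ∨ CrossingAt q Φ a := by
  classical
  obtain ⟨E, h, hE, hHq, hI, hid⟩ := D.exists_identities_mod hΦ hH
  set k := IsLocalRing.ResidueField W
  set res := IsLocalRing.residue W
  have : CharP k q := (CharP.charP_iff_prime_eq_zero hq.out).mpr (residue_natCast_eq_zero hm)
  set κ := ZMod.castHom (dvd_refl q) k
  have hev : ∀ P : ℤ[X], (redPoly q P).eval₂ κ (res a) =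
      res ((P.map (Int.castRingHom W)).eval a) := eval₂_redPoly a
  by_cases hP0 : (homEval h (redPoly q (D.P4 ^ 3)) (redPoly q D.G)).eval₂ κ (res a) = 0
  · exact Or.inr (D.crossingAt_of_residual hE hid hm a hG hP0)
  · -- ordinary
    set σ := shiftInt (W := W) a with hσ
    have hGunit : IsUnit (σ D.G) := by
      rw [PowerSeries.isUnit_iff_constantCoeff, hσ, constantCoeff_shiftInt]
      exact IsLocalRing.notMem_maximalIdeal.mp fun hh =>
        hG ((IsLocalRing.residue_eq_zero_iff _).mpr hh)
    obtain ⟨gi, hgi⟩ := hGunit.exists_right_inv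
    -- a root of the equation of the Delta quotient
    set x : PowerSeries W := σ (D.P4 ^ 3) * gi with hxdef
    have hx : x * σ D.G = σ (D.P4 ^ 3) := by rw [hxdef, mul_assoc, mul_comm gi, hgi, mul_one]
    set evx : ℤ[X] →+* PowerSeries W := eval₂RingHom (Int.castRingHom _) x with hevx
    set x0 : k := res (PowerSeries.constantCoeff x) with hx0
    have hx0G : x0 * (redPoly q D.G).eval₂ κ (res a) = (redPoly q (D.P4 ^ 3)).eval₂ κ (res a) := by
      rw [hev, hev, ← constantCoeff_shiftInt, ← constantCoeff_shiftInt, hx0, ← hσ,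
        ← map_mul, ← map_mul, hx]
    have hcx : (res.comp PowerSeries.constantCoeff).comp evx =
        (eval₂RingHom κ x0).comp (redPoly q) :=
      Polynomial.ringHom_ext (fun c => by simp [hevx]) (by simp [hevx, hx0])
    have hHk : ((H.map evx).map PowerSeries.constantCoeff).map res =
        X ^ (q + 1) + C (h.eval₂ κ x0) * X := by
      rw [Polynomial.map_map, Polynomial.map_map, hcx, ← Polynomial.map_map, hHq]
      simp only [Polynomial.map_add, Polynomial.map_mul, Polynomial.map_pow, Polynomial.map_X,
        Polynomial.map_C, coe_eval₂RingHom]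
    have hh0 : h.eval₂ κ x0 ≠ 0 := fun h0 => hP0 (by
      have := map_homEval (eval₂RingHom κ (res a)) h (redPoly q (D.P4 ^ 3)) (redPoly q D.G) hx0G
      rw [show (eval₂RingHom κ (res a)).comp C = κ from RingHom.ext fun c => eval₂_C _ _, h0,
        zero_mul] at this
      exact this)
    obtain ⟨y1, hy1, -⟩ := exists_root_series (H.map evx) (hHm.map _) 0
      (by rw [← Polynomial.eval_map_apply, hHk, map_zero]; simp)
      (by
        rw [← Polynomial.eval_map_apply, ← derivative_map, hHk, map_zero]
        simpa [derivative_X_pow, zero_pow hq.out.ne_zero] using hh0)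
    let K := FractionRing (PowerSeries W)
    let ι : PowerSeries W →+* K := algebraMap _ K
    have hιinj : Injective ι := IsFractionRing.injective _ K
    obtain ⟨S0, hS0⟩ := D.exists_root_of_deltaEq hn0 hqn (D.modEq_relation hΦ) hHm hH
      (ι.comp σ) (hιinj.comp (shiftInt_injective a)) (x := ι x) (y := ι y1)
      (by rw [RingHom.comp_apply, RingHom.comp_apply, ← map_mul, hx])
      (by
        rw [show eval₂RingHom (Int.castRingHom K) (ι x) = ι.comp evx from
          Polynomial.ringHom_ext (fun c => by simp [hevx]) (by simp [hevx]), ← hom_eval₂,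
          eval₂_eq_eval_map, hy1, map_zero])
    obtain ⟨gie, hgie⟩ := (hGunit.pow e).exists_right_inv
    have hmon : (C gie * Φ.map σ).Monic := by
      refine monic_of_natDegree_le_of_coeff_eq_one (q + 1)
        ((natDegree_C_mul_le _ _).trans (natDegree_map_le.trans hdeg.le)) ?_
      rw [coeff_C_mul, Polynomial.coeff_map, ← hdeg, ← leadingCoeff, hlead, map_pow, mul_comm, hgie]
    have hint : IsIntegral (PowerSeries W) S0 :=
      ⟨C gie * Φ.map σ, hmon, by rw [eval₂_mul, eval₂_map]; exact mul_eq_zero_of_right _ hS0⟩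
    obtain ⟨S, hS⟩ := IsIntegrallyClosed.isIntegral_iff.mp hint
    have hroot : (localModEq Φ a).IsRoot S := by
      rw [IsRoot, localModEq_eq, ← hσ]
      refine hιinj ?_
      rw [map_zero, eval_map, hom_eval₂, show ι S = S0 from hS]
      exact hS0
    exact Or.inl (D.ordinaryAt_of_root hΦ hE hI hid hm a hG hroot)

end BaseData

end Fermat.Agent.SquareLevel
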