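import Fermat.Agent.MF.FunctionField
import Fermat.Agent.SquareLevel.Hauptmodul.Forms

/-!
# Forms with integral expansion and a truncated coefficient list: identities by evaluation
-/

noncomputable section

open UpperHalfPlane CongruenceSubgroup Filter Function
open scoped MatrixGroups ModularForm Manifold Topology

namespace Fermat.Agent.SquareLevel

open Fermat.Agent.MF

/-- A form of weight `k` on `Γ₀(N)` with its expansion and first `K` coefficients. -/
structure QForm (N K : ℕ) (k : ℕ) where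
  /-- the function -/
  fn : ℍ → ℂ
  /-- the expansion -/
  ser : PowerSeries ℤ
  /-- its first coefficients -/
  list : List ℤ
  form : IsFormFn (Gamma0 N) k fn
  hasExp : HasQExp fn ser
  agree : Agree K ser list

namespace QForm

variable {N K k k' : ℕ}

/-- Product. -/
def mul (x : QForm N K k) (y : QForm N K k') : QForm N K (k + k') where
  fn := x.fn * y.fn
  ser := x.ser * y.ser
  list := conv K x.list y.list
  form := (x.form.mul y.form).cast (by push_cast; ring)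
  hasExp := x.hasExp.mul y.hasExp
  agree := x.agree.mul y.agree

/-- Power. -/
def pow (x : QForm N K k) (e : ℕ) : QForm N K (e * k) where
  fn := x.fn ^ e
  ser := x.ser ^ e
  list := convPow K x.list e
  form := (x.form.pow e).cast (by push_cast; ring)
  hasExp := x.hasExp.pow e
  agree := x.agree.pow e

/-- `a x + b y`. -/
def lin (a : ℤ) (x : QForm N K k) (b : ℤ) (y : QForm N K k) : QForm N K k where
  fn := (a : ℂ) • x.fn + (b : ℂ) • y.fn
  ser := a • x.ser + b • y.ser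
  list := convLin K a x.list b y.list
  form := (x.form.smul _).add (y.form.smul _)
  hasExp := (x.hasExp.smul a).add (y.hasExp.smul b)
  agree := x.agree.lin y.agree a b

/-- A form with computable coefficients. -/
def ofCoeff (f : ℍ → ℂ) (c : ℕ → ℤ) (hf : IsFormFn (Gamma0 N) k f)
    (hc : HasQExp f (PowerSeries.mk c)) : QForm N K k where
  fn := f
  ser := PowerSeries.mk c
  list := (List.range K).map c
  form := hf
  hasExp := hc
  agree := Agree.of_fun c

/-- Equal lists up to the Sturm bound give equal expansions. -/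
theorem ser_eq [NeZero N] (x y : QForm N K k) (hK : k * (Gamma0 N).index / 12 < K)
    (h : x.list = y.list) : x.ser = y.ser := by
  have hd := (x.hasExp.smul 1).add (y.hasExp.smul (-1))
  have hdf := (x.form.smul ((1 : ℤ) : ℂ)).add (y.form.smul ((-1 : ℤ) : ℂ))
  have h0 := eq_zero_of_hasQExp hdf hd K hK fun n hn => by
    rw [map_add, map_zsmul, map_zsmul, x.agree n hn, y.agree n hn, h]
    simp
  have h1 := hd.eq
  rw [h0, qExpansion_zero] at h1
  have h2 : (1 : ℤ) • x.ser + (-1 : ℤ) • y.ser = 0 :=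
    PowerSeries.map_injective (Int.castRingHom ℂ) Int.cast_injective (by rw [← h1, map_zero])
  simpa [← sub_eq_add_neg, sub_eq_zero] using h2

end QForm

theorem index_Gamma0_four : (Gamma0 4).index = 6 := by
  rw [Grp.index_Gamma0, ModularCurve.dedekindPsi]
  decide +kernel

theorem index_Gamma0_nine : (Gamma0 9).index = 12 := by
  rw [Grp.index_Gamma0, ModularCurve.dedekindPsi]
  decide +kernel

/-- `A` at level `4`. -/
def qA2 (K : ℕ) : QForm 4 K 2 := .ofCoeff formA2 coeffA2 isFormFn_A2 hasQExp_A2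

/-- `B` at level `4`. -/
def qB2 (K : ℕ) : QForm 4 K 2 := .ofCoeff formB2 coeffB2 isFormFn_B2 hasQExp_B2

/-- `A` at level `9`. -/
def qA3 (K : ℕ) : QForm 9 K 2 := .ofCoeff formA3 coeffA3 isFormFn_A3 hasQExp_A3

/-- `B` at level `9`. -/
def qB3 (K : ℕ) : QForm 9 K 2 := .ofCoeff formB3 coeffB3 isFormFn_B3 hasQExp_B3

/-- `E₄(dτ)`. -/
def qE4 {N : ℕ} (d : ℕ) [NeZero d] (hd : d ∣ N) (K : ℕ) : QForm N K 4 :=
  .ofCoeff (E4fn ∘ scale d) (scaleCoeff d e4Coeff)
    ((isFormFn_E4.comp_scale_top d).mono (Gamma0_le_of_dvd hd)) (hasQExp_E4.comp_scale d)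

/-- `E₆(dτ)`. -/
def qE6 {N : ℕ} (d : ℕ) [NeZero d] (hd : d ∣ N) (K : ℕ) : QForm N K 6 :=
  .ofCoeff (E6fn ∘ scale d) (scaleCoeff d e6Coeff)
    ((isFormFn_E6.comp_scale_top d).mono (Gamma0_le_of_dvd hd)) (hasQExp_E6.comp_scale d)

/-- The series of `A` at level `4`. -/
def serA2 : PowerSeries ℤ := PowerSeries.mk coeffA2
/-- The series of `B` at level `4`. -/
def serB2 : PowerSeries ℤ := PowerSeries.mk coeffB2
/-- The series of `A` at level `9`. -/
def serA3 : PowerSeries ℤ := PowerSeries.mk coeffA3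
/-- The series of `B` at level `9`. -/
def serB3 : PowerSeries ℤ := PowerSeries.mk coeffB3
/-- The series of `E₄(dτ)`. -/
def serE4 (d : ℕ) : PowerSeries ℤ := PowerSeries.mk (scaleCoeff d e4Coeff)
/-- The series of `E₆(dτ)`. -/
def serE6 (d : ℕ) : PowerSeries ℤ := PowerSeries.mk (scaleCoeff d e6Coeff)

local notation "A₂" => qA2
local notation "B₂" => qB2
local notation "A₃" => qA3
local notation "B₃" => qB3

theorem e4_four_one : serE4 1 = serA2 ^ 2 + 240 * (serA2 * serB2) + 2112 * serB2 ^ 2 := by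
  have h := QForm.ser_eq (qE4 1 (one_dvd 4) 3)
    (.lin 1 (.lin 1 ((A₂ 3).pow 2) 240 ((A₂ 3).mul (B₂ 3))) 2112 ((B₂ 3).pow 2))
    (by rw [index_Gamma0_four]; norm_num) (by decide +kernel)
  exact h.trans (by simp only [QForm.lin, QForm.mul, QForm.pow, qA2, qB2, QForm.ofCoeff, serA2,
    serB2, zsmul_eq_mul]; push_cast; ring)

theorem e6_four_one :
    serE6 1 = serA2 ^ 3 - 504 * (serA2 ^ 2 * serB2) - 16704 * (serA2 * serB2 ^ 2)
      - 96768 * serB2 ^ 3 := by
  have h := QForm.ser_eq (qE6 1 (one_dvd 4) 4)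
    (.lin 1 (.lin 1 ((A₂ 4).pow 3) (-504) (((A₂ 4).pow 2).mul (B₂ 4))) 1
      (.lin (-16704) ((A₂ 4).mul ((B₂ 4).pow 2)) (-96768) ((B₂ 4).pow 3)))
    (by rw [index_Gamma0_four]; norm_num) (by decide +kernel)
  exact h.trans (by simp only [QForm.lin, QForm.mul, QForm.pow, qA2, qB2, QForm.ofCoeff, serA2,
    serB2, zsmul_eq_mul]; push_cast; ring)

theorem e4_four_two : serE4 2 = serA2 ^ 2 + 192 * serB2 ^ 2 := by
  have h := QForm.ser_eq (qE4 2 (by norm_num) 3)
    (.lin 1 ((A₂ 3).pow 2) 192 ((B₂ 3).pow 2))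
    (by rw [index_Gamma0_four]; norm_num) (by decide +kernel)
  exact h.trans (by simp only [QForm.lin, QForm.pow, qA2, qB2, QForm.ofCoeff, serA2,
    serB2, zsmul_eq_mul]; push_cast; ring)

theorem e6_four_two : serE6 2 = serA2 ^ 3 - 576 * (serA2 * serB2 ^ 2) := by
  have h := QForm.ser_eq (qE6 2 (by norm_num) 4)
    (.lin 1 ((A₂ 4).pow 3) (-576) ((A₂ 4).mul ((B₂ 4).pow 2)))
    (by rw [index_Gamma0_four]; norm_num) (by decide +kernel)
  exact h.trans (by simp only [QForm.lin, QForm.mul, QForm.pow, qA2, qB2, QForm.ofCoeff, serA2,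
    serB2, zsmul_eq_mul]; push_cast; ring)

theorem e4_four_four : serE4 4 = serA2 ^ 2 - 48 * serB2 ^ 2 := by
  have h := QForm.ser_eq (qE4 4 (dvd_refl 4) 3)
    (.lin 1 ((A₂ 3).pow 2) (-48) ((B₂ 3).pow 2))
    (by rw [index_Gamma0_four]; norm_num) (by decide +kernel)
  exact h.trans (by simp only [QForm.lin, QForm.pow, qA2, qB2, QForm.ofCoeff, serA2,
    serB2, zsmul_eq_mul]; push_cast; ring)

theorem e6_four_four : serE6 4 = serA2 ^ 3 - 72 * (serA2 * serB2 ^ 2) := by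
  have h := QForm.ser_eq (qE6 4 (dvd_refl 4) 4)
    (.lin 1 ((A₂ 4).pow 3) (-72) ((A₂ 4).mul ((B₂ 4).pow 2)))
    (by rw [index_Gamma0_four]; norm_num) (by decide +kernel)
  exact h.trans (by simp only [QForm.lin, QForm.mul, QForm.pow, qA2, qB2, QForm.ofCoeff, serA2,
    serB2, zsmul_eq_mul]; push_cast; ring)

theorem e4_nine_one :
    serE4 1 * serB3 ^ 2 = serA3 ^ 4 + 240 * (serA3 ^ 3 * serB3) + 2160 * (serA3 ^ 2 * serB3 ^ 2)
      + 6696 * (serA3 * serB3 ^ 3) + 12960 * serB3 ^ 4 := by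
  have h := QForm.ser_eq ((qE4 1 (one_dvd 9) 9).mul ((B₃ 9).pow 2))
    (.lin 1 (.lin 1 (.lin 1 ((A₃ 9).pow 4) 240 (((A₃ 9).pow 3).mul (B₃ 9))) 1
      (.lin 2160 (((A₃ 9).pow 2).mul ((B₃ 9).pow 2)) 6696 ((A₃ 9).mul ((B₃ 9).pow 3))))
      12960 ((B₃ 9).pow 4))
    (by rw [index_Gamma0_nine]; norm_num) (by decide +kernel)
  exact h.trans (by simp only [QForm.lin, QForm.mul, QForm.pow, qA3, qB3, QForm.ofCoeff, serA3,
    serB3, zsmul_eq_mul]; push_cast; ring)

theorem e6_nine_one :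
    serE6 1 * serB3 ^ 3 = serA3 ^ 6 - 504 * (serA3 ^ 5 * serB3)
      - 16632 * (serA3 ^ 4 * serB3 ^ 2) - 123012 * (serA3 ^ 3 * serB3 ^ 3)
      - 517104 * (serA3 ^ 2 * serB3 ^ 4) - 1143072 * (serA3 * serB3 ^ 5)
      - 1475496 * serB3 ^ 6 := by
  have h := QForm.ser_eq ((qE6 1 (one_dvd 9) 13).mul ((B₃ 13).pow 3))
    (.lin 1 (.lin 1 (.lin 1 ((A₃ 13).pow 6) (-504) (((A₃ 13).pow 5).mul (B₃ 13))) 1
      (.lin (-16632) (((A₃ 13).pow 4).mul ((B₃ 13).pow 2)) (-123012)
        (((A₃ 13).pow 3).mul ((B₃ 13).pow 3)))) 1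
      (.lin 1 (.lin (-517104) (((A₃ 13).pow 2).mul ((B₃ 13).pow 4)) (-1143072)
        ((A₃ 13).mul ((B₃ 13).pow 5))) (-1475496) ((B₃ 13).pow 6)))
    (by rw [index_Gamma0_nine]; norm_num) (by decide +kernel)
  exact h.trans (by simp only [QForm.lin, QForm.mul, QForm.pow, qA3, qB3, QForm.ofCoeff, serA3,
    serB3, zsmul_eq_mul]; push_cast; ring)

theorem e4_nine_three : serE4 3 * serB3 ^ 2 = serA3 ^ 4 + 216 * (serA3 * serB3 ^ 3) := by
  have h := QForm.ser_eq ((qE4 3 (by norm_num) 9).mul ((B₃ 9).pow 2))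
    (.lin 1 ((A₃ 9).pow 4) 216 ((A₃ 9).mul ((B₃ 9).pow 3)))
    (by rw [index_Gamma0_nine]; norm_num) (by decide +kernel)
  exact h.trans (by simp only [QForm.lin, QForm.mul, QForm.pow, qA3, qB3, QForm.ofCoeff, serA3,
    serB3, zsmul_eq_mul]; push_cast; ring)

theorem e6_nine_three :
    serE6 3 * serB3 ^ 3 = serA3 ^ 6 - 540 * (serA3 ^ 3 * serB3 ^ 3) - 5832 * serB3 ^ 6 := by
  have h := QForm.ser_eq ((qE6 3 (by norm_num) 13).mul ((B₃ 13).pow 3))
    (.lin 1 (.lin 1 ((A₃ 13).pow 6) (-540) (((A₃ 13).pow 3).mul ((B₃ 13).pow 3))) (-5832)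
      ((B₃ 13).pow 6))
    (by rw [index_Gamma0_nine]; norm_num) (by decide +kernel)
  exact h.trans (by simp only [QForm.lin, QForm.mul, QForm.pow, qA3, qB3, QForm.ofCoeff, serA3,
    serB3, zsmul_eq_mul]; push_cast; ring)

theorem e4_nine_nine : serE4 9 * serB3 ^ 2 = serA3 ^ 4 - 24 * (serA3 * serB3 ^ 3) := by
  have h := QForm.ser_eq ((qE4 9 (dvd_refl 9) 9).mul ((B₃ 9).pow 2))
    (.lin 1 ((A₃ 9).pow 4) (-24) ((A₃ 9).mul ((B₃ 9).pow 3)))
    (by rw [index_Gamma0_nine]; norm_num) (by decide +kernel)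
  exact h.trans (by simp only [QForm.lin, QForm.mul, QForm.pow, qA3, qB3, QForm.ofCoeff, serA3,
    serB3, zsmul_eq_mul]; push_cast; ring)

theorem e6_nine_nine :
    serE6 9 * serB3 ^ 3 = serA3 ^ 6 - 36 * (serA3 ^ 3 * serB3 ^ 3) + 216 * serB3 ^ 6 := by
  have h := QForm.ser_eq ((qE6 9 (dvd_refl 9) 13).mul ((B₃ 13).pow 3))
    (.lin 1 (.lin 1 ((A₃ 13).pow 6) (-36) (((A₃ 13).pow 3).mul ((B₃ 13).pow 3))) 216
      ((B₃ 13).pow 6))
    (by rw [index_Gamma0_nine]; norm_num) (by decide +kernel)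
  exact h.trans (by simp only [QForm.lin, QForm.mul, QForm.pow, qA3, qB3, QForm.ofCoeff, serA3,
    serB3, zsmul_eq_mul]; push_cast; ring)

end Fermat.Agent.SquareLevel
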